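import Fermat.Agent.LevelRaising.Operators
import Mathlib.RingTheory.Int.Basic

/-!
# Cusps of `Γ₀(N)` and invariant symbols
-/

set_option autoImplicit false

noncomputable section

namespace Fermat.Agent.LevelRaising

variable {N : ℕ}

theorem exists_primitive {v : Vec} (hv : v ≠ 0) :
    ∃ (k : ℕ) (w : Vec), k ≠ 0 ∧ IsCoprime w.1 w.2 ∧ v = (k : ℤ) • w := by
  have h0 : Int.gcd v.1 v.2 ≠ 0 := by
    intro h
    rw [Int.gcd_eq_zero_iff] at h
    exact hv (Prod.ext h.1 h.2)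
  obtain ⟨a', ha'⟩ : (Int.gcd v.1 v.2 : ℤ) ∣ v.1 := Int.gcd_dvd_left _ _
  obtain ⟨c', hc'⟩ : (Int.gcd v.1 v.2 : ℤ) ∣ v.2 := Int.gcd_dvd_right _ _
  refine ⟨Int.gcd v.1 v.2, (a', c'), h0, ?_, Prod.ext (by simpa using ha') (by simpa using hc')⟩
  refine ⟨Int.gcdA v.1 v.2, Int.gcdB v.1 v.2, mul_left_cancel₀ (Int.natCast_ne_zero.mpr h0) ?_⟩
  have h := Int.gcd_eq_gcd_ab v.1 v.2
  linear_combination -h - Int.gcdA v.1 v.2 * ha' - Int.gcdB v.1 v.2 * hc'

/-- Congruent primitive vectors are `Γ₀(N)`-equivalent. -/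
theorem exists_lvl_act_eq {v w : Vec} (hv : IsCoprime v.1 v.2) (hw : IsCoprime w.1 w.2)
    {x y z : ℤ} (ha : w.1 = v.1 + x * v.2 + y * N) (hc : w.2 = v.2 + z * N) :
    ∃ γ ∈ Lvl N, act γ v = w := by
  obtain ⟨δ, β, hδ⟩ := hv
  obtain ⟨δ', β', hδ'⟩ := hw
  -- columns `(v, (-β, δ))` and `(w, (-β', δ'))`
  set t := -(x * δ * δ' + δ' * (-β) - δ * (-β')) with ht
  refine ⟨mm w.1 (w.1 * (-t) + -β') w.2 (w.2 * (-t) + δ') * mm δ β (-v.2) v.1, ⟨?_, ?_⟩, ?_⟩
  · rw [Matrix.det_mul, mm_det, mm_det]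
    linear_combination (δ' * w.1 + β' * w.2) * hδ + hδ'
  · have key : δ - δ' - (-t) * v.2 =
        (N : ℤ) * (δ * δ' * y + δ * β' * z) - δ * (δ' * v.1 + δ' * x * v.2 + δ' * y * N +
          β' * v.2 + β' * z * N - 1) + δ' * (δ * v.1 + β * v.2 - 1) := by
      rw [ht]; ring
    have h1 : δ' * v.1 + δ' * x * v.2 + δ' * y * N + β' * v.2 + β' * z * N - 1 = 0 := by
      linear_combination hδ' - δ' * ha - β' * hc
    have h2 : δ * v.1 + β * v.2 - 1 = 0 := by linear_combination hδ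
    rw [h1, h2, mul_zero, mul_zero, sub_zero, add_zero] at key
    simp only [Matrix.mul_apply, Fin.sum_univ_two, mm_one_zero, mm_one_one, mm_zero_zero]
    refine ⟨z * δ - z * (-t) * v.2 + (δ * δ' * y + δ * β' * z) * v.2, ?_⟩
    linear_combination (δ - (-t) * v.2) * hc + v.2 * key
  · simp only [act_mul, act_mm]
    refine Prod.ext ?_ ?_
    · linear_combination w.1 * hδ
    · linear_combination w.2 * hδ

variable {A : Type*} [AddCommGroup A] {G : Vec → A}

/-- An invariant symbol only depends on the class of a cusp, so `T_s = s + 1` for `s ≡ 1 (N)`. -/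
theorem hT_of_invariant (hG : IsSym N G) (hinv : ∀ γ ∈ Lvl N, G (act γ vE) = 0) {s : ℕ}
    (hs : s.Prime) (hsN : (N : ℤ) ∣ (s : ℤ) - 1) : hT s G = (s + 1) • G := by
  have hprim : ∀ v : Vec, IsCoprime v.1 v.2 → ∀ i, G (act (heckMat s i) v) = G v := by
    intro v hv i
    have hv0 : v ≠ 0 := by
      rintro rfl
      exact not_isCoprime_zero_zero hv
    have hdet : (heckMat s i).det ≠ 0 := by rw [det_heckMat]; exact_mod_cast hs.ne_zero
    obtain ⟨k, w, hk, hw, e⟩ := exists_primitive (act_ne_zero hdet hv0)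
    have hks : k ∣ s := by
      have h1 : (s : ℤ) • v = (k : ℤ) • act (heckMat s i).adjugate w := by
        rw [← act_zsmul, ← e, ← act_mul, Matrix.adjugate_mul, det_heckMat, act_smul_mat, act_one]
      simp only [Prod.ext_iff, Prod.smul_fst, Prod.smul_snd, smul_eq_mul] at h1
      obtain ⟨u, u', hu⟩ := hv
      refine Int.natCast_dvd_natCast.mp ⟨u * (act (heckMat s i).adjugate w).1 +
        u' * (act (heckMat s i).adjugate w).2, ?_⟩
      linear_combination (-(s : ℤ)) * hu + u * h1.1 + u' * h1.2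
    obtain ⟨m, hm⟩ : (N : ℤ) ∣ (k : ℤ) - 1 := by
      rcases (Nat.dvd_prime hs).mp hks with rfl | rfl
      · simp
      · exact hsN
    obtain ⟨n, hn⟩ := hsN
    have ha : ∃ x y z : ℤ, w.1 = v.1 + x * v.2 + y * N ∧ w.2 = v.2 + z * N := by
      cases i with
      | none =>
        simp only [heckMat, act_mm, Prod.ext_iff, Prod.smul_fst, Prod.smul_snd, smul_eq_mul] at e
        refine ⟨0, n * v.1 - m * w.1, -(m * w.2), ?_, ?_⟩
        · linear_combination -e.1 + v.1 * hn - w.1 * hm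
        · linear_combination -e.2 - w.2 * hm
      | some j =>
        simp only [heckMat, act_mm, Prod.ext_iff, Prod.smul_fst, Prod.smul_snd, smul_eq_mul] at e
        refine ⟨(j : ℕ), -(m * w.1), n * v.2 - m * w.2, ?_, ?_⟩
        · linear_combination -e.1 - w.1 * hm
        · linear_combination -e.2 + v.2 * hn - w.2 * hm
    obtain ⟨x, y, z, hx, hz⟩ := ha
    obtain ⟨γ, hγ, hγv⟩ := exists_lvl_act_eq hv hw hx hz
    rw [e, hG.homog _ (Int.natCast_ne_zero.mpr hk), ← hγv, hG.equiv γ hγ v hv0, hinv γ hγ,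
      zero_add]
  funext v
  by_cases hv : v = 0
  · simp [hv, op_zero_vec, hG.zero]
  obtain ⟨k, w, hk, hw, rfl⟩ := exists_primitive hv
  have hk' : (k : ℤ) ≠ 0 := Int.natCast_ne_zero.mpr hk
  simp only [hT]
  rw [op_apply _ _ hv, Finset.sum_congr rfl fun i _ => by
    rw [act_zsmul, hG.homog _ hk', hprim w hw i,
      hprim vE (by simpa [vE] using isCoprime_one_left) i, hG.apply_vE, sub_zero]]
  simp only [Pi.smul_apply, hG.homog _ hk', Finset.sum_const, Finset.card_univ,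
    Fintype.card_option, Fintype.card_fin]

end Fermat.Agent.LevelRaising
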