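import Fermat.Agent.LevelRaising.Reps
import Mathlib.Data.Fintype.Option
import Mathlib.Algebra.Group.Fin.Basic

/-!
# The operators `T_s`, `U_q`, trace, Atkin–Lehner and their identities on symbols
-/

set_option autoImplicit false
set_option linter.unusedSimpArgs false

noncomputable section

namespace Fermat.Agent.LevelRaising

section Generic

variable {A : Type*} [AddCommGroup A]

theorem op_add {ι : Type*} [Fintype ι] (β : ι → Mat) (G G' : Vec → A) :
    op β (G + G') = op β G + op β G' :=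
  map_add (opLin ℤ β) G G'

theorem op_neg {ι : Type*} [Fintype ι] (β : ι → Mat) (G : Vec → A) :
    op β (-G) = -op β G :=
  map_neg (opLin ℤ β) G

theorem fact_self_one (X : Set Mat) : IsFact X X (fun _ : Unit => (1 : Mat)) where
  det_ne_zero _ := by simp
  mem y hy _ := by simpa using hy
  fact x hx := ⟨(), x, hx, (mul_one x).symm⟩
  unique _ _ _ := rfl

end Generic

variable {A : Type*} [AddCommGroup A] {N M q : ℕ} {G : Vec → A}

/-- `T_s` on symbols. -/
abbrev hT (s : ℕ) (G : Vec → A) : Vec → A := op (heckMat s) G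

/-- `U_q` on symbols. -/
abbrev hU (q : ℕ) (G : Vec → A) : Vec → A := op (uMat q) G

/-- The trace from level `N q` to level `N`. -/
abbrev hTr (N q : ℕ) (G : Vec → A) : Vec → A := op (traceMat N q) G

/-- Translation by the matrix `w`. -/
abbrev hAct (w : Mat) (G : Vec → A) : Vec → A := op (fun _ : Unit => w) G

theorem isSym_hT {s : ℕ} (hs : s.Prime) (hsN : ¬ s ∣ N) (hG : IsSym N G) :
    IsSym N (hT s G) := by
  refine (fact_heckMat_one hs hsN).isSym_op (fun γ hγ x hx => ?_) hG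
  have := detLevel_mul hx hγ
  rwa [mul_one] at this

theorem hT_comm {r s : ℕ} (hr : r.Prime) (hrN : ¬ r ∣ N) (hs : s.Prime) (hsN : ¬ s ∣ N)
    (hG : IsSym N G) : hT r (hT s G) = hT s (hT r G) := by
  by_cases hrs : r = s
  · rw [hrs]
  simp only [hT, hTr, hU, hAct] at *
  rw [op_op _ _ fun i => by rw [det_heckMat]; exact_mod_cast hr.ne_zero,
    op_op _ _ fun i => by rw [det_heckMat]; exact_mod_cast hs.ne_zero]
  have h1 : IsFact (DetLevel N ((s : ℤ) * r)) (Lvl N)
      (fun p : Option (Fin r) × Option (Fin s) => heckMat s p.2 * heckMat r p.1) := by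
    refine (fact_heckMat hr hrN ?_).comp (fact_heckMat_one hs hsN)
    exact_mod_cast fun h => hrs ((Nat.prime_dvd_prime_iff_eq hr hs).mp h)
  have h2 : IsFact (DetLevel N ((r : ℤ) * s)) (Lvl N)
      (fun p : Option (Fin s) × Option (Fin r) => heckMat r p.2 * heckMat s p.1) := by
    refine (fact_heckMat hs hsN ?_).comp (fact_heckMat_one hr hrN)
    exact_mod_cast fun h => hrs ((Nat.prime_dvd_prime_iff_eq hs hr).mp h).symm
  rw [mul_comm] at h2
  exact h1.op_eq h2 hG

theorem isSym_hTr (hq : q.Prime) (hqN : ¬ q ∣ N) (hG : IsSym (N * q) G) :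
    IsSym N (hTr N q G) :=
  (fact_traceMat_one hq hqN).isSym_op (fun _ hγ _ hx => lvl_mul hx hγ) hG

theorem hTr_hT {s : ℕ} (hq : q.Prime) (hqN : ¬ q ∣ N) (hs : s.Prime) (hsN : ¬ s ∣ N * q)
    (hG : IsSym (N * q) G) : hTr N q (hT s G) = hT s (hTr N q G) := by
  have hsN' : ¬ s ∣ N := fun h => hsN (h.mul_right q)
  have hsq : ¬ (q : ℤ) ∣ (s : ℤ) := by
    exact_mod_cast fun h => hsN (((Nat.prime_dvd_prime_iff_eq hq hs).mp h).symm ▸ dvd_mul_left q N)
  simp only [hT, hTr, hU, hAct] at *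
  rw [op_op _ _ fun i => by rw [det_traceMat hq hqN]; exact one_ne_zero,
    op_op _ _ fun i => by rw [det_heckMat]; exact_mod_cast hs.ne_zero]
  exact ((fact_traceMat hq hqN hsq).comp (fact_heckMat_one hs hsN)).op_eq
    ((fact_heckMat_one hs hsN').comp (fact_traceMat_one hq hqN)) hG

theorem isSym_hAct {w : Mat} (hw : Normalises M w) (hG : IsSym M G) : IsSym M (hAct w G) := by
  have h : IsFact ((· * w) '' Lvl M) (Lvl M) (fun _ : Unit => 1 * w) :=
    (fact_self_one (Lvl M)).mul_right w hw.det_ne_zero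
  simp only [one_mul] at h
  refine h.isSym_op (fun γ hγ => ?_) hG
  rintro _ ⟨x, hx, rfl⟩
  obtain ⟨y, hy, e⟩ := hw.left 1 γ hγ
  exact ⟨x * y, lvl_mul hx hy, by simp only [mul_assoc, e]⟩

theorem hAct_hT {w : Mat} (hw : Normalises M w) {s : ℕ} (hs : s.Prime) (hsM : ¬ s ∣ M)
    (hG : IsSym M G) : hAct w (hT s G) = hT s (hAct w G) := by
  simp only [hT, hTr, hU, hAct] at *
  rw [op_op _ _ fun _ => hw.det_ne_zero,
    op_op _ _ fun i => by rw [det_heckMat]; exact_mod_cast hs.ne_zero]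
  have hf := fact_heckMat_one hs hsM
  have h1 : IsFact ((· * w) '' DetLevel M s) (Lvl M)
      (fun p : Unit × Option (Fin s) => heckMat s p.2 * w) := by
    have := ((fact_self_one (DetLevel M s)).comp hf).mul_right w hw.det_ne_zero
    simpa using this
  have h2 : IsFact ((· * w) '' DetLevel M s) (Lvl M)
      (fun p : Option (Fin s) × Unit => w * heckMat s p.1) := by
    refine ⟨fun i => ?_, fun y hy i => ?_, ?_, ?_⟩
    · rw [Matrix.det_mul]; exact mul_ne_zero hw.det_ne_zero (hf.det_ne_zero _)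
    · obtain ⟨y', hy', e⟩ := hw.right 1 y hy
      obtain ⟨z, hz, e'⟩ := hw.left s _ (hf.mem y' hy' i.1)
      exact ⟨z, hz, by simp only [← mul_assoc, e, ← e']⟩
    · rintro _ ⟨x, hx, rfl⟩
      obtain ⟨x', hx', e⟩ := hw.right s x hx
      obtain ⟨i, y, hy, rfl⟩ := hf.fact x' hx'
      obtain ⟨y', hy', e'⟩ := hw.left 1 y hy
      exact ⟨(i, ()), y', hy', by simp only [e, ← mul_assoc, e']⟩
    · intro i j y y' hy hy' e
      obtain ⟨z, hz, ez⟩ := hw.right 1 y hy
      obtain ⟨z', hz', ez'⟩ := hw.right 1 y' hy'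
      rw [← mul_assoc, ← mul_assoc, ez, ez', mul_assoc, mul_assoc] at e
      exact Prod.ext (hf.unique hz hz' (mat_cancel_left hw.det_ne_zero e)) rfl
  exact h1.op_eq h2 hG

theorem hAct_wMat_wMat (hq : q.Prime) (hqN : ¬ q ∣ N) (hG : IsSym (N * q) G) :
    hAct (wMat N q) (hAct (wMat N q) G) = G := by
  simp only [hT, hTr, hU, hAct] at *
  rw [op_op _ _ fun _ => (normalises_wMat hq hqN).det_ne_zero]
  have h : op (fun _ : Unit × Unit => wMat N q * wMat N q) G = op (fun _ : Unit => (1 : Mat)) G := by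
    obtain ⟨g, hg, e⟩ := exists_wMat_sq hq hqN
    refine op_congr hG (Equiv.punitProd Unit) (fun _ => by simp) fun i => ?_
    exact ⟨g, hg, q, by exact_mod_cast hq.ne_zero, by rw [e, mul_one]⟩
  rw [h]
  exact op_eq_self hG rfl

theorem hTr_of_isSym (hq : q.Prime) (hqN : ¬ q ∣ N) (hG : IsSym N G) :
    hTr N q G = (q + 1) • G := by
  funext v
  by_cases hv : v = 0
  · simp [hv, op_zero_vec, hG.zero]
  · simp only [hTr]
    rw [op_apply _ _ hv, Finset.sum_congr rfl fun i _ =>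
      (hG.sub_eq (traceMat_mem_lvl hq hqN i) vE_ne_zero hv).trans (by rw [hG.apply_vE, sub_zero])]
    simp

theorem wMat_mul_traceMat (hq : q.Prime) (hqN : ¬ q ∣ N) (i : Option (Fin q)) :
    ∃ γ ∈ Lvl N, wMat N q * traceMat N q i = (1 : ℤ) • (γ * heckMat q i) := by
  have hγ : mm 1 (alB N q) N (q * alD N q) ∈ Lvl N :=
    mm_mem_detLevel.mpr ⟨by linear_combination al_spec hq hqN, dvd_rfl⟩
  have hγ2 : mm q (alB N q) N (alD N q) ∈ Lvl N :=
    mm_mem_detLevel.mpr ⟨by linear_combination al_spec hq hqN, dvd_rfl⟩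
  cases i with
  | none =>
    refine ⟨_, hγ, ?_⟩
    simp only [traceMat, mul_one, one_smul, wMat, heckMat, mm_mul, mm_inj]
    push_cast
    refine ⟨?_, ?_, ?_, ?_⟩ <;> ring
  | some j =>
    refine ⟨_, lvl_mul hγ hγ2, ?_⟩
    simp only [traceMat, one_smul, wMat, heckMat, mm_mul, mm_inj]
    push_cast
    refine ⟨?_, ?_, ?_, ?_⟩ <;> ring

/-- `Tr ∘ W = T_q` on symbols of level `N`. -/
theorem hTr_hAct_of_isSym (hq : q.Prime) (hqN : ¬ q ∣ N) (hG : IsSym N G) :
    hTr N q (hAct (wMat N q) G) = hT q G := by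
  simp only [hT, hTr, hU, hAct] at *
  rw [op_op _ _ fun i => by rw [det_traceMat hq hqN]; exact one_ne_zero]
  refine op_congr hG (Equiv.prodPUnit _) (fun i => by rw [det_heckMat]; exact_mod_cast hq.ne_zero)
    fun i => ?_
  obtain ⟨γ, hγ, e⟩ := wMat_mul_traceMat hq hqN i.1
  exact ⟨γ, hγ, 1, one_ne_zero, e⟩

theorem hU_hAct (hq : q.Prime) (hqN : ¬ q ∣ N) (hG : IsSym (N * q) G) :
    hU q (hAct (wMat N q) G) = op (fun j : Fin q => traceMat N q (some j)) G := by
  simp only [hT, hTr, hU, hAct] at *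
  rw [op_op _ _ fun i => by simp [uMat, hq.ne_zero]]
  refine op_congr hG (Equiv.prodPUnit _) (fun i => by rw [det_traceMat hq hqN]; exact one_ne_zero)
    fun i => ⟨1, one_mem_lvl _, q, by exact_mod_cast hq.ne_zero, ?_⟩
  simp only [traceMat, wMat, uMat, one_mul, mm_mul, smul_mm, Equiv.prodPUnit_apply, mm_inj]
  push_cast
  refine ⟨?_, ?_, ?_, ?_⟩ <;> ring

theorem hTr_eq (hq : q.Prime) (hqN : ¬ q ∣ N) (hG : IsSym (N * q) G) :
    hTr N q G = G + hU q (hAct (wMat N q) G) := by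
  rw [hU_hAct hq hqN hG]
  funext v
  by_cases hv : v = 0
  · simp [hv, op_zero_vec, hG.zero]
  · simp only [hTr]
    rw [Pi.add_apply, op_apply _ _ hv, op_apply _ _ hv, Fintype.sum_option]
    simp [traceMat, hG.apply_vE]

/-- On symbols killed by both traces `U_q² = 1`. -/
theorem hU_hU_of_traces_eq_zero (hq : q.Prime) (hqN : ¬ q ∣ N) (hG : IsSym (N * q) G)
    (h1 : hTr N q G = 0) (h2 : hTr N q (hAct (wMat N q) G) = 0) :
    hU q (hU q G) = G := by
  rw [hTr_eq hq hqN hG] at h1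
  rw [hTr_eq hq hqN (isSym_hAct (normalises_wMat hq hqN) hG), hAct_wMat_wMat hq hqN hG] at h2
  have e1 : hU q G = -hAct (wMat N q) G := eq_neg_of_add_eq_zero_right h2
  have e2 : hU q (hAct (wMat N q) G) = -G := eq_neg_of_add_eq_zero_right h1
  rw [e1, hU, op_neg]
  rw [show op (uMat q) (hAct (wMat N q) G) = -G from e2, neg_neg]

/-- `U_q` commutes with the reflection `z ↦ -conj z`. -/
theorem hAct_jMat_hU (hq : q.Prime) (hG : IsSym M G) :
    hAct (mm (-1) 0 0 1) (hU q G) = hU q (hAct (mm (-1) 0 0 1) G) := by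
  have : NeZero q := ⟨hq.ne_zero⟩
  simp only [hT, hTr, hU, hAct] at *
  rw [op_op _ _ fun _ => by simp, op_op _ _ fun i => by simp [uMat, hq.ne_zero]]
  refine op_congr hG ((Equiv.punitProd _).trans ((Equiv.neg (Fin q)).trans (Equiv.prodPUnit _).symm))
    (fun i => by simp [uMat, hq.ne_zero]) ?_
  rintro ⟨⟨⟩, i⟩
  obtain ⟨t, ht⟩ : ∃ t : ℤ, ((-i : Fin q) : ℕ) = -((i : ℕ) : ℤ) + q * t := by
    refine ⟨if (i : ℕ) = 0 then 0 else 1, ?_⟩
    rw [Fin.val_neg']
    split_ifs with h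
    · simp [h]
    · rw [Nat.mod_eq_of_lt (by omega)]
      omega
  refine ⟨mm 1 t 0 1, mm_mem_detLevel.mpr ⟨by ring, dvd_zero _⟩, 1, one_ne_zero, ?_⟩
  simp only [uMat, one_smul, mm_mul, mm_inj, Equiv.trans_apply, Equiv.punitProd_apply,
    Equiv.neg_apply, Equiv.prodPUnit_symm_apply]
  refine ⟨?_, ?_, ?_, ?_⟩
  all_goals first | ring1 | linear_combination ht

end Fermat.Agent.LevelRaising
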