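import Fermat.Agent.EichlerShimura.Facts
import Fermat.Agent.EichlerShimura.HeckePeriod
import Fermat.Agent.HeckeFinite.WeightTwo
import Fermat.Agent.LevelRaising.Operators

/-!
# The symbol of a weight two cusp form

The value at a cusp of the primitive vanishing at `∞`; it is a symbol in the sense of
`Fermat.Agent.LevelRaising.IsSym`, its restriction to the group is the period map, and it carries
the Hecke operators to the operators on symbols.
-/

set_option autoImplicit false

noncomputable section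

open UpperHalfPlane Filter Topology CongruenceSubgroup ModularCurve ModularCurve.Period
open scoped MatrixGroups ModularForm

namespace Fermat.Agent.LevelRaising

/-- An integral matrix of nonzero determinant as an element of `GL₂(ℝ)`. -/
def toGL (M : Mat) (hM : M.det ≠ 0) : GL (Fin 2) ℝ :=
  Matrix.GeneralLinearGroup.mkOfDetNeZero ((Int.castRingHom ℝ).mapMatrix M) (by
    rw [← RingHom.map_det]; exact Int.cast_ne_zero.mpr hM)

theorem toGL_val (M : Mat) (hM : M.det ≠ 0) :
    ((toGL M hM : GL (Fin 2) ℝ) : Matrix (Fin 2) (Fin 2) ℝ) = (Int.castRingHom ℝ).mapMatrix M :=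
  rfl

theorem toGL_mul (A B : Mat) (hA : A.det ≠ 0) (hB : B.det ≠ 0) :
    toGL (A * B) (by rw [Matrix.det_mul]; exact mul_ne_zero hA hB) = toGL A hA * toGL B hB := by
  refine Units.ext ?_
  rw [Units.val_mul, toGL_val, toGL_val, toGL_val, map_mul]

theorem toGL_congr {A B : Mat} (h : A = B) (hA : A.det ≠ 0) :
    toGL A hA = toGL B (h ▸ hA) := by subst h; rfl

theorem toGL_SL (g : SL(2, ℤ)) :
    toGL (g : Mat) (by rw [g.det_coe]; exact one_ne_zero) = (g : GL (Fin 2) ℝ) := by
  refine Units.ext ?_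
  ext i j
  simp [toGL_val]

theorem exists_SL_col {v : Vec} (hv : v ≠ 0) :
    ∃ (δ : SL(2, ℤ)) (k : ℤ), k ≠ 0 ∧ v = k • act (δ : Mat) vE := by
  have h0 : Int.gcd v.1 v.2 ≠ 0 := by
    intro h
    rw [Int.gcd_eq_zero_iff] at h
    exact hv (Prod.ext h.1 h.2)
  obtain ⟨x, y, h1, h2, h3⟩ := Int.exists_gcd_one (Nat.pos_of_ne_zero h0)
  obtain ⟨δ, d0, d1⟩ := (Int.isCoprime_iff_gcd_eq_one.mpr h1).exists_SL2_col 0
  refine ⟨δ, (Int.gcd v.1 v.2 : ℤ), Int.natCast_ne_zero.mpr h0, ?_⟩
  rw [act_vE, d0, d1, Prod.smul_mk, smul_eq_mul, smul_eq_mul, mul_comm _ x, mul_comm _ y, ← h2,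
    ← h3]

open Classical in
/-- The limit of `F` at the cusp of a vector. -/
def symOf (F : ℍ → ℂ) (v : Vec) : ℂ :=
  if h : v ≠ 0 then
    limUnder atImInfty fun w : ℍ => F ((exists_SL_col h).choose • w)
  else 0

variable {N : ℕ} {f g : CuspForm (Gamma0 N) 2} {F G : ℍ → ℂ}

/-- Any integral matrix sending `e` to a multiple of `v` computes the value at `v`. -/
theorem tendsto_symOf (hF : HasEquivariantPrimitive N f F) {v : Vec} (hv : v ≠ 0) (M : Mat)
    (hM : M.det ≠ 0) {a b : ℤ} (ha : a ≠ 0) (h : a • act M vE = b • v) :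
    Tendsto (fun w : ℍ => F (toGL M hM • w)) atImInfty (𝓝 (symOf F v)) := by
  set δ := (exists_SL_col hv).choose
  obtain ⟨k, hk, hvk⟩ := (exists_SL_col hv).choose_spec
  obtain ⟨L, hL⟩ := hF.2.2.2 δ
  have hsym : symOf F v = L := by rw [symOf, dif_pos hv]; exact hL.limUnder_eq
  rw [hsym]
  have hδ : (δ : Mat) ∈ Lvl 1 := ⟨δ.det_coe, one_dvd _⟩
  have hX : ((δ : Mat).adjugate * M).det ≠ 0 := by
    rw [Matrix.det_mul, Matrix.det_adjugate, δ.det_coe]
    simpa using hM
  have h10 : ((δ : Mat).adjugate * M) 1 0 = 0 := by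
    have h1 := congrArg (act (δ : Mat).adjugate) h
    rw [act_zsmul, hvk, smul_smul, act_zsmul, ← act_mul, ← act_mul, adjugate_mul_lvl hδ, act_one,
      act_vE] at h1
    have h2 := congrArg Prod.snd h1
    simpa [vE, ha] using h2
  have e : ∀ w : ℍ, toGL M hM • w = δ • (toGL _ hX • w) := fun w => by
    have hM' : M = (δ : Mat) * ((δ : Mat).adjugate * M) := by
      rw [← mul_assoc, mul_adjugate_lvl hδ, one_mul]
    rw [toGL_congr hM', toGL_mul _ _ (by rw [δ.det_coe]; exact one_ne_zero) hX, mul_smul, toGL_SL]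
    rfl
  simp only [e]
  refine hL.comp (tendsto_smul_atImInfty ?_)
  show ((toGL _ hX : GL (Fin 2) ℝ) : Matrix (Fin 2) (Fin 2) ℝ) 1 0 = 0
  rw [toGL_val, RingHom.mapMatrix_apply, Matrix.map_apply, h10, map_zero]

theorem tendsto_symOf_act (hF : HasEquivariantPrimitive N f F) (M : Mat) (hM : M.det ≠ 0) :
    Tendsto (fun w : ℍ => F (toGL M hM • w)) atImInfty (𝓝 (symOf F (act M vE))) :=
  tendsto_symOf hF (act_ne_zero hM vE_ne_zero) M hM one_ne_zero rfl

theorem symOf_vE (hF : HasEquivariantPrimitive N f F) : symOf F vE = 0 := by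
  have h := tendsto_symOf_act hF (1 : Mat) (by simp)
  rw [act_one] at h
  refine tendsto_nhds_unique (h.congr fun w => ?_) hF.2.1
  rw [show toGL (1 : Mat) _ = 1 from Units.ext (by rw [toGL_val, map_one]; rfl), one_smul]

/-- Translation by the group adds the period. -/
theorem symOf_act_lvl (hF : HasEquivariantPrimitive N f F) (γ : Gamma0 N) {v : Vec} (hv : v ≠ 0) :
    symOf F (act ((γ : SL(2, ℤ)) : Mat) v) = hF.2.2.1.period γ + symOf F v := by
  set g : Mat := ((γ : SL(2, ℤ)) : Mat)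
  have hg : g.det ≠ 0 := by rw [show g.det = 1 from (γ : SL(2, ℤ)).det_coe]; exact one_ne_zero
  obtain ⟨δ, k, hk, hvk⟩ := exists_SL_col hv
  have hδ : (δ : Mat).det ≠ 0 := by rw [δ.det_coe]; exact one_ne_zero
  have h1 := tendsto_symOf hF (act_ne_zero hg hv) (g * (δ : Mat))
    (by rw [Matrix.det_mul]; exact mul_ne_zero hg hδ) (b := 1) hk
    (by rw [one_smul, act_mul, ← act_zsmul, ← hvk])
  have h2 := (tendsto_symOf hF hv (δ : Mat) hδ (b := 1) hk
    (by rw [one_smul, ← hvk])).const_add (hF.2.2.1.period γ)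
  refine tendsto_nhds_unique (h1.congr fun w => ?_) h2
  rw [toGL_mul g (δ : Mat) hg hδ, mul_smul, toGL_SL, toGL_SL]
  have h3 := hF.2.2.1.sub_eq_period γ (δ • w)
  show F ((γ : SL(2, ℤ)) • δ • w) = hF.2.2.1.period γ + F (δ • w)
  linear_combination h3

theorem symOf_gamma (hF : HasEquivariantPrimitive N f F) (γ : Gamma0 N) :
    symOf F (act ((γ : SL(2, ℤ)) : Mat) vE) = hF.2.2.1.period γ := by
  rw [symOf_act_lvl hF γ vE_ne_zero, symOf_vE hF, add_zero]

/-- An element of `Lvl N` as an element of `Γ₀(N)`. -/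
theorem exists_gamma0_coe {γ : Mat} (hγ : γ ∈ Lvl N) :
    ∃ g : Gamma0 N, ((g : SL(2, ℤ)) : Mat) = γ :=
  ⟨⟨⟨γ, hγ.1⟩, Gamma0_mem.mpr ((ZMod.intCast_zmod_eq_zero_iff_dvd _ _).mpr hγ.2)⟩, rfl⟩

theorem isSym_symOf (hF : HasEquivariantPrimitive N f F) : IsSym N (symOf F) where
  zero := by simp [symOf]
  homog k hk v := by
    by_cases hv : v = 0
    · simp [hv]
    obtain ⟨δ, j, hj, hvj⟩ := exists_SL_col hv
    have hδ : (δ : Mat).det ≠ 0 := by rw [δ.det_coe]; exact one_ne_zero
    exact tendsto_nhds_unique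
      (tendsto_symOf hF (zsmul_vec_ne_zero hk hv) (δ : Mat) hδ (b := 1) (mul_ne_zero hk hj)
        (by rw [one_smul, ← smul_smul, ← hvj]))
      (tendsto_symOf hF hv (δ : Mat) hδ (b := 1) hj (by rw [one_smul, ← hvj]))
  equiv γ hγ v hv := by
    obtain ⟨g, rfl⟩ := exists_gamma0_coe hγ
    rw [symOf_act_lvl hF g hv, symOf_gamma hF]

/-- The transfer: a form given by affine substitutions has the symbol given by `op`. -/
theorem symOf_eq_op {ι : Type*} [Fintype ι] (β : ι → Mat) (hβ : ∀ i, (β i).det ≠ 0) (a : ι → ℝ)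
    (b : ι → ℂ) (hα : ∀ i, EichlerShimura.IsAffineAt (toGL (β i) (hβ i)) (a i) (b i))
    (hg : ∀ τ : ℍ, g τ = ∑ i, (a i : ℂ) * f (toGL (β i) (hβ i) • τ))
    (hF : HasEquivariantPrimitive N f F) (hG : HasEquivariantPrimitive N g G) :
    symOf G = op β (symOf F) := by
  have hconst : ∀ z w : ℍ, G z - ∑ i, F (toGL (β i) (hβ i) • z) =
      G w - ∑ i, F (toGL (β i) (hβ i) • w) := by
    intro z w
    refine EichlerShimura.eq_of_hasDerivAt_zero
      (H := fun z => G z - ∑ i, F (toGL (β i) (hβ i) • z)) (fun τ => ?_) z w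
    have h1 := (hG.1 τ).sub (HasDerivAt.fun_sum (u := Finset.univ)
      fun i _ => EichlerShimura.hasDerivAt_comp_affine (hα i) (hF.1 (toGL (β i) (hβ i) • τ)))
    rw [← hg τ, sub_self] at h1
    exact h1
  have key : ∀ (M : Mat) (hM : M.det ≠ 0), symOf G (act M vE) =
      (G UpperHalfPlane.I - ∑ i, F (toGL (β i) (hβ i) • UpperHalfPlane.I)) +
        ∑ i, symOf F (act (β i) (act M vE)) := by
    intro M hM
    have hlim := ((tendsto_finsetSum Finset.univ fun i _ => tendsto_symOf_act hF (β i * M)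
      (by rw [Matrix.det_mul]; exact mul_ne_zero (hβ i) hM))).const_add
        (G UpperHalfPlane.I - ∑ i, F (toGL (β i) (hβ i) • UpperHalfPlane.I))
    simp only [act_mul] at hlim
    refine tendsto_nhds_unique (tendsto_symOf_act hG M hM) (hlim.congr fun w => ?_)
    simp only [toGL_mul _ M (hβ _) hM, mul_smul]
    linear_combination (hconst (toGL M hM • w) UpperHalfPlane.I).symm
  funext v
  by_cases hv : v = 0
  · simp [hv, op_zero_vec, symOf]
  have h0 := key 1 (by simp)
  rw [act_one, symOf_vE hG] at h0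
  rw [op_apply _ _ hv]
  obtain ⟨δ, k, hk, rfl⟩ := exists_SL_col hv
  simp only [act_zsmul, (isSym_symOf hG).homog k hk, (isSym_symOf hF).homog k hk,
    Finset.sum_sub_distrib]
  rw [key _ (by rw [δ.det_coe]; exact one_ne_zero)]
  linear_combination -h0

section Lin

variable (N) [NeZero N]

open HeckeFinite in
/-- The symbol of a cusp form. -/
def perSym : CuspForm (Gamma0 N) 2 →ₗ[ℂ] (Vec → ℂ) where
  toFun f := symOf (prim ⇑f)
  map_add' f g := by
    rw [hasEquivariantPrimitive_unique (hasEquivariantPrimitive_prim (f + g))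
      (EichlerShimura.hasEquivariantPrimitive_add (hasEquivariantPrimitive_prim f)
        (hasEquivariantPrimitive_prim g))]
    funext v
    by_cases hv : v = 0
    · simp [hv, symOf]
    obtain ⟨δ, k, hk, hvk⟩ := exists_SL_col hv
    have hδ : (δ : Mat).det ≠ 0 := by rw [δ.det_coe]; exact one_ne_zero
    have he : k • act (δ : Mat) vE = (1 : ℤ) • v := by rw [one_smul, ← hvk]
    exact tendsto_nhds_unique
      (tendsto_symOf (EichlerShimura.hasEquivariantPrimitive_add (hasEquivariantPrimitive_prim f)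
        (hasEquivariantPrimitive_prim g)) hv _ hδ hk he)
      ((tendsto_symOf (hasEquivariantPrimitive_prim f) hv _ hδ hk he).add
        (tendsto_symOf (hasEquivariantPrimitive_prim g) hv _ hδ hk he))
  map_smul' c f := by
    rw [hasEquivariantPrimitive_unique (hasEquivariantPrimitive_prim (c • f))
      (EichlerShimura.hasEquivariantPrimitive_smul c (hasEquivariantPrimitive_prim f))]
    funext v
    by_cases hv : v = 0
    · simp [hv, symOf]
    obtain ⟨δ, k, hk, hvk⟩ := exists_SL_col hv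
    have hδ : (δ : Mat).det ≠ 0 := by rw [δ.det_coe]; exact one_ne_zero
    have he : k • act (δ : Mat) vE = (1 : ℤ) • v := by rw [one_smul, ← hvk]
    exact tendsto_nhds_unique
      (tendsto_symOf (EichlerShimura.hasEquivariantPrimitive_smul c
        (hasEquivariantPrimitive_prim f)) hv _ hδ hk he)
      ((tendsto_symOf (hasEquivariantPrimitive_prim f) hv _ hδ hk he).const_smul c)

theorem isSym_perSym (f : CuspForm (Gamma0 N) 2) : IsSym N (perSym N f) :=
  isSym_symOf (HeckeFinite.hasEquivariantPrimitive_prim f)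

theorem perSym_gamma (f : CuspForm (Gamma0 N) 2) (γ : Gamma0 N) :
    perSym N f (act ((γ : SL(2, ℤ)) : Mat) vE) = periodMap N f (Additive.ofMul γ) := by
  rw [HeckeFinite.periodMap_eq (HeckeFinite.hasEquivariantPrimitive_prim f),
    IsEquivariantPrimitive.periodHom_apply]
  exact symOf_gamma (HeckeFinite.hasEquivariantPrimitive_prim f) γ

theorem perSym_injective : Function.Injective (perSym N) := fun f g h =>
  HeckeFinite.periodMap_injective N (AddMonoidHom.ext fun γ => by
    obtain ⟨γ, rfl⟩ := Additive.ofMul.surjective γ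
    rw [← perSym_gamma, ← perSym_gamma, h])

theorem toGL_heckMat_some {s : ℕ} (hs : s ≠ 0) (j : Fin s) (h : (heckMat s (some j)).det ≠ 0) :
    toGL (heckMat s (some j)) h = ModularForm.heckeMatrix s j := by
  refine Units.ext ?_
  rw [ModularForm.val_heckeMatrix hs, toGL_val]
  ext i k
  fin_cases i <;> fin_cases k <;> simp [heckMat]

theorem toGL_heckMat_none {s : ℕ} (hs : s ≠ 0) (h : (heckMat s none).det ≠ 0) :
    toGL (heckMat s none) h = ModularForm.heckeDiagMatrix s := by
  refine Units.ext ?_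
  rw [ModularForm.val_heckeDiagMatrix hs, toGL_val]
  ext i k
  fin_cases i <;> fin_cases k <;> simp [heckMat]

theorem perSym_heckeTLin {s : ℕ} (hs : s.Prime) (hsN : ¬ s ∣ N) (f : CuspForm (Gamma0 N) 2) :
    perSym N (CuspForm.heckeTLin 2 hs hsN f) = hT s (perSym N f) := by
  have hd : ∀ i, (heckMat s i).det ≠ 0 := fun i => by
    rw [det_heckMat]; exact_mod_cast hs.ne_zero
  refine symOf_eq_op (heckMat s) hd (fun i => i.elim (s : ℝ) fun _ => (s : ℝ)⁻¹)
    (fun i => i.elim 0 fun j => ((j : ℕ) : ℂ) / s) (fun i => ?_) (fun τ => ?_)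
    (HeckeFinite.hasEquivariantPrimitive_prim f) (HeckeFinite.hasEquivariantPrimitive_prim _)
  · cases i with
    | none => rw [toGL_heckMat_none hs.ne_zero]; exact EichlerShimura.isAffineAt_heckeDiagMatrix hs.ne_zero
    | some j => rw [toGL_heckMat_some hs.ne_zero]; exact EichlerShimura.isAffineAt_heckeMatrix hs.ne_zero j
  · rw [CuspForm.heckeTLin_apply_apply, ModularForm.heckeT_apply 2 hs.ne_zero, Fintype.sum_option,
      toGL_heckMat_none hs.ne_zero, add_comm, Finset.mul_sum,
      ← Fin.sum_univ_eq_sum_range (fun j => (s : ℂ)⁻¹ * f (ModularForm.heckeMatrix s j • τ))]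
    congr 1
    · norm_num
    · refine Finset.sum_congr rfl fun j _ => ?_
      rw [toGL_heckMat_some hs.ne_zero]
      simp

theorem perSym_heckeULin {q : ℕ} (hq : q ≠ 0) (hqN : q ∣ N) (f : CuspForm (Gamma0 N) 2) :
    perSym N (CuspForm.heckeULin 2 hqN f) = hU q (perSym N f) := by
  have hd : ∀ j : Fin q, (uMat q j).det ≠ 0 := fun j => by simp [uMat, hq]
  refine symOf_eq_op (uMat q) hd (fun _ => (q : ℝ)⁻¹) (fun j => ((j : ℕ) : ℂ) / q)
    (fun j => ?_) (fun τ => ?_)
    (HeckeFinite.hasEquivariantPrimitive_prim f) (HeckeFinite.hasEquivariantPrimitive_prim _)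
  · rw [show toGL (uMat q j) (hd j) = ModularForm.heckeMatrix q j from toGL_heckMat_some hq j _]
    exact EichlerShimura.isAffineAt_heckeMatrix hq j
  · rw [CuspForm.heckeULin_apply_apply, ModularForm.heckeU_apply 2 hq, Finset.mul_sum,
      ← Fin.sum_univ_eq_sum_range (fun j => (q : ℂ)⁻¹ * f (ModularForm.heckeMatrix q j • τ))]
    refine Finset.sum_congr rfl fun j _ => ?_
    rw [show toGL (uMat q j) (hd j) = ModularForm.heckeMatrix q j from toGL_heckMat_some hq j _]
    simp

/-- The symbol of a pair of forms, restricting to `periodHomPair` on the group. -/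
def perPair : (CuspForm (Gamma0 N) 2 × CuspForm (Gamma0 N) 2) →ₗ[ℂ] (Vec → ℂ) :=
  (perSym N).comp (LinearMap.fst ℂ _ _ + LinearMap.snd ℂ _ _) +
    (opLin ℂ fun _ : Unit => mm (-1) 0 0 1).comp
      ((perSym N).comp (LinearMap.fst ℂ _ _ - LinearMap.snd ℂ _ _))

theorem perPair_apply (f g : CuspForm (Gamma0 N) 2) :
    perPair N (f, g) = perSym N (f + g) + hAct (mm (-1) 0 0 1) (perSym N (f - g)) := rfl

theorem isSym_perPair (x : CuspForm (Gamma0 N) 2 × CuspForm (Gamma0 N) 2) :
    IsSym N (perPair N x) :=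
  (symModule N ℂ ℂ).add_mem (isSym_perSym N _) (isSym_hAct (normalises_jMat N) (isSym_perSym N _))

omit [NeZero N] in
theorem hAct_jMat_gamma {A : Type*} [AddCommGroup A] {G : Vec → A} (hG : IsSym N G)
    (γ : Gamma0 N) : hAct (mm (-1) 0 0 1) G (act ((γ : SL(2, ℤ)) : Mat) vE) =
      G (act ((jConjGamma0 N γ : SL(2, ℤ)) : Mat) vE) := by
  have hd : ((γ : SL(2, ℤ)) : Mat).det ≠ 0 := by rw [(γ : SL(2, ℤ)).det_coe]; exact one_ne_zero
  have he : act (mm (-1) 0 0 1) vE = (-1 : ℤ) • vE := by simp [vE]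
  simp only [hAct]
  rw [op_apply _ _ (act_ne_zero hd vE_ne_zero), Fintype.sum_unique, he, hG.homog _ (by norm_num),
    hG.apply_vE, sub_zero]
  have e : act (mm (-1) 0 0 1) (act ((γ : SL(2, ℤ)) : Mat) vE) =
      (-1 : ℤ) • act ((jConjGamma0 N γ : SL(2, ℤ)) : Mat) vE := by
    rw [jConjGamma0_coe, jConjSL_coe]
    simp [act_vE]
  rw [e, hG.homog _ (by norm_num)]

theorem perPair_gamma (x : CuspForm (Gamma0 N) 2 × CuspForm (Gamma0 N) 2) (γ : Gamma0 N) :
    perPair N x (act ((γ : SL(2, ℤ)) : Mat) vE) = periodHomPair N x (Additive.ofMul γ) := by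
  obtain ⟨f, g⟩ := x
  rw [(EichlerShimura.periodFacts N).periodHomPair_apply, perPair_apply, Pi.add_apply,
    hAct_jMat_gamma N (isSym_perSym N _), perSym_gamma, perSym_gamma]

theorem perPair_heckeTLin {s : ℕ} (hs : s.Prime) (hsN : ¬ s ∣ N)
    (x : CuspForm (Gamma0 N) 2 × CuspForm (Gamma0 N) 2) :
    perPair N (CuspForm.heckeTLin 2 hs hsN x.1, CuspForm.heckeTLin 2 hs hsN x.2) =
      hT s (perPair N x) := by
  obtain ⟨f, g⟩ := x
  rw [perPair_apply, perPair_apply, ← map_add, ← map_sub, perSym_heckeTLin N hs hsN,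
    perSym_heckeTLin N hs hsN, hAct_hT (normalises_jMat N) hs hsN (isSym_perSym N _)]
  exact (op_add _ _ _).symm

/-- The period pair carries `U_q` on forms to `U_q` on symbols. -/
theorem perPair_heckeULin {q : ℕ} (hq : q.Prime) (hqN : q ∣ N)
    (x : CuspForm (Gamma0 N) 2 × CuspForm (Gamma0 N) 2) :
    perPair N (CuspForm.heckeULin 2 hqN x.1, CuspForm.heckeULin 2 hqN x.2) =
      hU q (perPair N x) := by
  obtain ⟨f, g⟩ := x
  rw [perPair_apply, perPair_apply, ← map_add, ← map_sub, perSym_heckeULin N hq.ne_zero hqN,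
    perSym_heckeULin N hq.ne_zero hqN, hAct_jMat_hU hq (isSym_perSym N _)]
  exact (op_add _ _ _).symm

end Lin

end Fermat.Agent.LevelRaising
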