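import Mathlib.Algebra.BigOperators.Finprod
import Mathlib.Data.Int.Order.Basic
import Mathlib.Order.Interval.Finset.Defs
import Mathlib.Data.Int.Interval
import Mathlib.Data.Set.Finite.Lattice
import Mathlib.Tactic.Linarith
import Mathlib.Tactic.Positivity
import Fermat.Agent.LevelRaising.Operators

/-!
# The intersection symbol of an element of `Γ₀(N)`

For `γ ∈ Γ₀(N)` the function sending a pair of cusps to the signed number of `Γ₀(N)`-translates of
the geodesic between them separating the base point `ρ` from `γ ρ`.  Everything is phrased with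
integers: the side of `ρ` relative to the geodesic `(u, v)` is the sign of `det(u,v) Q(u,v)`.
-/

set_option autoImplicit false
set_option linter.unusedSimpArgs false

noncomputable section

namespace Fermat.Agent.LevelRaising

/-- Determinant of two vectors. -/
def crossDet (u v : Vec) : ℤ := u.1 * v.2 - u.2 * v.1

/-- The positive definite bilinear form attached to the base point. -/
def rhoForm (u v : Vec) : ℤ := 2 * u.1 * v.1 - u.1 * v.2 - u.2 * v.1 + 2 * u.2 * v.2

/-- Squared norm. -/
def nsq (u : Vec) : ℤ := u.1 ^ 2 + u.2 ^ 2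

/-- Side of the base point relative to the geodesic `(u, v)`. -/
def side (u v : Vec) : ℤ := Int.sign (crossDet u v * rhoForm u v)

theorem crossDet_act (M : Mat) (u v : Vec) :
    crossDet (act M u) (act M v) = M.det * crossDet u v := by
  simp only [crossDet, act, Matrix.det_fin_two]; ring

theorem rhoForm_gram (u v : Vec) :
    rhoForm u u * rhoForm v v = rhoForm u v ^ 2 + 3 * crossDet u v ^ 2 := by
  simp only [rhoForm, crossDet]; ring

theorem nsq_le_rhoForm (u : Vec) : nsq u ≤ rhoForm u u := by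
  simp only [rhoForm, nsq]; nlinarith [sq_nonneg (u.1 - u.2)]

theorem one_le_nsq {u : Vec} (hu : u ≠ 0) : 1 ≤ nsq u := by
  simp only [nsq]
  rcases eq_or_ne u.1 0 with h | h
  · have h2 : u.2 ≠ 0 := fun h2 => hu (Prod.ext h h2)
    nlinarith [sq_nonneg u.1, pow_two_pos_of_ne_zero h2]
  · nlinarith [sq_nonneg u.2, pow_two_pos_of_ne_zero h]

theorem rhoForm_self_pos {u : Vec} (hu : u ≠ 0) : 0 < rhoForm u u :=
  lt_of_lt_of_le zero_lt_one ((one_le_nsq hu).trans (nsq_le_rhoForm u))

/-- Squared Frobenius norm of a matrix. -/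
def matNsq (g : Mat) : ℤ := g 0 0 ^ 2 + g 0 1 ^ 2 + g 1 0 ^ 2 + g 1 1 ^ 2

theorem det_sq_mul_nsq_le (g : Mat) (y : Vec) :
    g.det ^ 2 * nsq y ≤ matNsq g * nsq (act g y) := by
  simp only [nsq, matNsq, act, Matrix.det_fin_two]
  nlinarith [sq_nonneg (g 1 1 * (g 1 0 * y.1 + g 1 1 * y.2) + g 0 1 * (g 0 0 * y.1 + g 0 1 * y.2)),
    sq_nonneg (g 0 0 * (g 0 0 * y.1 + g 0 1 * y.2) + g 1 0 * (g 1 0 * y.1 + g 1 1 * y.2))]

theorem matNsq_nonneg (g : Mat) : 0 ≤ matNsq g := by
  simp only [matNsq]; positivity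

theorem nsq_le_of_det_pos {g : Mat} (hg : 0 < g.det) (y : Vec) :
    nsq y ≤ matNsq g * rhoForm (act g y) (act g y) := by
  have h1 := det_sq_mul_nsq_le g y
  have h2 : nsq y ≤ g.det ^ 2 * nsq y := by
    have : 0 ≤ nsq y := by simp only [nsq]; positivity
    exact le_mul_of_one_le_left this (one_le_pow₀ hg)
  exact h2.trans (h1.trans (mul_le_mul_of_nonneg_left (nsq_le_rhoForm _) (matNsq_nonneg g)))

/-- Bound for a geodesic meeting the segment between two base points. -/
theorem exists_bound_of_separates {g g' : Mat} (hg : 0 < g.det) (hg' : 0 < g'.det) :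
    ∃ K : ℤ, ∀ y z : Vec, rhoForm (act g y) (act g z) * rhoForm (act g' y) (act g' z) ≤ 0 →
      nsq y * nsq z ≤ K * crossDet y z ^ 2 := by
  -- coefficients of the two forms
  set A := rhoForm (act g (1, 0)) (act g (1, 0))
  set B := rhoForm (act g (1, 0)) (act g (0, 1))
  set C := rhoForm (act g (0, 1)) (act g (0, 1))
  set A' := rhoForm (act g' (1, 0)) (act g' (1, 0))
  set B' := rhoForm (act g' (1, 0)) (act g' (0, 1))
  set C' := rhoForm (act g' (0, 1)) (act g' (0, 1))
  have hex : ∀ (h : Mat) (y z : Vec), rhoForm (act h y) (act h z) =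
      rhoForm (act h (1, 0)) (act h (1, 0)) * (y.1 * z.1) +
      rhoForm (act h (1, 0)) (act h (0, 1)) * (y.1 * z.2 + y.2 * z.1) +
      rhoForm (act h (0, 1)) (act h (0, 1)) * (y.2 * z.2) := by
    intro h y z; simp only [rhoForm, act]; ring
  have hA : 0 ≤ A := (rhoForm_self_pos (act_ne_zero hg.ne' (by simp [Prod.ext_iff]))).le
  have hC : 0 ≤ C := (rhoForm_self_pos (act_ne_zero hg.ne' (by simp [Prod.ext_iff]))).le
  have hA' : 0 ≤ A' := (rhoForm_self_pos (act_ne_zero hg'.ne' (by simp [Prod.ext_iff]))).le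
  have hC' : 0 ≤ C' := (rhoForm_self_pos (act_ne_zero hg'.ne' (by simp [Prod.ext_iff]))).le
  set L := matNsq g + matNsq g'
  refine ⟨L ^ 2 * ((A + A') * (C + C')), fun y z hyz => ?_⟩
  set P := rhoForm (act g y) (act g z) with hP
  set P' := rhoForm (act g' y) (act g' z) with hP'
  obtain ⟨s, t, hs, ht, hst, hzero⟩ :
      ∃ s t : ℤ, 0 ≤ s ∧ 0 ≤ t ∧ 1 ≤ s + t ∧ s * P + t * P' = 0 := by
    rcases eq_or_ne P 0 with h | h
    · exact ⟨1, 0, zero_le_one, le_rfl, by simp, by simp [h]⟩
    · refine ⟨|P'|, |P|, abs_nonneg _, abs_nonneg _, by have := abs_pos.mpr h; have := abs_nonneg P'; omega, ?_⟩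
      rcases lt_or_gt_of_ne h with hneg | hpos
      · have hP'0 : 0 ≤ P' := by nlinarith
        rw [abs_of_nonneg hP'0, abs_of_neg hneg]; ring
      · have hP'0 : P' ≤ 0 := by nlinarith
        rw [abs_of_nonpos hP'0, abs_of_pos hpos]; ring
  have hL : ∀ w : Vec, (s + t) * nsq w ≤
      L * (s * rhoForm (act g w) (act g w) + t * rhoForm (act g' w) (act g' w)) := by
    intro w
    have h1 := mul_le_mul_of_nonneg_left (nsq_le_of_det_pos hg w) hs
    have h2 := mul_le_mul_of_nonneg_left (nsq_le_of_det_pos hg' w) ht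
    have n1 : 0 ≤ rhoForm (act g w) (act g w) :=
      le_trans (by simp only [nsq]; positivity) (nsq_le_rhoForm _)
    have n2 : 0 ≤ rhoForm (act g' w) (act g' w) :=
      le_trans (by simp only [nsq]; positivity) (nsq_le_rhoForm _)
    have m1 := mul_nonneg (mul_nonneg (matNsq_nonneg g') hs) n1
    have m2 := mul_nonneg (mul_nonneg (matNsq_nonneg g) ht) n2
    simp only [L]
    linarith
  have hyy := hL y
  have hzz := hL z
  set Ry := s * rhoForm (act g y) (act g y) + t * rhoForm (act g' y) (act g' y) with hRy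
  set Rz := s * rhoForm (act g z) (act g z) + t * rhoForm (act g' z) (act g' z) with hRz
  have hgram : Ry * Rz = ((s * A + t * A') * (s * C + t * C') - (s * B + t * B') ^ 2) *
      crossDet y z ^ 2 := by
    have e : Ry * Rz = ((s * A + t * A') * (s * C + t * C') - (s * B + t * B') ^ 2) *
      crossDet y z ^ 2 + (s * P + t * P') ^ 2 := by
      simp only [hRy, hRz, hP, hP', hex g y y, hex g' y y, hex g z z, hex g' z z, hex g y z,
        hex g' y z, crossDet]
      ring
    rw [e, hzero]; ring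
  have hny : 0 ≤ nsq y := by simp only [nsq]; positivity
  have hnz : 0 ≤ nsq z := by simp only [nsq]; positivity
  have h1 : (s + t) ^ 2 * (nsq y * nsq z) ≤ L ^ 2 * (Ry * Rz) := by
    have hst0 : 0 ≤ s + t := by omega
    have := mul_le_mul hyy hzz (mul_nonneg hst0 hnz) ((mul_nonneg hst0 hny).trans hyy)
    linarith
  have h2 : (s * A + t * A') * (s * C + t * C') - (s * B + t * B') ^ 2 ≤
      (s + t) ^ 2 * ((A + A') * (C + C')) := by
    have h3 : s * A + t * A' ≤ (s + t) * (A + A') := by
      linarith [mul_nonneg hs hA', mul_nonneg ht hA]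
    have h4 : s * C + t * C' ≤ (s + t) * (C + C') := by
      linarith [mul_nonneg hs hC', mul_nonneg ht hC]
    have h5 := mul_le_mul h3 h4 (by positivity) (by positivity)
    linarith [sq_nonneg (s * B + t * B')]
  rw [hgram] at h1
  have h6 : (s + t) ^ 2 * (nsq y * nsq z) ≤
      (s + t) ^ 2 * (L ^ 2 * ((A + A') * (C + C')) * crossDet y z ^ 2) := by
    have := mul_le_mul_of_nonneg_left
      (mul_le_mul_of_nonneg_right h2 (sq_nonneg (crossDet y z))) (sq_nonneg L)
    linarith
  exact le_of_mul_le_mul_left h6 (by positivity)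

theorem side_ne_imp {g g' : Mat} (hg : 0 < g.det) (hg' : 0 < g'.det) {y z : Vec}
    (h : side (act g' y) (act g' z) ≠ side (act g y) (act g z)) :
    rhoForm (act g y) (act g z) * rhoForm (act g' y) (act g' z) ≤ 0 := by
  by_contra hpos
  apply h
  simp only [side, crossDet_act, Int.sign_mul, Int.sign_eq_one_of_pos hg,
    Int.sign_eq_one_of_pos hg']
  congr 1
  rcases mul_pos_iff.mp (not_le.mp hpos) with ⟨a, b⟩ | ⟨a, b⟩
  · rw [Int.sign_eq_one_of_pos a, Int.sign_eq_one_of_pos b]
  · rw [Int.sign_eq_neg_one_of_neg a, Int.sign_eq_neg_one_of_neg b]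

theorem finite_setOf_nsq_le (K : ℤ) : {y : Vec | nsq y ≤ K}.Finite := by
  refine ((Set.finite_Icc (-K) K).prod (Set.finite_Icc (-K) K)).subset fun y hy => ?_
  simp only [Set.mem_ofPred_eq, nsq] at hy
  simp only [Set.mem_prod, Set.mem_Icc]
  have h1 : ∀ a : ℤ, a ≤ a ^ 2 ∧ -a ≤ a ^ 2 := fun a => by
    constructor
    · rcases le_or_gt a 0 with h | h <;> nlinarith
    · rcases le_or_gt a 0 with h | h <;> nlinarith
  obtain ⟨a1, a2⟩ := h1 y.1
  obtain ⟨b1, b2⟩ := h1 y.2
  refine ⟨⟨?_, ?_⟩, ⟨?_, ?_⟩⟩ <;> nlinarith [sq_nonneg y.1, sq_nonneg y.2]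

theorem eq_of_act_eq {u v : Vec} (huv : crossDet u v ≠ 0) {x x' : Mat}
    (h1 : act x u = act x' u) (h2 : act x v = act x' v) : x = x' := by
  simp only [act, Prod.ext_iff] at h1 h2
  simp only [crossDet] at huv
  ext i j
  apply mul_right_cancel₀ huv
  fin_cases i <;> fin_cases j <;> simp only [Fin.isValue, Fin.mk_zero, Fin.mk_one, Fin.zero_eta]
  · linear_combination v.2 * h1.1 - u.2 * h2.1
  · linear_combination u.1 * h2.1 - v.1 * h1.1
  · linear_combination v.2 * h1.2 - u.2 * h2.2
  · linear_combination u.1 * h2.2 - v.1 * h1.2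

theorem finite_of_bound {u v : Vec} (huv : crossDet u v ≠ 0) (K : ℤ) :
    {x : Mat | x.det ≠ 0 ∧ nsq (act x u) * nsq (act x v) ≤ K}.Finite := by
  have hu : u ≠ 0 := fun h => huv (by simp [h, crossDet])
  have hv : v ≠ 0 := fun h => huv (by simp [h, crossDet])
  refine Set.Finite.of_finite_image (f := fun x => (act x u, act x v))
    (((finite_setOf_nsq_le K).prod (finite_setOf_nsq_le K)).subset ?_) ?_
  · rintro _ ⟨x, ⟨hx, hb⟩, rfl⟩
    have a1 := one_le_nsq (act_ne_zero hx hu)
    have a2 := one_le_nsq (act_ne_zero hx hv)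
    simp only [Set.mem_prod, Set.mem_ofPred_eq]
    constructor <;> nlinarith
  · intro x _ x' _ h
    simp only [Prod.mk.injEq] at h
    exact eq_of_act_eq huv h.1 h.2

/-- The summand of `crossing`. -/
def sepTerm (g g' : Mat) (u v : Vec) (x : Mat) : ℤ :=
  side (act g' (act x u)) (act g' (act x v)) - side (act g (act x u)) (act g (act x v))

theorem side_eq_zero {u v : Vec} (h : crossDet u v = 0) : side u v = 0 := by simp [side, h]

theorem finite_support_sepTerm {g g' : Mat} (hg : 0 < g.det) (hg' : 0 < g'.det) (u v : Vec)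
    {X : Set Mat} {r : ℤ} (hr : r ≠ 0) (hX : ∀ x ∈ X, x.det = r) :
    (X ∩ Function.support (sepTerm g g' u v)).Finite := by
  by_cases huv : crossDet u v = 0
  · refine Set.Finite.subset Set.finite_empty fun x hx => absurd ?_ hx.2
    simp [sepTerm, side_eq_zero, crossDet_act, huv]
  obtain ⟨K, hK⟩ := exists_bound_of_separates hg hg'
  refine (finite_of_bound huv (K * (r * crossDet u v) ^ 2)).subset ?_
  rintro x ⟨hx, hne⟩
  refine ⟨hX x hx ▸ hr, ?_⟩
  have := hK _ _ (side_ne_imp hg hg' (sub_ne_zero.mp hne))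
  rwa [crossDet_act, hX x hx] at this

/-- Signed number of `X`-translates of `(u, v)` separating the base points of `g` and `g'`. -/
def crossing (X : Set Mat) (g g' : Mat) (u v : Vec) : ℤ := ∑ᶠ x ∈ X, sepTerm g g' u v x

theorem crossing_trans {g g' g'' : Mat} (hg : 0 < g.det) (hg' : 0 < g'.det) (hg'' : 0 < g''.det)
    {X : Set Mat} {r : ℤ} (hr : r ≠ 0) (hX : ∀ x ∈ X, x.det = r) (u v : Vec) :
    crossing X g g'' u v = crossing X g g' u v + crossing X g' g'' u v := by
  simp only [crossing]
  rw [← finsum_mem_add_distrib' (finite_support_sepTerm hg hg' u v hr hX)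
    (finite_support_sepTerm hg' hg'' u v hr hX)]
  exact finsum_congr fun x => by congr 1; funext h; simp only [sepTerm]; ring

theorem crossing_self (X : Set Mat) (g : Mat) (u v : Vec) : crossing X g g u v = 0 := by
  simp [crossing, sepTerm]

theorem finsum_lvl_mul_left {M : Type*} [AddCommMonoid M] {N : ℕ} {δ : Mat} (hδ : δ ∈ Lvl N)
    {X : Set Mat} {r : ℤ} (hX : X = DetLevel N r) (F : Mat → M) :
    ∑ᶠ x ∈ X, F (δ * x) = ∑ᶠ x ∈ X, F x := by
  subst hX
  have himg : (δ * ·) '' DetLevel N r = DetLevel N r := by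
    refine Set.Subset.antisymm ?_ fun x hx => ⟨δ.adjugate * x, ?_, ?_⟩
    · rintro _ ⟨x, hx, rfl⟩; simpa using detLevel_mul hδ hx
    · simpa using detLevel_mul (adjugate_mem_detLevel hδ) hx
    · simp only [← mul_assoc, mul_adjugate_lvl hδ, one_mul]
  conv_rhs => rw [← himg]
  exact (finsum_mem_image fun a _ b _ h => mat_cancel_left (det_ne_zero_of_lvl hδ) h).symm

theorem crossing_mul_right {N : ℕ} {δ : Mat} (hδ : δ ∈ Lvl N) {r : ℤ} (g g' : Mat) (u v : Vec) :
    crossing (DetLevel N r) (g * δ) (g' * δ) u v = crossing (DetLevel N r) g g' u v := by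
  rw [crossing, crossing, ← finsum_lvl_mul_left hδ rfl (sepTerm g g' u v)]
  exact finsum_mem_congr rfl fun x _ => by simp [sepTerm, act_mul]

/-- A finite decomposition of the summation set. -/
theorem finsum_fact {ι : Type*} [Fintype ι] {M : Type*} [AddCommMonoid M] {X Y : Set Mat}
    {β : ι → Mat} (h : IsFact X Y β) (F : Mat → M) (hF : (X ∩ Function.support F).Finite) :
    ∑ᶠ x ∈ X, F x = ∑ i, ∑ᶠ y ∈ Y, F (y * β i) := by
  classical
  have hsub : ∀ i, (· * β i) '' Y ⊆ X := by
    rintro i _ ⟨y, hy, rfl⟩; exact h.mem y hy i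
  have key : ∀ x, X.indicator F x = ∑ i, ((· * β i) '' Y).indicator F x := by
    intro x
    by_cases hx : x ∈ X
    · obtain ⟨i, y, hy, rfl⟩ := h.fact x hx
      rw [Set.indicator_of_mem hx, Finset.sum_eq_single i]
      · rw [Set.indicator_of_mem]; exact ⟨y, hy, rfl⟩
      · intro j _ hj
        refine Set.indicator_of_notMem ?_ _
        rintro ⟨y', hy', e⟩
        exact hj (h.unique hy' hy e)
      · simp
    · rw [Set.indicator_of_notMem hx, Finset.sum_eq_zero]
      exact fun i _ => Set.indicator_of_notMem (fun hh => hx (hsub i hh)) _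
  rw [finsum_mem_def, finsum_congr key, finsum_sum_comm]
  · refine Finset.sum_congr rfl fun i _ => ?_
    rw [← finsum_mem_def]
    exact finsum_mem_image fun a _ b _ e => mat_cancel_right (h.det_ne_zero i) e
  · intro i _
    refine hF.subset fun x hx => ?_
    rw [Function.mem_support, Set.indicator_apply_ne_zero] at hx
    exact ⟨hsub i hx.1, hx.2⟩

theorem image_adjugate_detLevel (N : ℕ) (r : ℤ) :
    Matrix.adjugate '' DetLevel N r = DetLevel N r := by
  refine Set.Subset.antisymm ?_ fun x hx => ⟨x.adjugate, adjugate_mem_detLevel hx, ?_⟩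
  · rintro _ ⟨x, hx, rfl⟩; exact adjugate_mem_detLevel hx
  · rw [Matrix.adjugate_adjugate _ (by simp)]; simp

theorem finsum_adjugate {M : Type*} [AddCommMonoid M] (N : ℕ) (r : ℤ) (F : Mat → M) :
    ∑ᶠ x ∈ DetLevel N r, F x.adjugate = ∑ᶠ x ∈ DetLevel N r, F x := by
  conv_rhs => rw [← image_adjugate_detLevel]
  refine (finsum_mem_image fun a _ b _ e => ?_).symm
  have := congrArg Matrix.adjugate e
  simpa [Matrix.adjugate_adjugate] using this

/-- A finite decomposition on the left, through the adjugate. -/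
theorem finsum_fact_left {ι : Type*} [Fintype ι] {M : Type*} [AddCommMonoid M] {N : ℕ} {r : ℤ}
    {β : ι → Mat} (h : IsFact (DetLevel N r) (Lvl N) β) (F : Mat → M)
    (hF : (DetLevel N r ∩ Function.support F).Finite) :
    ∑ᶠ x ∈ DetLevel N r, F x = ∑ i, ∑ᶠ y ∈ Lvl N, F ((β i).adjugate * y) := by
  rw [← finsum_adjugate N r F, finsum_fact h]
  · refine Finset.sum_congr rfl fun i _ => ?_
    rw [← finsum_adjugate N 1 fun y => F ((β i).adjugate * y)]
    exact finsum_mem_congr rfl fun y _ => by rw [Matrix.adjugate_mul_distrib]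
  · refine (hF.image Matrix.adjugate).subset ?_
    rintro x ⟨hx, hne⟩
    exact ⟨x.adjugate, ⟨adjugate_mem_detLevel hx, hne⟩, by simp [Matrix.adjugate_adjugate]⟩

/-! ### The triangle relation -/

/-- Orientation of three vectors. -/
def orient (a b c : Vec) : ℤ := Int.sign (crossDet a b * crossDet b c * crossDet c a)

theorem side_antisymm (a b : Vec) : side b a = -side a b := by
  simp only [side, ← Int.sign_neg]
  congr 1
  simp only [crossDet, rhoForm]; ring

theorem side_zsmul_left {k : ℤ} (hk : k ≠ 0) (a b : Vec) : side (k • a) b = side a b := by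
  simp only [side, crossDet, rhoForm, Prod.smul_fst, Prod.smul_snd, smul_eq_mul]
  have e : (k * a.1 * b.2 - k * a.2 * b.1) *
      (2 * (k * a.1) * b.1 - k * a.1 * b.2 - k * a.2 * b.1 + 2 * (k * a.2) * b.2) =
      k ^ 2 * ((a.1 * b.2 - a.2 * b.1) *
      (2 * a.1 * b.1 - a.1 * b.2 - a.2 * b.1 + 2 * a.2 * b.2)) := by ring
  rw [e, Int.sign_mul, Int.sign_eq_one_of_pos (by positivity), one_mul]

theorem side_zsmul_right {k : ℤ} (hk : k ≠ 0) (a b : Vec) : side a (k • b) = side a b := by
  rw [side_antisymm (k • b) a, side_zsmul_left hk, side_antisymm b a]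

theorem exists_zsmul_eq_of_crossDet_eq_zero {a b : Vec} (ha : a ≠ 0) (hb : b ≠ 0)
    (h : crossDet a b = 0) : ∃ k l : ℤ, k ≠ 0 ∧ l ≠ 0 ∧ k • a = l • b := by
  simp only [crossDet] at h
  rcases eq_or_ne a.1 0 with ha1 | ha1
  · have ha2 : a.2 ≠ 0 := fun h2 => ha (Prod.ext ha1 h2)
    have hb1 : b.1 = 0 := by
      rw [ha1] at h; simpa [ha2] using h
    have hb2 : b.2 ≠ 0 := fun h2 => hb (Prod.ext hb1 h2)
    exact ⟨b.2, a.2, hb2, ha2, Prod.ext (by simp [ha1, hb1]) (by simp [mul_comm])⟩
  · have hb1 : b.1 ≠ 0 := by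
      intro hb1
      apply hb
      refine Prod.ext hb1 ?_
      rw [hb1] at h; simpa [ha1] using h
    exact ⟨b.1, a.1, hb1, ha1, Prod.ext (by simp [mul_comm]) (by simp; linear_combination (-h))⟩

theorem side_triangle_degenerate {a b c : Vec} (ha : a ≠ 0) (hb : b ≠ 0)
    (h : crossDet a b = 0) : side a b + side b c + side c a = 0 := by
  obtain ⟨k, l, hk, hl, e⟩ := exists_zsmul_eq_of_crossDet_eq_zero ha hb h
  have h1 : side c a = side c b := by rw [← side_zsmul_right hk, e, side_zsmul_right hl]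
  rw [side_eq_zero h, h1, side_antisymm b c]
  ring

/-- Either the sides sum to minus the orientation, or the triangle has a short side. -/
theorem side_triangle {a b c : Vec} (ha : a ≠ 0) (hb : b ≠ 0) (hc : c ≠ 0) :
    side a b + side b c + side c a = -orient a b c ∨
      (crossDet a b ≠ 0 ∧ crossDet b c ≠ 0 ∧ crossDet c a ≠ 0 ∧
      (rhoForm a b ^ 2 ≤ 3 * crossDet a b ^ 2 ∨ rhoForm b c ^ 2 ≤ 3 * crossDet b c ^ 2 ∨
        rhoForm c a ^ 2 ≤ 3 * crossDet c a ^ 2)) := by
  by_cases hab : crossDet a b = 0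
  · left; rw [side_triangle_degenerate ha hb hab]; simp [orient, hab]
  by_cases hbc : crossDet b c = 0
  · left
    have h := side_triangle_degenerate (c := a) hb hc hbc
    rw [show side a b + side b c + side c a = side b c + side c a + side a b by ring, h]
    simp [orient, hbc]
  by_cases hca : crossDet c a = 0
  · left
    have h := side_triangle_degenerate (c := b) hc ha hca
    rw [show side a b + side b c + side c a = side c a + side a b + side b c by ring, h]
    simp [orient, hca]
  set D1 := crossDet a b with hD1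
  set D2 := crossDet b c with hD2
  set D3 := crossDet c a with hD3
  set p1 := rhoForm a b * D2 * D3 with hp1
  set p2 := rhoForm b c * D3 * D1 with hp2
  set p3 := rhoForm c a * D1 * D2 with hp3
  have s12 : p1 + p2 = -(D3 ^ 2 * rhoForm b b) := by
    simp only [hp1, hp2, hD1, hD2, hD3, rhoForm, crossDet]; ring
  have s23 : p2 + p3 = -(D1 ^ 2 * rhoForm c c) := by
    simp only [hp2, hp3, hD1, hD2, hD3, rhoForm, crossDet]; ring
  have s31 : p3 + p1 = -(D2 ^ 2 * rhoForm a a) := by
    simp only [hp1, hp3, hD1, hD2, hD3, rhoForm, crossDet]; ring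
  have hprod : p1 * p2 + p2 * p3 + p3 * p1 = 3 * (D1 * D2 * D3) ^ 2 := by
    simp only [hp1, hp2, hp3, hD1, hD2, hD3, rhoForm, crossDet]; ring
  have n12 : p1 + p2 < 0 := by
    rw [s12]; nlinarith [rhoForm_self_pos hb, pow_two_pos_of_ne_zero hca]
  have n23 : p2 + p3 < 0 := by
    rw [s23]; nlinarith [rhoForm_self_pos hc, pow_two_pos_of_ne_zero hab]
  have n31 : p3 + p1 < 0 := by
    rw [s31]; nlinarith [rhoForm_self_pos ha, pow_two_pos_of_ne_zero hbc]
  have hside : ∀ {x y : Vec} {E F : ℤ}, E ≠ 0 → F ≠ 0 → crossDet x y * E * F = D1 * D2 * D3 →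
      side x y = orient a b c * Int.sign (rhoForm x y * E * F) := by
    intro x y E F hE hF he
    rw [side, orient, ← hD1, ← hD2, ← hD3, ← he]
    simp only [Int.sign_mul]
    have e1 : Int.sign E * Int.sign E = 1 := by
      rw [← Int.sign_mul, Int.sign_eq_one_of_pos (mul_self_pos.mpr hE)]
    have e2 : Int.sign F * Int.sign F = 1 := by
      rw [← Int.sign_mul, Int.sign_eq_one_of_pos (mul_self_pos.mpr hF)]
    linear_combination (-(Int.sign (crossDet x y)) * Int.sign (rhoForm x y)) * e1 -
      (Int.sign (crossDet x y)) * Int.sign (rhoForm x y) * Int.sign E * Int.sign E * e2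
  have t1 : side a b = orient a b c * Int.sign p1 := hside hbc hca (by rw [← hD1])
  have t2 : side b c = orient a b c * Int.sign p2 := hside hca hab (by rw [← hD2]; ring)
  have t3 : side c a = orient a b c * Int.sign p3 := hside hab hbc (by rw [← hD3]; ring)
  by_cases hall : p1 ≤ 0 ∧ p2 ≤ 0 ∧ p3 ≤ 0
  · refine Or.inr ⟨hab, hbc, hca, ?_⟩
    obtain ⟨h1, h2, h3⟩ := hall
    by_contra hcon
    simp only [not_or, not_le] at hcon
    obtain ⟨c1, c2, c3⟩ := hcon
    have q1 : 3 * (D1 * D2 * D3) ^ 2 < p1 ^ 2 := by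
      have := mul_lt_mul_of_pos_right c1
        (mul_pos (pow_two_pos_of_ne_zero hbc) (pow_two_pos_of_ne_zero hca))
      simp only [hp1]; linarith
    have q2 : 3 * (D1 * D2 * D3) ^ 2 < p2 ^ 2 := by
      have := mul_lt_mul_of_pos_right c2
        (mul_pos (pow_two_pos_of_ne_zero hca) (pow_two_pos_of_ne_zero hab))
      simp only [hp2]; linarith
    have q3 : 3 * (D1 * D2 * D3) ^ 2 < p3 ^ 2 := by
      have := mul_lt_mul_of_pos_right c3
        (mul_pos (pow_two_pos_of_ne_zero hab) (pow_two_pos_of_ne_zero hbc))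
      simp only [hp3]; linarith
    have m12 := mul_nonneg_of_nonpos_of_nonpos h1 h2
    have m23 := mul_nonneg_of_nonpos_of_nonpos h2 h3
    have m31 := mul_nonneg_of_nonpos_of_nonpos h3 h1
    have hK : 0 ≤ 3 * (D1 * D2 * D3) ^ 2 := by positivity
    nlinarith [mul_lt_mul'' q1 q2 hK hK]
  · left
    rw [t1, t2, t3, ← mul_add, ← mul_add]
    suffices h : Int.sign p1 + Int.sign p2 + Int.sign p3 = -1 by rw [h, mul_neg_one]
    simp only [not_and_or, not_le] at hall
    rcases hall with h | h | h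
    · rw [Int.sign_eq_one_of_pos h, Int.sign_eq_neg_one_of_neg (by linarith : p2 < 0),
        Int.sign_eq_neg_one_of_neg (by linarith : p3 < 0)]; rfl
    · rw [Int.sign_eq_one_of_pos h, Int.sign_eq_neg_one_of_neg (by linarith : p1 < 0),
        Int.sign_eq_neg_one_of_neg (by linarith : p3 < 0)]; rfl
    · rw [Int.sign_eq_one_of_pos h, Int.sign_eq_neg_one_of_neg (by linarith : p1 < 0),
        Int.sign_eq_neg_one_of_neg (by linarith : p2 < 0)]; rfl

theorem orient_act {M : Mat} (hM : 0 < M.det) (a b c : Vec) :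
    orient (act M a) (act M b) (act M c) = orient a b c := by
  simp only [orient, crossDet_act, Int.sign_mul, Int.sign_eq_one_of_pos hM, one_mul]

/-- The defect of the triangle relation at the base point moved by `x`. -/
def triTerm (u v w : Vec) (x : Mat) : ℤ :=
  side (act x u) (act x v) + side (act x v) (act x w) + side (act x w) (act x u) + orient u v w

theorem finite_support_triTerm {X : Set Mat} {r : ℤ} (hr : 0 < r) (hX : ∀ x ∈ X, x.det = r)
    {u v w : Vec} (hu : u ≠ 0) (hv : v ≠ 0) (hw : w ≠ 0) :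
    (X ∩ Function.support (triTerm u v w)).Finite := by
  classical
  have key : ∀ (a b : Vec) (x : Mat), x.det = r →
      rhoForm (act x a) (act x b) ^ 2 ≤ 3 * crossDet (act x a) (act x b) ^ 2 →
      x.det ≠ 0 ∧ nsq (act x a) * nsq (act x b) ≤ 6 * (r * crossDet a b) ^ 2 := by
    intro a b x hx hb
    refine ⟨hx ▸ hr.ne', ?_⟩
    have g := rhoForm_gram (act x a) (act x b)
    have l1 := nsq_le_rhoForm (act x a)
    have l2 := nsq_le_rhoForm (act x b)
    have p1 : 0 ≤ nsq (act x a) := by simp only [nsq]; positivity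
    have p2 : 0 ≤ nsq (act x b) := by simp only [nsq]; positivity
    have := mul_le_mul l1 l2 p2 (p1.trans l1)
    rw [crossDet_act, hx] at g hb
    linarith
  let T : Vec → Vec → Set Mat := fun a b => if h : crossDet a b = 0 then ∅ else
    {x | x.det ≠ 0 ∧ nsq (act x a) * nsq (act x b) ≤ 6 * (r * crossDet a b) ^ 2}
  have hT : ∀ a b, (T a b).Finite := fun a b => by
    simp only [T]
    split_ifs with h
    · exact Set.finite_empty
    · exact finite_of_bound h _
  refine (((hT u v).union (hT v w)).union (hT w u)).subset ?_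
  rintro x ⟨hx, hne⟩
  have hd : x.det ≠ 0 := hX x hx ▸ hr.ne'
  rcases side_triangle (act_ne_zero hd hu) (act_ne_zero hd hv) (act_ne_zero hd hw) with
    h | ⟨c1, c2, c3, h⟩
  · exact absurd (by simp only [triTerm, h, orient_act (hX x hx ▸ hr)]; ring) hne
  · rw [crossDet_act] at c1 c2 c3
    have n1 := right_ne_zero_of_mul c1
    have n2 := right_ne_zero_of_mul c2
    have n3 := right_ne_zero_of_mul c3
    simp only [T, n1, n2, n3, dite_false, Set.mem_union, Set.mem_ofPred_eq]
    rcases h with h | h | h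
    · exact Or.inl (Or.inl (key u v x (hX x hx) h))
    · exact Or.inl (Or.inr (key v w x (hX x hx) h))
    · exact Or.inr (key w u x (hX x hx) h)

theorem crossing_add_add {N : ℕ} {δ : Mat} (hδ : δ ∈ Lvl N) {u v w : Vec} (hu : u ≠ 0)
    (hv : v ≠ 0) (hw : w ≠ 0) :
    crossing (Lvl N) 1 δ u v + crossing (Lvl N) 1 δ v w + crossing (Lvl N) 1 δ w u = 0 := by
  have hd : 0 < δ.det := by rw [hδ.1]; exact one_pos
  have h1 : (0 : ℤ) < (1 : Mat).det := by simp
  have hX : ∀ x ∈ Lvl N, x.det = 1 := fun x hx => hx.1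
  have f := fun a b => finite_support_sepTerm h1 hd a b one_ne_zero hX
  have ft := finite_support_triTerm one_pos hX hu hv hw
  have fshift : (Lvl N ∩ Function.support fun x => triTerm u v w (δ * x)).Finite := by
    refine (ft.image (δ.adjugate * ·)).subset ?_
    rintro x ⟨hx, hne⟩
    exact ⟨δ * x, ⟨lvl_mul hδ hx, hne⟩,
      by simp only [← mul_assoc, adjugate_mul_lvl hδ, one_mul]⟩
  simp only [crossing]
  rw [← finsum_mem_add_distrib' (f u v) (f v w), ← finsum_mem_add_distrib' ?_ (f w u)]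
  · calc ∑ᶠ x ∈ Lvl N, (sepTerm 1 δ u v x + sepTerm 1 δ v w x + sepTerm 1 δ w u x)
        = ∑ᶠ x ∈ Lvl N, (triTerm u v w (δ * x) - triTerm u v w x) :=
          finsum_mem_congr rfl fun x _ => by
            simp only [sepTerm, triTerm, act_one, act_mul]; ring
      _ = ∑ᶠ x ∈ Lvl N, triTerm u v w (δ * x) - ∑ᶠ x ∈ Lvl N, triTerm u v w x := by
          refine eq_sub_of_add_eq ?_
          rw [← finsum_mem_add_distrib' ?_ ft]
          · exact finsum_mem_congr rfl fun x _ => sub_add_cancel _ _
          refine (fshift.union ft).subset ?_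
          rintro x ⟨hx, hne⟩
          by_contra hcon
          simp only [Set.mem_union, Set.mem_inter_iff, hx, true_and, Function.mem_support,
            not_or, not_not] at hcon
          exact hne (by simp [hcon.1, hcon.2])
      _ = 0 := by rw [finsum_lvl_mul_left hδ rfl]; ring
  · exact ((f u v).union (f v w)).subset (fun x hx => by
      rcases hx with ⟨hx, hne⟩
      by_contra hcon
      simp only [Set.mem_union, Set.mem_inter_iff, hx, true_and, Function.mem_support,
        not_or, not_not] at hcon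
      exact hne (by simp [hcon.1, hcon.2]))

/-! ### The intersection symbol -/

/-- The intersection symbol of `γ`. -/
def inter (N : ℕ) (γ : Mat) (v : Vec) : ℤ := crossing (Lvl N) 1 γ.adjugate vE v

variable {N : ℕ}

theorem crossing_zsmul_right (X : Set Mat) (g g' : Mat) {k : ℤ} (hk : k ≠ 0) (u v : Vec) :
    crossing X g g' u (k • v) = crossing X g g' u v :=
  finsum_mem_congr rfl fun x _ => by simp only [sepTerm, act_zsmul, side_zsmul_right hk]

theorem crossing_antisymm (X : Set Mat) {r : ℤ} {g g' : Mat} (hg : 0 < g.det) (hg' : 0 < g'.det)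
    (hr : r ≠ 0) (hX : ∀ x ∈ X, x.det = r) (u v : Vec) :
    crossing X g g' v u = -crossing X g g' u v := by
  rw [eq_neg_iff_add_eq_zero, crossing, crossing,
    ← finsum_mem_add_distrib' (finite_support_sepTerm hg hg' v u hr hX)
      (finite_support_sepTerm hg hg' u v hr hX)]
  refine finsum_mem_eq_zero_of_forall_eq_zero fun x _ => ?_
  simp only [sepTerm]
  rw [side_antisymm (act g' (act x u)), side_antisymm (act g (act x u))]
  ring

theorem det_adjugate_pos {γ : Mat} (hγ : γ ∈ Lvl N) : 0 < γ.adjugate.det := by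
  rw [(adjugate_mem_detLevel hγ).1]; exact one_pos

theorem inter_pair {γ : Mat} (hγ : γ ∈ Lvl N) {u v : Vec} (hu : u ≠ 0) (hv : v ≠ 0) :
    crossing (Lvl N) 1 γ.adjugate u v = inter N γ v - inter N γ u := by
  have h := crossing_add_add (adjugate_mem_detLevel hγ) vE_ne_zero hu hv
  have h' := crossing_antisymm (Lvl N) (g := 1) (by simp) (det_adjugate_pos hγ) one_ne_zero
    (fun x hx => hx.1) vE v
  simp only [inter]
  linarith

theorem crossing_lvl_act {g g' : Mat} {δ : Mat} (hδ : δ ∈ Lvl N) (u v : Vec) :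
    crossing (Lvl N) g g' (act δ u) (act δ v) = crossing (Lvl N) g g' u v := by
  simp only [crossing]
  have himg : (· * δ) '' Lvl N = Lvl N := by
    refine Set.Subset.antisymm ?_ fun x hx => ⟨x * δ.adjugate, ?_, ?_⟩
    · rintro _ ⟨x, hx, rfl⟩; exact lvl_mul hx hδ
    · exact lvl_mul hx (adjugate_mem_detLevel hδ)
    · simp only [mul_assoc, adjugate_mul_lvl hδ, mul_one]
  conv_rhs => rw [← himg, finsum_mem_image fun a _ b _ e => mat_cancel_right (det_ne_zero_of_lvl hδ) e]
  exact finsum_mem_congr rfl fun x _ => by simp only [sepTerm, act_mul]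

theorem isSym_inter {γ : Mat} (hγ : γ ∈ Lvl N) : IsSym N (inter N γ) where
  zero := by
    simp only [inter, crossing]
    refine finsum_mem_eq_zero_of_forall_eq_zero fun x _ => ?_
    simp [sepTerm, side_eq_zero, crossDet]
  homog k hk v := crossing_zsmul_right _ _ _ hk _ _
  equiv δ hδ v hv := by
    have h := inter_pair hγ (act_ne_zero (det_ne_zero_of_lvl hδ) vE_ne_zero)
      (act_ne_zero (det_ne_zero_of_lvl hδ) hv)
    rw [crossing_lvl_act hδ] at h
    have h2 : inter N γ v = inter N γ (act δ v) - inter N γ (act δ vE) := h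
    linarith

theorem inter_eq_crossing {γ g : Mat} (hγ : γ ∈ Lvl N) (hg : 0 < g.det) (v : Vec) :
    inter N γ v = crossing (Lvl N) g (g * γ.adjugate) vE v := by
  have ha := det_adjugate_pos hγ
  have hga : 0 < (g * γ.adjugate).det := by rw [Matrix.det_mul]; exact mul_pos hg ha
  have h1 : (0 : ℤ) < (1 : Mat).det := by simp
  have hX : ∀ x ∈ Lvl N, x.det = 1 := fun x hx => hx.1
  have e := crossing_mul_right (adjugate_mem_detLevel hγ) (r := 1) 1 g vE v
  rw [one_mul] at e
  rw [crossing_trans hg h1 hga one_ne_zero hX, crossing_trans h1 ha hga one_ne_zero hX, e,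
    inter]
  have e2 := crossing_trans hg h1 hg one_ne_zero hX vE v
  rw [crossing_self] at e2
  linarith

theorem inter_mul {γ δ : Mat} (hγ : γ ∈ Lvl N) (hδ : δ ∈ Lvl N) (v : Vec) :
    inter N (γ * δ) v = inter N γ v + inter N δ v := by
  have hX : ∀ x ∈ Lvl N, x.det = 1 := fun x hx => hx.1
  have hd := adjugate_mem_detLevel hδ
  rw [inter, inter, inter, Matrix.adjugate_mul_distrib,
    crossing_trans (g' := δ.adjugate) (by simp) (det_adjugate_pos hδ)
      (by rw [Matrix.det_mul, hd.1, (adjugate_mem_detLevel hγ).1]; norm_num) one_ne_zero hX]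
  have e := inter_eq_crossing hγ (det_adjugate_pos hδ) v
  rw [inter] at e
  rw [← e]
  ring

/-- Compatibility with the Hecke operator: `T_s (inter γ) = Σ inter γ_i`. -/
theorem hT_inter {s : ℕ} (hs : s.Prime) (hsN : ¬ s ∣ N) {γ : Mat} (hγ : γ ∈ Lvl N)
    {γ' : Option (Fin s) → Mat} (hγ' : ∀ i, γ' i ∈ Lvl N)
    (h : ∀ i, heckMat s i * γ = γ' i * heckMat s i) {v : Vec} (hv : v ≠ 0) :
    hT s (inter N γ) v = ∑ i, inter N (γ' i) v := by
  have hf := fact_heckMat_one hs hsN
  have hpos : ∀ i, 0 < (heckMat s i).adjugate.det := fun i => by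
    rw [Matrix.det_adjugate, det_heckMat]; simpa using hs.pos
  have hfin : (DetLevel N s ∩ Function.support (sepTerm 1 γ.adjugate vE v)).Finite :=
    finite_support_sepTerm (by simp) (det_adjugate_pos hγ) vE v
      (by exact_mod_cast hs.ne_zero) (fun x hx => hx.1)
  have hL : hT s (inter N γ) v = ∑ᶠ x ∈ DetLevel N s, sepTerm 1 γ.adjugate vE v x := by
    simp only [hT]
    rw [op_apply _ _ hv, finsum_fact hf _ hfin]
    refine Finset.sum_congr rfl fun i _ => ?_
    rw [← inter_pair hγ (act_ne_zero (hf.det_ne_zero i) vE_ne_zero)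
      (act_ne_zero (hf.det_ne_zero i) hv)]
    exact finsum_mem_congr rfl fun x _ => by simp only [sepTerm, act_mul]
  rw [hL, finsum_fact_left hf _ hfin]
  refine Finset.sum_congr rfl fun i _ => ?_
  rw [inter_eq_crossing (hγ' i) (hpos i), ← Matrix.adjugate_mul_distrib, ← h i,
    Matrix.adjugate_mul_distrib]
  exact finsum_mem_congr rfl fun x _ => by simp only [sepTerm, act_mul, act_one]

/-- Compatibility with a normalising matrix of positive determinant. -/
theorem hAct_inter {w : Mat} (hw : Normalises N w) (hwd : 0 < w.det) {γ γ' : Mat}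
    (hγ : γ ∈ Lvl N) (hγ' : γ' ∈ Lvl N) (h : γ * w = w * γ') :
    hAct w (inter N γ) = inter N γ' := by
  funext v
  by_cases hv : v = 0
  · simp [hv, op_zero_vec, (isSym_inter hγ').zero]
  simp only [hAct]
  rw [op_apply _ _ hv, Fintype.sum_unique,
    ← inter_pair hγ (act_ne_zero hw.det_ne_zero vE_ne_zero) (act_ne_zero hw.det_ne_zero hv),
    inter_eq_crossing hγ' hwd]
  have h' : w * γ'.adjugate = γ.adjugate * w := by
    calc w * γ'.adjugate = γ.adjugate * γ * w * γ'.adjugate := by rw [adjugate_mul_lvl hγ, one_mul]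
      _ = γ.adjugate * w := by
        rw [mul_assoc γ.adjugate γ w, h, mul_assoc, mul_assoc, mul_adjugate_lvl hγ', mul_one]
  rw [h']
  have himg : (· * w) '' Lvl N = (w * ·) '' Lvl N := by
    refine Set.Subset.antisymm ?_ ?_ <;> rintro _ ⟨x, hx, rfl⟩
    · obtain ⟨y, hy, e⟩ := hw.right 1 x hx; exact ⟨y, hy, e.symm⟩
    · obtain ⟨y, hy, e⟩ := hw.left 1 x hx; exact ⟨y, hy, e.symm⟩
  set F := sepTerm 1 γ.adjugate vE v
  calc crossing (Lvl N) 1 γ.adjugate (act w vE) (act w v)
      = ∑ᶠ x ∈ Lvl N, F (x * w) :=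
        finsum_mem_congr rfl fun x _ => by simp only [F, sepTerm, act_mul]
    _ = ∑ᶠ x ∈ (· * w) '' Lvl N, F x :=
        (finsum_mem_image fun a _ b _ e => mat_cancel_right hw.det_ne_zero e).symm
    _ = ∑ᶠ x ∈ Lvl N, F (w * x) := by
        rw [himg]; exact finsum_mem_image fun a _ b _ e => mat_cancel_left hw.det_ne_zero e
    _ = crossing (Lvl N) w (γ.adjugate * w) vE v :=
        finsum_mem_congr rfl fun x _ => by simp only [F, sepTerm, act_mul, act_one]

/-- The trace of the intersection symbol. -/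
theorem hTr_inter {q : ℕ} (hq : q.Prime) (hqN : ¬ q ∣ N) {γ : Mat} (hγ : γ ∈ Lvl (N * q)) :
    hTr N q (inter (N * q) γ) = inter N γ := by
  have hγN : γ ∈ Lvl N := lvl_mono (dvd_mul_right N q) hγ
  funext v
  by_cases hv : v = 0
  · simp [hv, op_zero_vec, (isSym_inter hγN).zero]
  have hf := fact_traceMat_one hq hqN
  simp only [hTr]
  rw [op_apply _ _ hv, inter, crossing, finsum_fact hf _
    (finite_support_sepTerm (by simp) (det_adjugate_pos hγN) vE v one_ne_zero fun x hx => hx.1)]
  refine Finset.sum_congr rfl fun i _ => ?_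
  rw [← inter_pair hγ (act_ne_zero (hf.det_ne_zero i) vE_ne_zero)
    (act_ne_zero (hf.det_ne_zero i) hv)]
  exact finsum_mem_congr rfl fun x _ => by simp only [sepTerm, act_mul]

end Fermat.Agent.LevelRaising
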