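import Mathlib.NumberTheory.ModularForms.CongruenceSubgroups
import Mathlib.Algebra.Field.ZMod
import Fermat.Agent.LevelRaising.Intersection

/-!
# Farey edges, and the intersection symbols span symbols modulo odd primes
-/

set_option autoImplicit false
set_option linter.unusedSimpArgs false

noncomputable section

open CongruenceSubgroup
open scoped MatrixGroups

namespace Fermat.Agent.LevelRaising

/-- Cosets used to index Farey edges modulo `Γ₀(N)`. -/
abbrev EdgeIdx (N : ℕ) := SL(2, ℤ) ⧸ Gamma0 N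

instance edgeIdxFintype (N : ℕ) [NeZero N] : Fintype (EdgeIdx N) := Fintype.ofFinite _

/-- A matrix representing a coset. -/
def edgeRep {N : ℕ} (j : EdgeIdx N) : Mat := ((j.out⁻¹ : SL(2, ℤ)) : Mat)

theorem mem_Gamma0_iff {N : ℕ} (g : SL(2, ℤ)) : g ∈ Gamma0 N ↔ (g : Mat) ∈ Lvl N := by
  rw [Gamma0_mem, ZMod.intCast_zmod_eq_zero_iff_dvd, mem_detLevel]
  exact ⟨fun h => ⟨g.det_coe, h⟩, fun h => h.2⟩

theorem mem_lvl_one {x : Mat} : x ∈ Lvl 1 ↔ x.det = 1 := by
  simp [mem_detLevel]

theorem fact_edgeRep (N : ℕ) : IsFact (Lvl 1) (Lvl N) (edgeRep (N := N)) where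
  det_ne_zero j := by
    rw [edgeRep, Matrix.SpecialLinearGroup.det_coe]; exact one_ne_zero
  mem y hy j := by
    rw [mem_lvl_one, Matrix.det_mul, hy.1, edgeRep, Matrix.SpecialLinearGroup.det_coe, one_mul]
  fact x hx := by
    let g : SL(2, ℤ) := ⟨x, hx.1⟩
    let j : EdgeIdx N := QuotientGroup.mk g⁻¹
    obtain ⟨h, hh⟩ := QuotientGroup.mk_out_eq_mul (Gamma0 N) g⁻¹
    refine ⟨j, ((h : SL(2, ℤ)) : Mat), (mem_Gamma0_iff _).mp h.2, ?_⟩
    have : g = (h : SL(2, ℤ)) * j.out⁻¹ := by rw [hh]; group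
    exact congrArg Subtype.val this
  unique {j j'} {y y'} hy hy' e := by
    let Y : SL(2, ℤ) := ⟨y, hy.1⟩
    let Y' : SL(2, ℤ) := ⟨y', hy'.1⟩
    have e' : Y * j.out⁻¹ = Y' * j'.out⁻¹ := Subtype.ext e
    rw [← QuotientGroup.out_eq' j, ← QuotientGroup.out_eq' j']
    refine QuotientGroup.eq.mpr ?_
    have : j.out⁻¹ * j'.out = Y⁻¹ * Y' := by
      have h1 : j.out⁻¹ = Y⁻¹ * (Y' * j'.out⁻¹) := by rw [← e']; group
      rw [h1]; group
    rw [this]
    exact mul_mem (inv_mem ((mem_Gamma0_iff _).mpr hy)) ((mem_Gamma0_iff _).mpr hy')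

/-- The value of a symbol on the edge `(g e, g e₂)`. -/
def edgeVal {A : Type*} [AddCommGroup A] (G : Vec → A) (g : Mat) : A :=
  G (act g (0, 1)) - G (act g vE)

section

variable {N : ℕ} {A : Type*} [AddCommGroup A] {G : Vec → A}

theorem e2_ne_zero : ((0, 1) : Vec) ≠ 0 := by simp [Prod.ext_iff]

theorem edgeVal_lvl_mul (hG : IsSym N G) {γ g : Mat} (hγ : γ ∈ Lvl N) (hg : g.det ≠ 0) :
    edgeVal G (γ * g) = edgeVal G g := by
  simp only [edgeVal, act_mul]
  exact hG.sub_eq hγ (act_ne_zero hg vE_ne_zero) (act_ne_zero hg e2_ne_zero)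

/-- A symbol vanishing on all edges vanishes. -/
theorem eq_zero_of_edgeVal [NeZero N] (hG : IsSym N G) (h : ∀ j, edgeVal G (edgeRep (N := N) j) = 0) :
    G = 0 := by
  have hall : ∀ g ∈ Lvl 1, edgeVal G g = 0 := by
    intro g hg
    obtain ⟨j, y, hy, rfl⟩ := (fact_edgeRep N).fact g hg
    rw [edgeVal_lvl_mul hG hy ((fact_edgeRep N).det_ne_zero j), h j]
  have hprim : ∀ (n : ℕ) (a c : ℤ), IsCoprime a c → c.natAbs ≤ n → G (a, c) = 0 := by
    intro n
    induction n with
    | zero =>
      intro a c hac hc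
      have hc0 : c = 0 := by omega
      subst hc0
      have ha : a ≠ 0 := fun ha => not_isCoprime_zero_zero (ha ▸ hac)
      have : ((a, 0) : Vec) = a • vE := by simp [vE]
      rw [this, hG.homog a ha, hG.apply_vE]
    | succ n ih =>
      intro a c hac hc
      rcases eq_or_ne c 0 with rfl | hc0
      · exact ih a 0 hac (by simp)
      obtain ⟨u, v, huv⟩ := hac
      have hdet : a * (u % c) - (-(v + a * (u / c))) * c = 1 := by
        linear_combination huv + a * Int.mul_ediv_add_emod u c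
      have hg : mm a (-(v + a * (u / c))) c (u % c) ∈ Lvl 1 :=
        mem_lvl_one.mpr (by rw [mm_det]; exact hdet)
      have h0 := hall _ hg
      simp only [edgeVal, act_mm, vE, mul_zero, mul_one, zero_add, add_zero] at h0
      have hlt : (u % c).natAbs < c.natAbs := by
        have h1 := Int.emod_nonneg u hc0
        have h2 := Int.emod_lt_abs u hc0
        rw [Int.abs_eq_natAbs] at h2
        omega
      rw [← sub_eq_zero.mp h0]
      exact ih _ _ ⟨-c, a, by linear_combination hdet⟩ (by omega)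
  funext v
  obtain ⟨a, c⟩ := v
  by_cases hv : ((a, c) : Vec) = 0
  · rw [hv, hG.zero]; rfl
  have hg0 : 0 < Int.gcd a c := by
    refine Nat.pos_of_ne_zero fun h0 => hv ?_
    rw [Int.gcd_eq_zero_iff] at h0
    simp [h0.1, h0.2]
  obtain ⟨a', c', hcop, ha, hc⟩ := Int.exists_gcd_one hg0
  have : ((a, c) : Vec) = (Int.gcd a c : ℤ) • (a', c') := by
    simp [Prod.ext_iff, ← ha, ← hc, mul_comm]
  rw [this, hG.homog _ (by exact_mod_cast hg0.ne')]
  exact hprim _ a' c' (Int.isCoprime_iff_gcd_eq_one.mpr hcop) le_rfl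

end

/-- The rotation of order four. -/
def sMat : Mat := mm 0 (-1) 1 0

/-- The rotation of order three fixing the base point. -/
def tauMat : Mat := mm 1 (-1) 1 0

theorem side_tauMat (u v : Vec) : side (act tauMat.adjugate u) (act tauMat.adjugate v) = side u v := by
  simp only [side, tauMat, mm, Matrix.adjugate_fin_two_of, crossDet, rhoForm, act, Matrix.of_apply,
    Matrix.cons_val_zero, Matrix.cons_val_one, Matrix.cons_val']
  congr 1
  ring

theorem crossing_tauMat (X : Set Mat) (g : Mat) (u v : Vec) :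
    crossing X 1 (g * tauMat).adjugate u v = crossing X 1 g.adjugate u v := by
  simp only [crossing]
  refine finsum_congr fun x => finsum_congr fun _ => ?_
  rw [sepTerm, sepTerm, Matrix.adjugate_mul_distrib, act_mul, act_mul, side_tauMat]

/-- Only the edge `(0, ∞)` separates the base point from its image under `S`. -/
theorem eq_of_separates {x : Mat} (hx : x.det = 1)
    (h : sepTerm 1 sMat.adjugate vE (0, 1) x ≠ 0) :
    x = 1 ∨ x = -1 ∨ x = sMat ∨ x = -sMat := by
  have hle := side_ne_imp (g := 1) (g' := sMat.adjugate) (by simp)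
    (by simp [sMat, Matrix.det_adjugate]) (sub_ne_zero.mp h)
  simp only [act_one] at hle
  simp only [sMat, mm, Matrix.adjugate_fin_two_of, rhoForm, act, vE, Matrix.of_apply,
    Matrix.cons_val_zero, Matrix.cons_val_one, Matrix.cons_val'] at hle
  rw [Matrix.det_fin_two] at hx
  set a := x 0 0 with ha
  set b := x 0 1 with hb
  set c := x 1 0 with hc
  set d := x 1 1 with hd
  have hsq : (2 * (a * b + c * d)) ^ 2 ≤ 1 + 4 * ((a * b) * (c * d)) := by
    have e : (a * d + b * c) ^ 2 = 1 + 4 * ((a * b) * (c * d)) := by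
      linear_combination (a * d - b * c + 1) * hx
    nlinarith
  have hu : a * b = 0 := by
    by_contra hne
    nlinarith [pow_two_pos_of_ne_zero hne, sq_nonneg (a * b + 2 * (c * d))]
  have hv : c * d = 0 := by
    by_contra hne
    nlinarith [pow_two_pos_of_ne_zero hne, sq_nonneg (c * d + 2 * (a * b))]
  rcases mul_eq_zero.mp hu with ha0 | hb0
  · have hbc : b * c = -1 := by rw [ha0] at hx; linarith
    have hd0 : d = 0 := (mul_eq_zero.mp hv).resolve_left fun hc0 => by simp [hc0] at hbc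
    rcases Int.mul_eq_neg_one_iff_eq_one_or_neg_one.mp hbc with ⟨h1, h2⟩ | ⟨h1, h2⟩
    · right; right; right
      rw [mm_eta x, ← ha, ← hb, ← hc, ← hd, ha0, h1, h2, hd0]
      decide
    · right; right; left
      rw [mm_eta x, ← ha, ← hb, ← hc, ← hd, ha0, h1, h2, hd0]
      decide
  · have had : a * d = 1 := by rw [hb0] at hx; linarith
    have hc0 : c = 0 := (mul_eq_zero.mp hv).resolve_right fun hd0 => by simp [hd0] at had
    rcases Int.mul_eq_one_iff_eq_one_or_neg_one.mp had with ⟨h1, h2⟩ | ⟨h1, h2⟩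
    · left
      rw [mm_eta x, ← ha, ← hb, ← hc, ← hd, h1, h2, hb0, hc0]
      decide
    · right; left
      rw [mm_eta x, ← ha, ← hb, ← hc, ← hd, h1, h2, hb0, hc0]
      decide

variable {N : ℕ} [NeZero N]

/-- Intersection symbols span symbols modulo an odd prime. -/
theorem pairing_eq_zero {p : ℕ} [hp : Fact p.Prime] (hp2 : p ≠ 2) (w : EdgeIdx N → ZMod p)
    (hw : ∀ γ ∈ Lvl N, ∑ j, w j * ((edgeVal (inter N γ) (edgeRep j) : ℤ) : ZMod p) = 0)
    {G : Vec → ℤ} (hG : IsSym N G) :
    ∑ j, w j * ((edgeVal G (edgeRep j) : ℤ) : ZMod p) = 0 := by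
  classical
  have hF := fact_edgeRep N
  have hrep : ∀ j : EdgeIdx N, edgeRep j ∈ Lvl 1 := fun j => by
    simpa using hF.mem 1 (one_mem_lvl N) j
  -- the weight as a left invariant function on `SL₂(ℤ)`
  let idx : Mat → EdgeIdx N := fun x =>
    if hx : x ∈ Lvl 1 then (hF.fact x hx).choose else Classical.arbitrary _
  have hidx : ∀ x ∈ Lvl 1, ∃ y ∈ Lvl N, x = y * edgeRep (idx x) := by
    intro x hx; simp only [idx, dif_pos hx]; exact (hF.fact x hx).choose_spec
  have idx_eq : ∀ (x y : Mat) (j : EdgeIdx N), y ∈ Lvl N → x = y * edgeRep j → idx x = j := by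
    intro x y j hy he
    obtain ⟨y', hy', he'⟩ := hidx x (he ▸ hF.mem y hy j)
    exact hF.unique hy' hy (he'.symm.trans he)
  have idx_mul : ∀ (γ x : Mat), γ ∈ Lvl N → x ∈ Lvl 1 → idx (γ * x) = idx x := by
    intro γ x hγ hx
    obtain ⟨y, hy, e⟩ := hidx x hx
    exact idx_eq _ (γ * y) _ (lvl_mul hγ hy) (by rw [mul_assoc, ← e])
  have neg1 : (-1 : Mat) ∈ Lvl N := ⟨by simp [Matrix.det_fin_two], by simp⟩
  have hτ : tauMat ∈ Lvl 1 := mem_lvl_one.mpr (by simp [tauMat])
  have hS : sMat ∈ Lvl 1 := mem_lvl_one.mpr (by simp [sMat])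
  -- right translation permutes cosets
  have perm : ∀ h ∈ Lvl 1, Function.Bijective fun j : EdgeIdx N => idx (edgeRep j * h) := by
    intro h hh
    refine Finite.injective_iff_bijective.mp fun j j' e => ?_
    obtain ⟨y, hy, e1⟩ := hidx _ (lvl_mul (hrep j) hh)
    obtain ⟨y', hy', e2⟩ := hidx _ (lvl_mul (hrep j') hh)
    rw [show idx (edgeRep j * h) = idx (edgeRep j' * h) from e] at e1
    generalize idx (edgeRep j' * h) = k at e1 e2
    have h3 : y.adjugate * edgeRep j * h = y'.adjugate * edgeRep j' * h := by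
      rw [mul_assoc, mul_assoc, e1, e2, ← mul_assoc, ← mul_assoc, adjugate_mul_lvl hy,
        adjugate_mul_lvl hy']
    exact hF.unique (adjugate_mem_detLevel hy) (adjugate_mem_detLevel hy')
      (mat_cancel_right (det_ne_zero_of_lvl hh) h3)
  -- the potential
  let Φ : Mat → ZMod p := fun g => ∑ j, w j *
    ((crossing (Lvl N) 1 g.adjugate (act (edgeRep j) vE) (act (edgeRep j) (0, 1)) : ℤ) : ZMod p)
  have hX : ∀ x ∈ Lvl N, x.det = 1 := fun x hx => hx.1
  have dpos : ∀ g ∈ Lvl 1, 0 < g.adjugate.det := fun g hg => det_adjugate_pos hg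
  have hne : ∀ (j : EdgeIdx N) (v : Vec), v ≠ 0 → act (edgeRep j) v ≠ 0 := fun j v hv =>
    act_ne_zero (hF.det_ne_zero j) hv
  have Φ_mul : ∀ γ ∈ Lvl N, ∀ g ∈ Lvl 1, Φ (γ * g) = Φ g := by
    intro γ hγ g hg
    simp only [Φ]
    rw [← sub_eq_zero, ← Finset.sum_sub_distrib]
    rw [← hw γ hγ]
    refine Finset.sum_congr rfl fun j _ => ?_
    rw [← mul_sub, ← Int.cast_sub, Matrix.adjugate_mul_distrib,
      crossing_trans (g' := γ.adjugate) (by simp) (det_adjugate_pos hγ)
        (by rw [Matrix.det_mul]; exact mul_pos (dpos g hg) (det_adjugate_pos hγ)) one_ne_zero hX,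
      inter_pair hγ (hne j _ vE_ne_zero) (hne j _ e2_ne_zero)]
    have e := crossing_mul_right (adjugate_mem_detLevel hγ) (r := 1) 1 g.adjugate
      (act (edgeRep j) vE) (act (edgeRep j) (0, 1))
    rw [one_mul] at e
    rw [e, edgeVal]
    congr 2
    ring
  have Φ_tau : ∀ g : Mat, Φ (g * tauMat) = Φ g := by
    intro g
    simp only [Φ, crossing_tauMat]
  let δ : Mat → ℤ := sepTerm 1 sMat.adjugate vE (0, 1)
  have Φ_S : ∀ g ∈ Lvl 1, Φ (g * sMat) - Φ g = 4 * (w (idx g) - w (idx (g * sMat))) := by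
    intro g hg
    have hga := adjugate_mem_detLevel hg
    let F : Mat → ZMod p := fun x => w (idx x) * ((δ (g.adjugate * x) : ℤ) : ZMod p)
    have hsupp : Lvl 1 ∩ Function.support F ⊆
        ↑({g * 1, g * -1, g * sMat, g * -sMat} : Finset Mat) := by
      rintro x ⟨hx, hne'⟩
      have hδ : δ (g.adjugate * x) ≠ 0 := fun h0 => hne' (by simp [F, h0])
      have hxd : (g.adjugate * x).det = 1 := (lvl_mul hga hx).1
      have hgx : x = g * (g.adjugate * x) := by rw [← mul_assoc, mul_adjugate_lvl hg, one_mul]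
      simp only [Finset.coe_insert, Finset.coe_singleton, Set.mem_insert_iff,
        Set.mem_singleton_iff]
      rcases eq_of_separates hxd hδ with h | h | h | h <;> rw [hgx, h] <;> simp
    have h1 : Φ (g * sMat) - Φ g = ∑ᶠ x ∈ Lvl 1, F x := by
      rw [finsum_fact hF F ((Finset.finite_toSet _).subset hsupp)]
      simp only [Φ]
      rw [← Finset.sum_sub_distrib]
      refine Finset.sum_congr rfl fun j _ => ?_
      have hd : 0 < (sMat.adjugate * g.adjugate).det := by
        rw [Matrix.det_mul]; exact mul_pos (by simp [sMat, Matrix.det_adjugate]) (dpos g hg)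
      rw [← mul_sub, ← Int.cast_sub, Matrix.adjugate_mul_distrib,
        crossing_trans (g' := g.adjugate) (by simp) (dpos g hg) hd one_ne_zero hX,
        add_sub_cancel_left, crossing]
      have hfin := finite_support_sepTerm (dpos g hg) hd (act (edgeRep j) vE)
        (act (edgeRep j) (0, 1)) one_ne_zero hX
      rw [show (((∑ᶠ x ∈ Lvl N, sepTerm g.adjugate (sMat.adjugate * g.adjugate)
          (act (edgeRep j) vE) (act (edgeRep j) (0, 1)) x : ℤ)) : ZMod p) =
          ∑ᶠ x ∈ Lvl N, ((sepTerm g.adjugate (sMat.adjugate * g.adjugate)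
            (act (edgeRep j) vE) (act (edgeRep j) (0, 1)) x : ℤ) : ZMod p) from
        (Int.castAddHom (ZMod p)).map_finsum_mem' hfin, mul_finsum_mem]
      refine finsum_mem_congr rfl fun y hy => ?_
      simp only [F, δ, sepTerm, act_mul, act_one]
      rw [idx_eq _ y j hy rfl]
    rw [h1, finsum_mem_eq_sum_of_inter_support_eq F
      (t := ({g * 1, g * -1, g * sMat, g * -sMat} : Finset Mat))]
    · have hinj : Function.Injective (g * ·) := fun a b e => mat_cancel_left (det_ne_zero_of_lvl hg) e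
      rw [Finset.sum_insert, Finset.sum_insert, Finset.sum_insert, Finset.sum_singleton]
      rotate_left
      · simp only [Finset.mem_singleton]; exact hinj.ne (by decide)
      · simp only [Finset.mem_insert, Finset.mem_singleton, not_or]
        exact ⟨hinj.ne (by decide), hinj.ne (by decide)⟩
      · simp only [Finset.mem_insert, Finset.mem_singleton, not_or]
        exact ⟨hinj.ne (by decide), hinj.ne (by decide), hinj.ne (by decide)⟩
      simp only [F, δ, ← mul_assoc g.adjugate, adjugate_mul_lvl hg, one_mul, mul_one]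
      rw [show idx (g * -1) = idx g by
          rw [show g * -1 = (-1 : Mat) * g by simp]; exact idx_mul _ _ neg1 hg,
        show idx (g * -sMat) = idx (g * sMat) by
          rw [show g * -sMat = (-1 : Mat) * (g * sMat) by simp]
          exact idx_mul _ _ neg1 (lvl_mul hg hS),
        show sepTerm 1 sMat.adjugate vE (0, 1) 1 = 2 by decide,
        show sepTerm 1 sMat.adjugate vE (0, 1) (-1) = 2 by decide,
        show sepTerm 1 sMat.adjugate vE (0, 1) sMat = -2 by decide,
        show sepTerm 1 sMat.adjugate vE (0, 1) (-sMat) = -2 by decide]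
      push_cast
      ring
    · refine Set.Subset.antisymm (fun x hx => ⟨hsupp hx, hx.2⟩) fun x hx => ⟨?_, hx.2⟩
      have hx1 := hx.1
      simp only [Finset.coe_insert, Finset.coe_singleton, Set.mem_insert_iff,
        Set.mem_singleton_iff] at hx1
      rw [mem_lvl_one]
      rcases hx1 with h | h | h | h <;> rw [h] <;>
        simp [Matrix.det_mul, hg.1, hS.1, Matrix.det_neg, Matrix.det_fin_two]
  -- the values of `G`
  have Einv : ∀ γ ∈ Lvl N, ∀ g ∈ Lvl 1, edgeVal G (γ * g) = edgeVal G g := fun γ hγ g hg =>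
    edgeVal_lvl_mul hG hγ (det_ne_zero_of_lvl hg)
  have ES : ∀ g : Mat, edgeVal G (g * sMat) = -edgeVal G g := by
    intro g
    have h1 : act sMat (0, 1) = (-1 : ℤ) • vE := by decide
    have h2 : act sMat vE = (0, 1) := by decide
    rw [edgeVal, act_mul, act_mul, h1, h2, act_zsmul, hG.homog (-1) (by norm_num), edgeVal]
    ring
  have Etri : ∀ g : Mat,
      edgeVal G g + edgeVal G (g * tauMat) + edgeVal G (g * tauMat * tauMat) = 0 := by
    intro g
    simp only [edgeVal, act_mul]
    rw [show act tauMat (act tauMat (0, 1)) = (-1 : ℤ) • (1, 1) by decide,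
      show act tauMat (0, 1) = (-1 : ℤ) • vE by decide,
      show act tauMat (act tauMat vE) = (0, 1) by decide,
      show act tauMat vE = (1, 1) by decide, act_zsmul, act_zsmul,
      hG.homog (-1) (by norm_num), hG.homog (-1) (by norm_num)]
    ring
  -- sums of left invariant functions are invariant under right translation
  have sum_shift : ∀ {B : Type} [AddCommMonoid B] (f : Mat → B),
      (∀ γ ∈ Lvl N, ∀ g ∈ Lvl 1, f (γ * g) = f g) → ∀ h ∈ Lvl 1,
      ∑ j : EdgeIdx N, f (edgeRep j * h) = ∑ j : EdgeIdx N, f (edgeRep j) := by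
    intro B _ f hf h hh
    refine Fintype.sum_bijective _ (perm h hh) _ _ fun j => ?_
    obtain ⟨y, hy, e⟩ := hidx _ (lvl_mul (hrep j) hh)
    rw [e, hf y hy _ (hrep _), ← e]
  have hzero : ∑ j : EdgeIdx N, Φ (edgeRep j) * ((edgeVal G (edgeRep j) : ℤ) : ZMod p) = 0 := by
    let f : Mat → ℤ := fun g => ((Φ g).val : ℤ) * edgeVal G g
    have hf : ∀ γ ∈ Lvl N, ∀ g ∈ Lvl 1, f (γ * g) = f g := fun γ hγ g hg => by
      simp only [f, Φ_mul γ hγ g hg, Einv γ hγ g hg]
    have h3 : ∑ j : EdgeIdx N, f (edgeRep j) + ∑ j : EdgeIdx N, f (edgeRep j * tauMat) +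
        ∑ j : EdgeIdx N, f (edgeRep j * (tauMat * tauMat)) = 0 := by
      rw [← Finset.sum_add_distrib, ← Finset.sum_add_distrib]
      refine Finset.sum_eq_zero fun j _ => ?_
      simp only [f, ← mul_assoc, Φ_tau, ← mul_add, Etri, mul_zero]
    rw [sum_shift f hf _ hτ, sum_shift f hf _ (lvl_mul hτ hτ)] at h3
    have h4 : ∑ j : EdgeIdx N, f (edgeRep j) = 0 := by omega
    have h5 := congrArg (Int.cast : ℤ → ZMod p) h4
    push_cast [f] at h5
    simpa using h5
  -- conclude
  have hwidx : ∀ j, idx (edgeRep j) = j := fun j =>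
    idx_eq _ 1 j (one_mem_lvl N) (one_mul _).symm
  set E : Mat → ZMod p := fun g => ((edgeVal G g : ℤ) : ZMod p)
  have h8 : (8 : ZMod p) * ∑ j, w j * E (edgeRep j) = 0 := by
    have s1 : ∑ j : EdgeIdx N, Φ (edgeRep j * sMat) * E (edgeRep j * sMat) =
        ∑ j : EdgeIdx N, Φ (edgeRep j) * E (edgeRep j) :=
      sum_shift (fun g => Φ g * E g) (fun γ hγ g hg => by
        simp only [E, Φ_mul γ hγ g hg, Einv γ hγ g hg]) _ hS
    have s2 : ∑ j : EdgeIdx N, w (idx (edgeRep j * sMat)) * E (edgeRep j * sMat) =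
        ∑ j : EdgeIdx N, w (idx (edgeRep j)) * E (edgeRep j) :=
      sum_shift (fun g => w (idx g) * E g) (fun γ hγ g hg => by
        simp only [E, idx_mul γ g hγ hg, Einv γ hγ g hg]) _ hS
    have s3 : ∑ j : EdgeIdx N, (Φ (edgeRep j * sMat) * E (edgeRep j) - Φ (edgeRep j) * E (edgeRep j)) =
        ∑ j : EdgeIdx N, (4 * (w j * E (edgeRep j)) -
          4 * (w (idx (edgeRep j * sMat)) * E (edgeRep j))) := by
      refine Finset.sum_congr rfl fun j _ => ?_
      have h := Φ_S _ (hrep j)
      rw [hwidx] at h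
      linear_combination E (edgeRep j) * h
    have hE : ∀ g, E (g * sMat) = -E g := fun g => by simp [E, ES g]
    simp only [hE, mul_neg, Finset.sum_neg_distrib, hwidx] at s1 s2
    simp only [Finset.sum_sub_distrib, ← Finset.mul_sum] at s3
    have hz : ∑ j : EdgeIdx N, Φ (edgeRep j) * E (edgeRep j) = 0 := hzero
    linear_combination (-1 : ZMod p) * s3 + (-1 : ZMod p) * s1 + (-4 : ZMod p) * s2 + (-2 : ZMod p) * hz
  refine (mul_eq_zero.mp h8).resolve_left fun h => ?_
  have h2 : ((8 : ℕ) : ZMod p) = 0 := by exact_mod_cast h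
  rw [CharP.cast_eq_zero_iff (ZMod p) p] at h2
  exact hp2 ((Nat.prime_dvd_prime_iff_eq hp.out Nat.prime_two).mp
    (hp.out.dvd_of_dvd_pow (show p ∣ 2 ^ 3 from h2)))

end Fermat.Agent.LevelRaising
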