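import Fermat.Prelude.Thm_CuspForm_heckeTLin_comm
import Fermat.Prelude.Thm_CuspForm_heckeULin_comm
import Fermat.Prelude.Thm_CuspForm_heckeTLin_heckeULin_comm
import Fermat.Agent.HeckeEigen.Eigenform
import Fermat.Agent.LevelRaising.Cusps
import Fermat.Agent.LevelRaising.Periods
import Fermat.Agent.LevelRaising.Spanning
import Fermat.Agent.S20

/-!
# From a complex eigen symbol to a normalised eigenform

By Eichler–Shimura an eigen symbol which is not invariant under the group comes from an eigen pair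
of cusp forms; the non-Eisenstein eigenvalue at one prime `ℓ ≡ 1 (N)` excludes invariant symbols.
-/

set_option autoImplicit false

noncomputable section

open CongruenceSubgroup ModularCurve ModularCurve.Period
open scoped MatrixGroups

namespace Fermat.Agent.LevelRaising

variable {N : ℕ}

/-- Right translation by the group permutes a system of representatives. -/
theorem exists_perm {ι : Type*} [Fintype ι] {X : Set Mat} {β : ι → Mat}
    (h : IsFact X (Lvl N) β) (hX : ∀ γ ∈ Lvl N, ∀ x ∈ X, x * γ ∈ X) {γ : Mat} (hγ : γ ∈ Lvl N) :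
    ∃ σ : ι ≃ ι, ∀ i, ∃ y ∈ Lvl N, β i * γ = y * β (σ i) := by
  have key : ∀ i, ∃ j, ∃ y ∈ Lvl N, β i * γ = y * β j := fun i =>
    h.fact _ (hX γ hγ _ (by simpa using h.mem 1 (one_mem_lvl N) i))
  choose e y hy he using key
  have hinj : Function.Injective e := by
    intro i j hij
    have h1 : ∀ i, (y i).adjugate * β i * γ = β (e i) := fun i => by
      rw [mul_assoc, he i, ← mul_assoc, adjugate_mul_lvl (hy i), one_mul]
    exact h.unique (adjugate_mem_detLevel (hy i)) (adjugate_mem_detLevel (hy j))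
      (mat_cancel_right (det_ne_zero_of_lvl hγ) (by rw [h1, h1, hij]))
  exact ⟨Equiv.ofBijective e (Finite.injective_iff_bijective.mp hinj),
    fun i => ⟨y i, hy i, he i⟩⟩

theorem exists_perm_uMat {q : ℕ} (hq : q.Prime) (hqN : q ∣ N) {γ : Mat} (hγ : γ ∈ Lvl N) :
    ∃ σ : Fin q ≃ Fin q, ∀ j, ∃ y ∈ Lvl N, uMat q j * γ = y * uMat q (σ j) := by
  rw [mm_eta γ] at hγ ⊢
  generalize γ 0 0 = a, γ 0 1 = b, γ 1 0 = c, γ 1 1 = d at hγ ⊢
  obtain ⟨hdet, hdvd⟩ := mm_mem_detLevel.mp hγ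
  have hqc : (q : ℤ) ∣ c := (Int.natCast_dvd_natCast.mpr hqN).trans hdvd
  have hq' := Nat.prime_iff_prime_int.mp hq
  have ha : ¬ (q : ℤ) ∣ a * d := fun hd => hq'.not_isUnit (isUnit_of_dvd_one
    (hdet ▸ dvd_sub hd (hqc.mul_left b)))
  have hA : ∀ j : Fin q, ¬ (q : ℤ) ∣ a + (j : ℕ) * c := fun j hd =>
    ha (((Int.dvd_add_left (hqc.mul_left _)).mp hd).mul_right d)
  choose e he using fun j : Fin q => exists_fin_dvd hq (hA j) (b + (j : ℕ) * d)
  have hinj : Function.Injective e := by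
    intro i j hij
    have h1 := dvd_sub (he i) (he j)
    rw [hij] at h1
    have h2 : (q : ℤ) ∣ (((i : ℕ) : ℤ) - (j : ℕ)) * (d - c * ((e j : ℕ) : ℤ)) := by
      obtain ⟨t, ht⟩ := h1
      exact ⟨t, by linear_combination ht⟩
    refine fin_eq_of_dvd ((hq'.dvd_mul.mp h2).resolve_right fun hd => ha ?_)
    have h3 : (q : ℤ) ∣ d := by simpa using dvd_add hd (hqc.mul_right ((e j : ℕ) : ℤ))
    exact h3.mul_left a
  refine ⟨Equiv.ofBijective e (Finite.injective_iff_bijective.mp hinj), fun j => ?_⟩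
  obtain ⟨t, ht⟩ := he j
  refine ⟨mm (a + (j : ℕ) * c) t (q * c) (d - c * (e j : ℕ)), mm_mem_detLevel.mpr ⟨?_, hdvd.mul_left _⟩, ?_⟩
  · linear_combination hdet + c * ht
  · simp only [uMat, Equiv.ofBijective_apply, mm_mul, mm_inj]
    refine ⟨?_, ?_, ?_, ?_⟩
    · ring
    · linear_combination ht
    · ring
    · ring

variable {A : Type*} [AddCommGroup A] {G : Vec → A}

/-- The operators preserve invariance. -/
theorem op_invariant {ι : Type*} [Fintype ι] {β : ι → Mat} (hG : IsSym N G)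
    (hinv : ∀ γ ∈ Lvl N, G (act γ vE) = 0) (hβ : ∀ i, (β i).det ≠ 0)
    (hperm : ∀ γ ∈ Lvl N, ∃ σ : ι ≃ ι, ∀ i, ∃ y ∈ Lvl N, β i * γ = y * β (σ i)) :
    ∀ γ ∈ Lvl N, op β G (act γ vE) = 0 := by
  intro γ hγ
  obtain ⟨σ, hσ⟩ := hperm γ hγ
  rw [op_apply _ _ (act_ne_zero (det_ne_zero_of_lvl hγ) vE_ne_zero), Finset.sum_sub_distrib,
    sub_eq_zero]
  refine Fintype.sum_equiv σ _ _ fun i => ?_
  obtain ⟨y, hy, e⟩ := hσ i
  rw [← act_mul, e, act_mul, hG.equiv y hy _ (act_ne_zero (hβ _) vE_ne_zero), hinv y hy, zero_add]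

/-- The homomorphism given by a symbol. -/
def symHom (hG : IsSym N G) : Additive (Gamma0 N) →+ A :=
  AddMonoidHom.mk' (fun γ => G (act (((Additive.toMul γ : Gamma0 N) : SL(2, ℤ)) : Mat) vE)) fun x y =>
    hG.apply_mul ((mem_Gamma0_iff _).mp (Additive.toMul x).2)
      ((mem_Gamma0_iff _).mp (Additive.toMul y).2)

theorem isParabolicHom_symHom (hG : IsSym N G) : IsParabolicHom (Gamma0 N) (symHom hG) := by
  intro γ hγ
  obtain ⟨δ, hδ⟩ := HeckeFinite.exists_conj_lowerLeft_eq_zero (γ : SL(2, ℤ)) hγ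
  set ε : SL(2, ℤ) := δ⁻¹ * γ * δ with hε
  have hγm : ((γ : SL(2, ℤ)) : Mat) ∈ Lvl N := (mem_Gamma0_iff _).mp γ.2
  have hv : act (δ : Mat) vE ≠ 0 := act_ne_zero (by rw [δ.det_coe]; exact one_ne_zero) vE_ne_zero
  have hγδ : ((γ : SL(2, ℤ)) : Mat) * (δ : Mat) = (δ : Mat) * (ε : Mat) := by
    rw [← Matrix.SpecialLinearGroup.coe_mul, ← Matrix.SpecialLinearGroup.coe_mul]
    congr 1
    rw [hε]; group
  have he : act (ε : Mat) vE = ε 0 0 • vE := by
    rw [act_vE]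
    simp [vE, hδ]
  have he0 : ε 0 0 ≠ 0 := by
    intro h0
    have := ε.det_coe
    rw [Matrix.det_fin_two, h0, hδ] at this
    simp at this
  have h1 := hG.equiv _ hγm _ hv
  rw [← act_mul, hγδ, act_mul, he, act_zsmul, hG.homog _ he0] at h1
  show G (act ((γ : SL(2, ℤ)) : Mat) vE) = 0
  exact add_eq_right.mp h1.symm

variable [NeZero N]

/-- A common eigenvector inside a stable subspace. -/
theorem exists_common_eigenvector {V : Type*} [AddCommGroup V] [Module ℂ V] [FiniteDimensional ℂ V]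
    {ι : Type*} (T : ι → Module.End ℂ V) (hT : ∀ i j, Commute (T i) (T j)) (W : Submodule ℂ V)
    (hW : W ≠ ⊥) (hst : ∀ i, ∀ x ∈ W, T i x ∈ W) :
    ∃ v ∈ W, v ≠ 0 ∧ ∀ i, ∃ c : ℂ, T i v = c • v := by
  classical
  obtain ⟨d, ⟨W', hW', hle, hst', rfl⟩, hmin⟩ := Nat.lt_wfRel.wf.has_min
    {d | ∃ W' : Submodule ℂ V, W' ≠ ⊥ ∧ W' ≤ W ∧ (∀ i, ∀ x ∈ W', T i x ∈ W') ∧
      Module.finrank ℂ W' = d} ⟨_, W, hW, le_rfl, hst, rfl⟩
  obtain ⟨v, hv, hv0⟩ := (Submodule.ne_bot_iff _).mp hW'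
  refine ⟨v, hle hv, hv0, fun i => ?_⟩
  have : Nontrivial W' := Submodule.nontrivial_iff_ne_bot.mpr hW'
  obtain ⟨c, hc⟩ := Module.End.exists_eigenvalue ((T i).restrict (hst' i))
  obtain ⟨w, hw⟩ := hc.exists_hasEigenvector
  refine ⟨c, ?_⟩
  set W'' := W' ⊓ LinearMap.ker (T i - c • LinearMap.id)
  have hne : W'' ≠ ⊥ := (Submodule.ne_bot_iff _).mpr ⟨w, ⟨w.2, by
    simpa [sub_eq_zero] using congrArg Subtype.val hw.apply_eq_smul⟩, by
    simpa using hw.2⟩
  have hst'' : ∀ j, ∀ x ∈ W'', T j x ∈ W'' := fun j x hx => by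
    refine ⟨hst' j x hx.1, ?_⟩
    have h2 := hx.2
    simp only [SetLike.mem_coe, LinearMap.mem_ker, LinearMap.sub_apply, LinearMap.smul_apply,
      LinearMap.id_apply, sub_eq_zero] at h2 ⊢
    rw [← Module.End.mul_apply, (hT i j).eq, Module.End.mul_apply, h2, map_smul]
  have heq : W'' = W' := Submodule.eq_of_le_of_finrank_le inf_le_left (not_lt.mp fun hlt =>
    hmin _ ⟨W'', hne, inf_le_left.trans hle, hst'', rfl⟩ hlt)
  rw [← heq] at hv
  simpa [sub_eq_zero] using hv.2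

/-- The Hecke operators of `S₂(Γ₀(N))` at all primes. -/
def heckeAt (N : ℕ) [NeZero N] (p : {p : ℕ // p.Prime}) :
    Module.End ℂ (CuspForm (Gamma0 N) 2) :=
  if h : (p : ℕ) ∣ N then CuspForm.heckeULin 2 h else CuspForm.heckeTLin 2 p.2 h

theorem commute_heckeAt (p p' : {p : ℕ // p.Prime}) : Commute (heckeAt N p) (heckeAt N p') := by
  unfold heckeAt
  split_ifs with h h'
  · exact CuspForm.heckeULin_comm 2 h h'
  · exact (CuspForm.heckeTLin_heckeULin_comm 2 p'.2 h' h).symm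
  · exact CuspForm.heckeTLin_heckeULin_comm 2 p.2 h ‹_›
  · exact CuspForm.heckeTLin_comm 2 p.2 h p'.2 ‹_›

/-- An eigen symbol with `U_q² = 1` gives a normalised eigenform with `a_q² = 1`. -/
theorem exists_eigenform_of_eigenSymbol {q : ℕ} (hq : q.Prime) (hqN : q ∣ N) {R : Set ℕ}
    (hR : ∀ r ∈ R, r.Prime ∧ ¬ r ∣ N) {Ψ : Vec → ℂ} (hΨ : IsSym N Ψ) (h0 : Ψ ≠ 0)
    (hUU : hU q (hU q Ψ) = Ψ) (β : ℕ → ℂ) (hev : ∀ r ∈ R, hT r Ψ = β r • Ψ) {ℓ : ℕ} (hℓ : ℓ ∈ R)
    (hℓN : (N : ℤ) ∣ (ℓ : ℤ) - 1) (hℓβ : β ℓ ≠ (ℓ : ℂ) + 1) :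
    ∃ g : CuspForm (Gamma0 N) 2, g.IsNormalizedEigenform ∧
      ModularFormClass.qCoeff g q ^ 2 = 1 ∧ ∀ r ∈ R, ModularFormClass.qCoeff g r = β r := by
  classical
  have := HeckeEigen.finiteDimensional_cuspForm N 2
  have hpar : symHom hΨ ∈ parabolicHoms ℂ (Gamma0 N) ℂ := isParabolicHom_symHom hΨ
  rw [← (EichlerShimura.periodFacts N).range_periodHomPair (S20.result N).ge] at hpar
  obtain ⟨x, hx⟩ := hpar
  set β0 := Ψ - perPair N x with hβ0
  have hβsym : IsSym N β0 := (symModule N ℂ ℂ).sub_mem hΨ (isSym_perPair N x)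
  have hinv : ∀ γ ∈ Lvl N, β0 (act γ vE) = 0 := by
    intro γ hγ
    obtain ⟨g, rfl⟩ := exists_gamma0_coe hγ
    rw [hβ0, Pi.sub_apply, perPair_gamma, hx, sub_eq_zero]
    rfl
  have hzero : ∀ y, (∀ γ ∈ Lvl N, perPair N y (act γ vE) = 0) → y = 0 := fun y hy =>
    (EichlerShimura.periodFacts N).periodHomPair_injective (by
      rw [map_zero]
      refine AddMonoidHom.ext fun γ => ?_
      obtain ⟨γ, rfl⟩ := Additive.ofMul.surjective γ
      rw [← perPair_gamma, AddMonoidHom.zero_apply]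
      exact hy _ ((mem_Gamma0_iff _).mp γ.2))
  -- the forms are eigen with the same eigenvalues
  have hxT : ∀ r (hr : r ∈ R), (CuspForm.heckeTLin 2 (hR r hr).1 (hR r hr).2 x.1,
      CuspForm.heckeTLin 2 (hR r hr).1 (hR r hr).2 x.2) = β r • x := by
    intro r hr
    obtain ⟨hrp, hrN⟩ := hR r hr
    refine sub_eq_zero.mp (hzero _ fun γ hγ => ?_)
    have hf := fact_heckMat_one hrp hrN
    have h1 := op_invariant hβsym hinv hf.det_ne_zero (fun γ hγ => exists_perm hf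
      (fun γ hγ x hx => by simpa using detLevel_mul hx hγ) hγ) γ hγ
    have h2 : perPair N x = Ψ - β0 := by rw [hβ0, sub_sub_cancel]
    rw [map_sub, map_smul, perPair_heckeTLin, Pi.sub_apply, Pi.smul_apply, h2]
    simp only [hT] at hev ⊢
    rw [← opLin_apply ℂ, map_sub, Pi.sub_apply, opLin_apply, opLin_apply, hev r hr, h1,
      Pi.sub_apply, hinv γ hγ, Pi.smul_apply]
    simp
  have hxU : (CuspForm.heckeULin 2 hqN (CuspForm.heckeULin 2 hqN x.1),
      CuspForm.heckeULin 2 hqN (CuspForm.heckeULin 2 hqN x.2)) = x := by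
    refine sub_eq_zero.mp (hzero _ fun γ hγ => ?_)
    have hd : ∀ j : Fin q, (uMat q j).det ≠ 0 := fun j => by simp [uMat, hq.ne_zero]
    have hperm : ∀ γ ∈ Lvl N, ∃ σ : Fin q × Fin q ≃ Fin q × Fin q, ∀ i, ∃ y ∈ Lvl N,
        uMat q i.2 * uMat q i.1 * γ = y * (uMat q (σ i).2 * uMat q (σ i).1) := by
      intro γ hγ
      obtain ⟨σ, hσ⟩ := exists_perm_uMat hq hqN hγ
      choose y hy hye using hσ
      choose τ hτ using fun i => exists_perm_uMat hq hqN (hy i)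
      refine ⟨((Equiv.refl (Fin q)).prodShear τ).trans (σ.prodCongr (Equiv.refl _)), fun i => ?_⟩
      obtain ⟨z, hz, hze⟩ := hτ i.1 i.2
      refine ⟨z, hz, ?_⟩
      rw [mul_assoc, hye i.1, ← mul_assoc, hze, mul_assoc]
      rfl
    have h1 := op_invariant hβsym hinv (β := fun i : Fin q × Fin q => uMat q i.2 * uMat q i.1)
      (fun i => by rw [Matrix.det_mul]; exact mul_ne_zero (hd _) (hd _)) hperm γ hγ
    have h2 : perPair N x = Ψ - β0 := by rw [hβ0, sub_sub_cancel]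
    rw [map_sub, perPair_heckeULin N hq hqN (CuspForm.heckeULin 2 hqN x.1,
      CuspForm.heckeULin 2 hqN x.2), perPair_heckeULin N hq hqN x, Pi.sub_apply, h2]
    simp only [hU] at hUU ⊢
    rw [← opLin_apply ℂ, ← opLin_apply ℂ (uMat q) (Ψ - β0), map_sub, map_sub, Pi.sub_apply,
      opLin_apply, opLin_apply, opLin_apply, opLin_apply, hUU, op_op _ _ hd, h1, Pi.sub_apply,
      hinv γ hγ, sub_self]
  have hx0 : x ≠ 0 := by
    rintro rfl
    rw [hβ0, map_zero, sub_zero] at hinv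
    have h2 := hT_of_invariant hΨ hinv (hR ℓ hℓ).1 hℓN
    rw [hev ℓ hℓ, ← Nat.cast_smul_eq_nsmul ℂ, ← sub_eq_zero, ← sub_smul] at h2
    have h3 := (smul_eq_zero.mp h2).resolve_right h0
    push_cast at h3
    exact hℓβ (sub_eq_zero.mp h3)
  -- the eigen subspace
  let W : Submodule ℂ (CuspForm (Gamma0 N) 2) :=
    (⨅ r : R, LinearMap.ker (CuspForm.heckeTLin 2 (hR r r.2).1 (hR r r.2).2 - β r • LinearMap.id)) ⊓
      LinearMap.ker (CuspForm.heckeULin 2 hqN * CuspForm.heckeULin 2 hqN - 1)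
  have hmemW : ∀ f, f ∈ W ↔ (∀ r (hr : r ∈ R), CuspForm.heckeTLin 2 (hR r hr).1 (hR r hr).2 f =
      β r • f) ∧ CuspForm.heckeULin 2 hqN (CuspForm.heckeULin 2 hqN f) = f := fun f => by
    simp [W, sub_eq_zero, Submodule.mem_iInf]
  have hW : W ≠ ⊥ := by
    intro hbot
    have h1 : x.1 ∈ W := (hmemW _).mpr ⟨fun r hr => congrArg Prod.fst (hxT r hr),
      congrArg Prod.fst hxU⟩
    have h2 : x.2 ∈ W := (hmemW _).mpr ⟨fun r hr => congrArg Prod.snd (hxT r hr),
      congrArg Prod.snd hxU⟩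
    rw [hbot, Submodule.mem_bot] at h1 h2
    exact hx0 (Prod.ext h1 h2)
  obtain ⟨f, hfW, hf0, hf⟩ := exists_common_eigenvector (heckeAt N) commute_heckeAt W hW
    fun i f hf => by
      obtain ⟨h1, h2⟩ := (hmemW f).mp hf
      have hU' : Commute (CuspForm.heckeULin 2 hqN) (heckeAt N i) := by
        have := commute_heckeAt (N := N) ⟨q, hq⟩ i
        rwa [heckeAt, dif_pos hqN] at this
      refine (hmemW _).mpr ⟨fun r hr => ?_, ?_⟩
      · have hT' : Commute (CuspForm.heckeTLin 2 (hR r hr).1 (hR r hr).2) (heckeAt N i) := by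
          have := commute_heckeAt (N := N) ⟨r, (hR r hr).1⟩ i
          rwa [heckeAt, dif_neg (hR r hr).2] at this
        rw [← Module.End.mul_apply, hT'.eq, Module.End.mul_apply, h1 r hr, map_smul]
      · rw [← Module.End.mul_apply, ← Module.End.mul_apply, (hU'.mul_left hU').eq,
          Module.End.mul_apply, Module.End.mul_apply, h2]
  have hTe : ∀ (p : ℕ) (hp : p.Prime) (hpN : ¬ p ∣ N), ∃ c : ℂ,
      CuspForm.heckeTLin 2 hp hpN f = c • f := fun p hp hpN => by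
    obtain ⟨c, hc⟩ := hf ⟨p, hp⟩
    exact ⟨c, by rwa [heckeAt, dif_neg hpN] at hc⟩
  have hUe : ∀ (p : ℕ) (_ : p.Prime) (hpN : p ∣ N), ∃ c : ℂ,
      CuspForm.heckeULin 2 hpN f = c • f := fun p hp hpN => by
    obtain ⟨c, hc⟩ := hf ⟨p, hp⟩
    exact ⟨c, by rwa [heckeAt, dif_pos hpN] at hc⟩
  set a := ModularFormClass.qCoeff f 1 with ha
  have ha0 : a ≠ 0 := fun ha1 => hf0 (HeckeEigen.eq_zero_of_forall_pairOne (by norm_num) fun t => by
    obtain ⟨c, hc⟩ := HeckeEigen.exists_eigenvalue_of_generators hTe hUe t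
    rw [HeckeEigen.pairOne_apply, hc, map_smul, HeckeEigen.qCoeffLin_apply, ← ha, ha1, smul_zero])
  set g := a⁻¹ • f
  have hg1 : ModularFormClass.qCoeff g 1 = 1 := by
    rw [← HeckeEigen.qCoeffLin_apply, map_smul, HeckeEigen.qCoeffLin_apply, smul_eq_mul, ← ha,
      inv_mul_cancel₀ ha0]
  have hg : g.IsNormalizedEigenform := HeckeEigen.isNormalizedEigenform_of_eigen hg1
    (fun p hp hpN => by
      obtain ⟨c, hc⟩ := hTe p hp hpN
      exact ⟨c, by rw [map_smul, hc, smul_comm]⟩)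
    (fun p hp hpN => by
      obtain ⟨c, hc⟩ := hUe p hp hpN
      exact ⟨c, by rw [map_smul, hc, smul_comm]⟩)
  obtain ⟨hgT, hgU⟩ := (hmemW g).mp (W.smul_mem _ hfW)
  refine ⟨g, hg, ?_, fun r hr => ?_⟩
  · rw [HeckeEigen.heckeULin_apply_of_isNormalizedEigenform hg hq hqN, map_smul,
      HeckeEigen.heckeULin_apply_of_isNormalizedEigenform hg hq hqN, smul_smul] at hgU
    have h1 := congrArg (fun f : CuspForm (Gamma0 N) 2 => ModularFormClass.qCoeff f 1) hgU
    rw [← HeckeEigen.qCoeffLin_apply 1 (_ • g), map_smul, HeckeEigen.qCoeffLin_apply, hg1,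
      smul_eq_mul, mul_one] at h1
    rw [sq, h1]
  · have h1 := congrArg (fun f : CuspForm (Gamma0 N) 2 => ModularFormClass.qCoeff f 1) (hgT r hr)
    rw [HeckeEigen.qCoeff_heckeTLin, one_mul, if_neg (hR r hr).1.not_dvd_one, add_zero,
      ← HeckeEigen.qCoeffLin_apply 1 (_ • g), map_smul, HeckeEigen.qCoeffLin_apply, hg1,
      smul_eq_mul, mul_one] at h1
    exact h1

end Fermat.Agent.LevelRaising
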