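import Mathlib.LinearAlgebra.Matrix.Adjugate
import Mathlib.LinearAlgebra.Matrix.NonsingularInverse
import Mathlib.Algebra.Module.LinearMap.End
import Mathlib.Algebra.BigOperators.Pi
import Mathlib.Tactic.LinearCombination
import Mathlib.Tactic.Ring
import Mathlib.Tactic.FinCases

/-!
# Modular symbols as functions on integer vectors

A symbol of level `N` with values in an abelian group is a function `G` on nonzero integer
vectors (cusps), homogeneous of degree zero, with `G (γ v) = G (γ e) + G v` for `γ ∈ Γ₀(N)`.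
Operators are given by finite families of integer matrices.
-/

set_option autoImplicit false

noncomputable section

namespace Fermat.Agent.LevelRaising

/-- Integral two-by-two matrices. -/
abbrev Mat := Matrix (Fin 2) (Fin 2) ℤ

/-- Integer vectors. -/
abbrev Vec := ℤ × ℤ

/-- The vector of the cusp infinity. -/
def vE : Vec := (1, 0)

/-- Action of a matrix on a column vector. -/
def act (M : Mat) (v : Vec) : Vec := (M 0 0 * v.1 + M 0 1 * v.2, M 1 0 * v.1 + M 1 1 * v.2)

@[simp] theorem act_one (v : Vec) : act 1 v = v := by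
  simp [act]

theorem act_mul (M M' : Mat) (v : Vec) : act (M * M') v = act M (act M' v) := by
  simp only [act, Matrix.mul_apply, Fin.sum_univ_two, Prod.mk.injEq]
  constructor <;> ring

@[simp] theorem act_zero (M : Mat) : act M 0 = 0 := by simp [act]

theorem act_vE (M : Mat) : act M vE = (M 0 0, M 1 0) := by simp [act, vE]

theorem act_zsmul (M : Mat) (k : ℤ) (v : Vec) : act M (k • v) = k • act M v := by
  simp only [act, Prod.smul_fst, Prod.smul_snd, smul_eq_mul, Prod.smul_mk, Prod.mk.injEq]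
  constructor <;> ring

theorem act_smul_mat (M : Mat) (k : ℤ) (v : Vec) : act (k • M) v = k • act M v := by
  simp only [act, Matrix.smul_apply, smul_eq_mul, Prod.smul_mk, Prod.mk.injEq]
  constructor <;> ring

theorem vE_ne_zero : vE ≠ 0 := by simp [vE, Prod.ext_iff]

theorem zsmul_vec_ne_zero {k : ℤ} (hk : k ≠ 0) {v : Vec} (hv : v ≠ 0) : k • v ≠ 0 := by
  intro h
  simp only [Prod.ext_iff, Prod.smul_fst, Prod.smul_snd, smul_eq_mul, Prod.fst_zero,
    Prod.snd_zero, mul_eq_zero, hk, false_or] at h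
  exact hv (Prod.ext h.1 h.2)

theorem act_injective {M : Mat} (hM : M.det ≠ 0) : Function.Injective (act M) := by
  intro v w h
  have h' := congrArg (act M.adjugate) h
  rw [← act_mul, ← act_mul, Matrix.adjugate_mul, act_smul_mat, act_smul_mat, act_one, act_one]
    at h'
  simp only [Prod.ext_iff, Prod.smul_fst, Prod.smul_snd, smul_eq_mul] at h'
  exact Prod.ext (mul_left_cancel₀ hM h'.1) (mul_left_cancel₀ hM h'.2)

theorem act_ne_zero {M : Mat} (hM : M.det ≠ 0) {v : Vec} (hv : v ≠ 0) : act M v ≠ 0 :=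
  fun h => hv (act_injective hM (h.trans (act_zero M).symm))

theorem mat_cancel_right {M X Y : Mat} (hM : M.det ≠ 0) (h : X * M = Y * M) : X = Y := by
  have h' := congrArg (· * M.adjugate) h
  simp only [mul_assoc, Matrix.mul_adjugate, Matrix.mul_smul, mul_one] at h'
  ext i j
  have := congrFun (congrFun h' i) j
  simp only [Matrix.smul_apply, smul_eq_mul] at this
  exact mul_left_cancel₀ hM this

theorem mat_cancel_left {M X Y : Mat} (hM : M.det ≠ 0) (h : M * X = M * Y) : X = Y := by
  have h' := congrArg (M.adjugate * ·) h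
  simp only [← mul_assoc, Matrix.adjugate_mul, Matrix.smul_mul, one_mul] at h'
  ext i j
  have := congrFun (congrFun h' i) j
  simp only [Matrix.smul_apply, smul_eq_mul] at this
  exact mul_left_cancel₀ hM this

/-- Integral matrices of determinant `r` with lower left entry divisible by `N`. -/
def DetLevel (N : ℕ) (r : ℤ) : Set Mat := {M | M.det = r ∧ (N : ℤ) ∣ M 1 0}

/-- The group `Γ₀(N)` as a set of integral matrices. -/
abbrev Lvl (N : ℕ) : Set Mat := DetLevel N 1

theorem mem_detLevel {N : ℕ} {r : ℤ} {M : Mat} :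
    M ∈ DetLevel N r ↔ M.det = r ∧ (N : ℤ) ∣ M 1 0 := Iff.rfl

theorem detLevel_mul {N : ℕ} {r s : ℤ} {A B : Mat} (hA : A ∈ DetLevel N r)
    (hB : B ∈ DetLevel N s) : A * B ∈ DetLevel N (r * s) := by
  refine ⟨by rw [Matrix.det_mul, hA.1, hB.1], ?_⟩
  simp only [Matrix.mul_apply, Fin.sum_univ_two]
  exact dvd_add (hA.2.mul_right _) (hB.2.mul_left _)

theorem lvl_mul {N : ℕ} {A B : Mat} (hA : A ∈ Lvl N) (hB : B ∈ Lvl N) : A * B ∈ Lvl N := by
  have := detLevel_mul hA hB
  rwa [mul_one] at this

theorem one_mem_lvl (N : ℕ) : (1 : Mat) ∈ Lvl N := ⟨by simp, by simp⟩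

theorem adjugate_mem_detLevel {N : ℕ} {r : ℤ} {A : Mat} (hA : A ∈ DetLevel N r) :
    A.adjugate ∈ DetLevel N r := by
  refine ⟨by rw [Matrix.det_adjugate, hA.1]; simp, ?_⟩
  rw [Matrix.adjugate_fin_two]
  simpa using hA.2.neg_right

theorem mul_adjugate_lvl {N : ℕ} {A : Mat} (hA : A ∈ Lvl N) : A * A.adjugate = 1 := by
  rw [Matrix.mul_adjugate, hA.1, one_smul]

theorem adjugate_mul_lvl {N : ℕ} {A : Mat} (hA : A ∈ Lvl N) : A.adjugate * A = 1 := by
  rw [Matrix.adjugate_mul, hA.1, one_smul]

theorem lvl_mono {N M : ℕ} (h : N ∣ M) {r : ℤ} : DetLevel M r ⊆ DetLevel N r :=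
  fun _ hA => ⟨hA.1, (Int.natCast_dvd_natCast.mpr h).trans hA.2⟩

theorem det_ne_zero_of_lvl {N : ℕ} {A : Mat} (hA : A ∈ Lvl N) : A.det ≠ 0 := by
  rw [hA.1]; exact one_ne_zero

/-- A modular symbol of level `N` with values in `A`. -/
structure IsSym (N : ℕ) {A : Type*} [AddCommGroup A] (G : Vec → A) : Prop where
  zero : G 0 = 0
  homog : ∀ (k : ℤ), k ≠ 0 → ∀ v, G (k • v) = G v
  equiv : ∀ γ ∈ Lvl N, ∀ v, v ≠ 0 → G (act γ v) = G (act γ vE) + G v

namespace IsSym

variable {N : ℕ} {A : Type*} [AddCommGroup A] {G : Vec → A}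

theorem apply_vE (h : IsSym N G) : G vE = 0 := by
  have := h.equiv 1 (one_mem_lvl N) vE vE_ne_zero
  simpa using this

theorem apply_smul_mat (h : IsSym N G) {k : ℤ} (hk : k ≠ 0) (M : Mat) (v : Vec) :
    G (act (k • M) v) = G (act M v) := by
  rw [act_smul_mat, h.homog k hk]

theorem sub_eq (h : IsSym N G) {γ : Mat} (hγ : γ ∈ Lvl N) {u v : Vec} (hu : u ≠ 0)
    (hv : v ≠ 0) : G (act γ v) - G (act γ u) = G v - G u := by
  rw [h.equiv γ hγ v hv, h.equiv γ hγ u hu]
  abel

theorem map (h : IsSym N G) {B : Type*} [AddCommGroup B] (f : A →+ B) : IsSym N (f ∘ G) where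
  zero := by simp [h.zero]
  homog k hk v := by simp only [Function.comp_apply, h.homog k hk v]
  equiv γ hγ v hv := by simp [h.equiv γ hγ v hv]

theorem of_dvd {M : ℕ} (h : IsSym N G) (hNM : N ∣ M) : IsSym M G where
  zero := h.zero
  homog := h.homog
  equiv γ hγ := h.equiv γ (lvl_mono hNM hγ)

/-- The homomorphism `γ ↦ G (γ e)` is additive on the group. -/
theorem apply_mul (h : IsSym N G) {γ δ : Mat} (hγ : γ ∈ Lvl N) (hδ : δ ∈ Lvl N) :
    G (act (γ * δ) vE) = G (act γ vE) + G (act δ vE) := by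
  rw [act_mul, h.equiv γ hγ _ (act_ne_zero (det_ne_zero_of_lvl hδ) vE_ne_zero)]

end IsSym

/-- The module of symbols of level `N` with values in an `R`-module. -/
def symModule (N : ℕ) (R : Type*) [CommRing R] (A : Type*) [AddCommGroup A] [Module R A] :
    Submodule R (Vec → A) where
  carrier := {G | IsSym N G}
  zero_mem' := ⟨rfl, fun _ _ _ => rfl, fun _ _ _ _ => by simp⟩
  add_mem' := by
    intro a b ha hb
    refine ⟨by simp [ha.zero, hb.zero], fun k hk v => ?_, fun γ hγ v hv => ?_⟩
    · simp only [Pi.add_apply, ha.homog k hk v, hb.homog k hk v]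
    · simp only [Pi.add_apply, ha.equiv γ hγ v hv, hb.equiv γ hγ v hv]
      abel
  smul_mem' := by
    intro c a ha
    refine ⟨by simp [ha.zero], fun k hk v => ?_, fun γ hγ v hv => ?_⟩
    · simp only [Pi.smul_apply, ha.homog k hk v]
    · simp [ha.equiv γ hγ v hv]

theorem mem_symModule {N : ℕ} {R : Type*} [CommRing R] {A : Type*} [AddCommGroup A] [Module R A]
    {G : Vec → A} : G ∈ symModule N R A ↔ IsSym N G := Iff.rfl

section Op

variable {A B : Type*} [AddCommGroup A] [AddCommGroup B]
variable {ι κ : Type*} [Fintype ι] [Fintype κ]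

/-- The operator attached to a finite family of matrices. -/
def op (β : ι → Mat) (G : Vec → A) (v : Vec) : A :=
  if v = 0 then 0 else ∑ i, (G (act (β i) v) - G (act (β i) vE))

theorem op_zero_vec (β : ι → Mat) (G : Vec → A) : op β G 0 = 0 := if_pos rfl

theorem op_apply (β : ι → Mat) (G : Vec → A) {v : Vec} (hv : v ≠ 0) :
    op β G v = ∑ i, (G (act (β i) v) - G (act (β i) vE)) := if_neg hv

theorem op_map (β : ι → Mat) (f : A →+ B) (G : Vec → A) : op β (f ∘ G) = f ∘ op β G := by
  funext v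
  by_cases hv : v = 0
  · simp [hv, op_zero_vec]
  · simp [op_apply _ _ hv, map_sum]

/-- `op` as a linear map. -/
def opLin (R : Type*) [CommRing R] [Module R A] (β : ι → Mat) :
    (Vec → A) →ₗ[R] (Vec → A) where
  toFun G := op β G
  map_add' G G' := by
    funext v
    by_cases hv : v = 0
    · simp [hv, op_zero_vec]
    · simp only [Pi.add_apply, op_apply _ _ hv, ← Finset.sum_add_distrib]
      exact Finset.sum_congr rfl fun i _ => by abel
  map_smul' c G := by
    funext v
    by_cases hv : v = 0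
    · simp [hv, op_zero_vec]
    · simp [op_apply _ _ hv, Finset.smul_sum, smul_sub]

theorem opLin_apply (R : Type*) [CommRing R] [Module R A] (β : ι → Mat) (G : Vec → A) :
    opLin R β G = op β G := rfl

theorem op_op (β : ι → Mat) (β' : κ → Mat) (hβ : ∀ i, (β i).det ≠ 0) (G : Vec → A) :
    op β (op β' G) = op (fun x : ι × κ => β' x.2 * β x.1) G := by
  funext v
  by_cases hv : v = 0
  · simp [hv, op_zero_vec]
  · simp only [op_apply _ _ hv, Fintype.sum_prod_type]
    refine Finset.sum_congr rfl fun i _ => ?_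
    rw [op_apply _ _ (act_ne_zero (hβ i) hv), op_apply _ _ (act_ne_zero (hβ i) vE_ne_zero),
      ← Finset.sum_sub_distrib]
    refine Finset.sum_congr rfl fun j _ => ?_
    rw [act_mul, act_mul]
    abel

/-- Two families agreeing up to `Γ₀(N)`, scalars and reindexing give the same operator. -/
theorem op_congr {N : ℕ} {G : Vec → A} (hG : IsSym N G) {β : ι → Mat} {β' : κ → Mat}
    (e : ι ≃ κ) (hβ' : ∀ j, (β' j).det ≠ 0)
    (h : ∀ i, ∃ γ ∈ Lvl N, ∃ k : ℤ, k ≠ 0 ∧ β i = k • (γ * β' (e i))) :
    op β G = op β' G := by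
  funext v
  by_cases hv : v = 0
  · simp [hv, op_zero_vec]
  · rw [op_apply _ _ hv, op_apply _ _ hv]
    refine Fintype.sum_equiv e _ _ fun i => ?_
    obtain ⟨γ, hγ, k, hk, hi⟩ := h i
    rw [hi, hG.apply_smul_mat hk, hG.apply_smul_mat hk, act_mul, act_mul]
    exact hG.sub_eq hγ (act_ne_zero (hβ' _) vE_ne_zero) (act_ne_zero (hβ' _) hv)

theorem op_eq_self {G : Vec → A} {N : ℕ} (hG : IsSym N G) [Unique ι] {β : ι → Mat}
    (hβ : β default = 1) : op β G = G := by
  funext v
  by_cases hv : v = 0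
  · simp [hv, op_zero_vec, hG.zero]
  · simp [op_apply _ _ hv, hβ, hG.apply_vE]

end Op

/-- `β` is a system of representatives for `Y \ X` with unique factorisation `x = y * β i`. -/
structure IsFact {ι : Type*} (X Y : Set Mat) (β : ι → Mat) : Prop where
  det_ne_zero : ∀ i, (β i).det ≠ 0
  mem : ∀ y ∈ Y, ∀ i, y * β i ∈ X
  fact : ∀ x ∈ X, ∃ i, ∃ y ∈ Y, x = y * β i
  unique : ∀ {i j : ι} {y y' : Mat}, y ∈ Y → y' ∈ Y → y * β i = y' * β j → i = j

namespace IsFact

variable {ι κ : Type*} {X Y Z : Set Mat} {β : ι → Mat} {α : κ → Mat}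

theorem comp (h : IsFact X Y β) (h' : IsFact Y Z α) :
    IsFact X Z fun p : ι × κ => α p.2 * β p.1 where
  det_ne_zero p := by
    rw [Matrix.det_mul]; exact mul_ne_zero (h'.det_ne_zero _) (h.det_ne_zero _)
  mem z hz p := by
    rw [← mul_assoc]
    exact h.mem _ (h'.mem z hz _) _
  fact x hx := by
    obtain ⟨i, y, hy, rfl⟩ := h.fact x hx
    obtain ⟨j, z, hz, rfl⟩ := h'.fact y hy
    exact ⟨(i, j), z, hz, by rw [mul_assoc]⟩
  unique {p p'} {z z'} hz hz' e := by
    rw [← mul_assoc, ← mul_assoc] at e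
    have hi := h.unique (h'.mem z hz _) (h'.mem z' hz' _) e
    rw [← hi] at e
    exact Prod.ext hi (h'.unique hz hz' (mat_cancel_right (h.det_ne_zero _) e))

/-- Translate on the right by a matrix `g`. -/
theorem mul_right (h : IsFact X Y β) (g : Mat) (hg : g.det ≠ 0) :
    IsFact ((· * g) '' X) Y fun i => β i * g where
  det_ne_zero i := by rw [Matrix.det_mul]; exact mul_ne_zero (h.det_ne_zero i) hg
  mem y hy i := ⟨_, h.mem y hy i, by simp only [mul_assoc]⟩
  fact := by
    rintro _ ⟨x, hx, rfl⟩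
    obtain ⟨i, y, hy, rfl⟩ := h.fact x hx
    exact ⟨i, y, hy, by simp only [mul_assoc]⟩
  unique hy hy' e := h.unique hy hy' (mat_cancel_right hg (by simpa only [mul_assoc] using e))

variable {A : Type*} [AddCommGroup A] [Fintype ι] [Fintype κ] {N : ℕ}

/-- Two systems of representatives of the same set give the same operator. -/
theorem op_eq {β' : κ → Mat} (h : IsFact X (Lvl N) β) (h' : IsFact X (Lvl N) β')
    {G : Vec → A} (hG : IsSym N G) : op β G = op β' G := by
  have key : ∀ i, ∃ j, ∃ y ∈ Lvl N, β i = y * β' j := fun i =>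
    h'.fact _ (by simpa using h.mem 1 (one_mem_lvl N) i)
  choose e y hy he using key
  have hbij : Function.Bijective e := by
    constructor
    · intro i i' hii'
      have h1 : (y i).adjugate * β i = β' (e i) := by
        rw [he i, ← mul_assoc, adjugate_mul_lvl (hy i), one_mul]
      have h2 : (y i').adjugate * β i' = β' (e i') := by
        rw [he i', ← mul_assoc, adjugate_mul_lvl (hy i'), one_mul]
      exact h.unique (adjugate_mem_detLevel (hy i)) (adjugate_mem_detLevel (hy i'))
        (by rw [h1, h2, hii'])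
    · intro j
      obtain ⟨i, z, hz, hj⟩ := h.fact _ (by simpa using h'.mem 1 (one_mem_lvl N) j)
      refine ⟨i, (h'.unique (one_mem_lvl N) (lvl_mul hz (hy i)) ?_).symm⟩
      rw [one_mul, hj, mul_assoc, ← he i]
  refine op_congr hG (Equiv.ofBijective e hbij) h'.det_ne_zero fun i => ?_
  exact ⟨y i, hy i, 1, one_ne_zero, by rw [one_smul]; exact he i⟩

/-- An operator given by representatives of a set stable on the right preserves symbols. -/
theorem isSym_op {M : ℕ} (h : IsFact X (Lvl N) β)
    (hX : ∀ γ ∈ Lvl M, ∀ x ∈ X, x * γ ∈ X)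
    {G : Vec → A} (hG : IsSym N G) : IsSym M (op β G) where
  zero := op_zero_vec β G
  homog k hk v := by
    by_cases hv : v = 0
    · simp [hv]
    · rw [op_apply _ _ hv, op_apply _ _ (zsmul_vec_ne_zero hk hv)]
      simp only [act_zsmul, hG.homog k hk]
  equiv γ hγ v hv := by
    have himg : (· * γ) '' X = X := by
      refine Set.Subset.antisymm ?_ fun x hx => ?_
      · rintro _ ⟨x, hx, rfl⟩; exact hX γ hγ x hx
      · exact ⟨x * γ.adjugate, hX _ (adjugate_mem_detLevel hγ) x hx,
          by simp only [mul_assoc, adjugate_mul_lvl hγ, mul_one]⟩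
    have h1 := h.mul_right γ (det_ne_zero_of_lvl hγ)
    rw [himg] at h1
    have key := congrFun (h.op_eq h1 hG) v
    rw [op_apply _ _ (act_ne_zero (det_ne_zero_of_lvl hγ) hv),
      op_apply _ _ (act_ne_zero (det_ne_zero_of_lvl hγ) vE_ne_zero), key,
      op_apply _ _ hv, ← Finset.sum_add_distrib]
    refine Finset.sum_congr rfl fun i _ => ?_
    rw [act_mul, act_mul]
    abel

end IsFact

end Fermat.Agent.LevelRaising
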