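import Mathlib.Algebra.BigOperators.Fin
import Mathlib.Algebra.Ring.Int.Units
import Mathlib.Data.Int.GCD
import Mathlib.Data.ZMod.Basic
import Mathlib.RingTheory.Int.Basic
import Fermat.Agent.LevelRaising.Symbols

/-!
# Representatives: Hecke operators, trace from level `N q` to level `N`, Atkin–Lehner matrix
-/

set_option autoImplicit false

noncomputable section

namespace Fermat.Agent.LevelRaising

/-- A two by two integral matrix from its entries. -/
def mm (a b c d : ℤ) : Mat := !![a, b; c, d]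

@[simp] theorem mm_zero_zero (a b c d : ℤ) : mm a b c d 0 0 = a := rfl
@[simp] theorem mm_zero_one (a b c d : ℤ) : mm a b c d 0 1 = b := rfl
@[simp] theorem mm_one_zero (a b c d : ℤ) : mm a b c d 1 0 = c := rfl
@[simp] theorem mm_one_one (a b c d : ℤ) : mm a b c d 1 1 = d := rfl

@[simp] theorem mm_det (a b c d : ℤ) : (mm a b c d).det = a * d - b * c := by
  simp [mm, Matrix.det_fin_two]

theorem mm_mul (a b c d a' b' c' d' : ℤ) :
    mm a b c d * mm a' b' c' d' =
      mm (a * a' + b * c') (a * b' + b * d') (c * a' + d * c') (c * b' + d * d') := by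
  simp [mm]

theorem smul_mm (k a b c d : ℤ) : k • mm a b c d = mm (k * a) (k * b) (k * c) (k * d) := by
  simp [mm, Matrix.smul_of]

theorem mm_eta (M : Mat) : M = mm (M 0 0) (M 0 1) (M 1 0) (M 1 1) := Matrix.eta_fin_two M

theorem mm_inj {a b c d a' b' c' d' : ℤ} :
    mm a b c d = mm a' b' c' d' ↔ a = a' ∧ b = b' ∧ c = c' ∧ d = d' := by
  constructor
  · intro h
    exact ⟨congrFun (congrFun h 0) 0, congrFun (congrFun h 0) 1, congrFun (congrFun h 1) 0,
      congrFun (congrFun h 1) 1⟩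
  · rintro ⟨rfl, rfl, rfl, rfl⟩; rfl

theorem mm_one : (1 : Mat) = mm 1 0 0 1 := by simp [mm, Matrix.one_fin_two]

@[simp] theorem act_mm (a b c d : ℤ) (v : Vec) :
    act (mm a b c d) v = (a * v.1 + b * v.2, c * v.1 + d * v.2) := rfl

theorem mm_mem_detLevel {N : ℕ} {r a b c d : ℤ} :
    mm a b c d ∈ DetLevel N r ↔ a * d - b * c = r ∧ (N : ℤ) ∣ c := by
  simp [mem_detLevel]

/-- The standard representatives of the Hecke operator at a prime `s`. -/
def heckMat (s : ℕ) : Option (Fin s) → Mat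
  | none => mm s 0 0 1
  | some i => mm 1 (i : ℕ) 0 s

theorem det_heckMat {s : ℕ} (i : Option (Fin s)) : (heckMat s i).det = (s : ℤ) := by
  cases i <;> simp [heckMat]

/-- The index `i` with `s ∣ x - a i`, when `a` is prime to `s`. -/
theorem exists_fin_dvd {s : ℕ} (hs : s.Prime) {a : ℤ} (ha : ¬ (s : ℤ) ∣ a) (x : ℤ) :
    ∃ i : Fin s, (s : ℤ) ∣ x - a * (i : ℕ) := by
  obtain ⟨u, v, huv⟩ := ((Nat.prime_iff_prime_int.mp hs).coprime_iff_not_dvd.mpr ha).symm
  have hs0 : (0 : ℤ) < s := by exact_mod_cast hs.pos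
  refine ⟨⟨((x * u) % s).toNat, ?_⟩, ?_⟩
  · have := Int.emod_lt_of_pos (x * u) hs0
    omega
  · simp only
    rw [Int.toNat_of_nonneg (Int.emod_nonneg _ hs0.ne')]
    refine ⟨x * v + a * (x * u / s), ?_⟩
    have h2 := Int.mul_ediv_add_emod (x * u) s
    linear_combination (-x) * huv - a * h2

theorem fin_eq_of_dvd {s : ℕ} {i j : Fin s} (h : (s : ℤ) ∣ ((i : ℕ) : ℤ) - (j : ℕ)) : i = j := by
  have := Int.eq_zero_of_dvd_of_natAbs_lt_natAbs h (by have := i.2; have := j.2; omega)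
  exact Fin.ext (by omega)

theorem fact_heckMat {N : ℕ} {s : ℕ} (hs : s.Prime) (hsN : ¬ s ∣ N) {r : ℤ}
    (hr : ¬ (s : ℤ) ∣ r) : IsFact (DetLevel N (r * s)) (DetLevel N r) (heckMat s) where
  det_ne_zero i := by rw [det_heckMat]; exact_mod_cast hs.ne_zero
  mem y hy i := by
    refine ⟨by rw [Matrix.det_mul, hy.1, det_heckMat], ?_⟩
    simp only [Matrix.mul_apply, Fin.sum_univ_two]
    cases i with
    | none => simpa [heckMat] using hy.2.mul_right _
    | some i => simpa [heckMat] using hy.2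
  fact := by
    intro x hx
    obtain ⟨hdet, hN⟩ := hx
    have hdet' : x 0 0 * x 1 1 - x 0 1 * x 1 0 = r * s := by rw [← Matrix.det_fin_two]; exact hdet
    have hps := Nat.prime_iff_prime_int.mp hs
    have hs0 : (s : ℤ) ≠ 0 := by exact_mod_cast hs.ne_zero
    have hcop : IsCoprime (N : ℤ) (s : ℤ) :=
      (hps.coprime_iff_not_dvd.mpr (by exact_mod_cast hsN)).symm
    by_cases h : (s : ℤ) ∣ x 0 0 ∧ (s : ℤ) ∣ x 1 0
    · obtain ⟨⟨u, hu⟩, v, hv⟩ := h
      refine ⟨none, mm u (x 0 1) v (x 1 1), mm_mem_detLevel.mpr ⟨?_, ?_⟩, ?_⟩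
      · apply mul_right_cancel₀ hs0
        rw [← hdet', hu, hv]; ring
      · exact hcop.dvd_of_dvd_mul_left (hv ▸ hN)
      · conv_lhs => rw [mm_eta x, hu, hv]
        simp only [heckMat, mm_mul, mm_inj]
        refine ⟨?_, ?_, ?_, ?_⟩ <;> ring
    · obtain ⟨i, hi0, hi1⟩ : ∃ i : Fin s, (s : ℤ) ∣ x 0 1 - x 0 0 * (i : ℕ) ∧
          (s : ℤ) ∣ x 1 1 - x 1 0 * (i : ℕ) := by
        by_cases h0 : (s : ℤ) ∣ x 0 0
        · have h1 : ¬ (s : ℤ) ∣ x 1 0 := fun h1 => h ⟨h0, h1⟩
          obtain ⟨i, hi⟩ := exists_fin_dvd hs h1 (x 1 1)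
          refine ⟨i, (hps.dvd_or_dvd (a := x 1 0) ?_).resolve_left h1, hi⟩
          have e : x 1 0 * (x 0 1 - x 0 0 * (i : ℕ)) =
              x 0 0 * (x 1 1 - x 1 0 * (i : ℕ)) - r * s := by linear_combination -hdet'
          rw [e]; exact dvd_sub (h0.mul_right _) (dvd_mul_left _ _)
        · obtain ⟨i, hi⟩ := exists_fin_dvd hs h0 (x 0 1)
          refine ⟨i, hi, (hps.dvd_or_dvd (a := x 0 0) ?_).resolve_left h0⟩
          have e : x 0 0 * (x 1 1 - x 1 0 * (i : ℕ)) =
              r * s + x 1 0 * (x 0 1 - x 0 0 * (i : ℕ)) := by linear_combination hdet'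
          rw [e]; exact dvd_add (dvd_mul_left _ _) (hi.mul_left _)
      obtain ⟨u, hu⟩ := hi0
      obtain ⟨v, hv⟩ := hi1
      refine ⟨some i, mm (x 0 0) u (x 1 0) v, mm_mem_detLevel.mpr ⟨?_, hN⟩, ?_⟩
      · apply mul_right_cancel₀ hs0
        linear_combination hdet' - x 0 0 * hv + x 1 0 * hu
      · conv_lhs => rw [mm_eta x]
        simp only [heckMat, mm_mul, mm_inj]
        refine ⟨?_, ?_, ?_, ?_⟩
        · ring
        · linear_combination hu
        · ring
        · linear_combination hv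
  unique := by
    intro i j y y' hy hy' e
    have hdy : y 0 0 * y 1 1 - y 0 1 * y 1 0 = r := by rw [← Matrix.det_fin_two]; exact hy.1
    have hdy' : y' 0 0 * y' 1 1 - y' 0 1 * y' 1 0 = r := by rw [← Matrix.det_fin_two]; exact hy'.1
    rw [mm_eta y, mm_eta y'] at e
    rcases i with _ | i <;> rcases j with _ | j <;>
      simp only [heckMat, mm_mul, mm_inj] at e <;> obtain ⟨e1, e2, e3, e4⟩ := e
    · rfl
    · refine absurd ⟨y 0 0 * y' 1 1 - y' 0 1 * y 1 0, ?_⟩ hr
      linear_combination -hdy' - y' 1 1 * e1 + y' 0 1 * e3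
    · refine absurd ⟨y' 0 0 * y 1 1 - y 0 1 * y' 1 0, ?_⟩ hr
      linear_combination -hdy + y 1 1 * e1 - y 0 1 * e3
    · refine congrArg some (fin_eq_of_dvd ?_)
      have hps := Nat.prime_iff_prime_int.mp hs
      refine (hps.dvd_or_dvd (a := r) ?_).resolve_left hr
      refine ⟨y 1 1 * (y' 0 1 - y 0 1) - y 0 1 * (y' 1 1 - y 1 1), ?_⟩
      linear_combination -(((i : ℕ) : ℤ) - (j : ℕ)) * hdy + y 1 1 * e2 - y 0 1 * e4 -
        (j : ℕ) * y 1 1 * e1 + (j : ℕ) * y 0 1 * e3

theorem fact_heckMat_one {N s : ℕ} (hs : s.Prime) (hsN : ¬ s ∣ N) :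
    IsFact (DetLevel N s) (Lvl N) (heckMat s) := by
  have h := fact_heckMat (N := N) hs hsN (r := 1) (by exact_mod_cast hs.not_dvd_one)
  rwa [one_mul] at h

/-- `b` in the Atkin–Lehner matrix `(q, b; N q, q d)` with `q d - N b = 1`. -/
def alB (N q : ℕ) : ℤ := -Nat.gcdB q N

/-- `d` in the Atkin–Lehner matrix. -/
def alD (N q : ℕ) : ℤ := Nat.gcdA q N

theorem al_spec {N q : ℕ} (hq : q.Prime) (hqN : ¬ q ∣ N) :
    (q : ℤ) * alD N q - (N : ℤ) * alB N q = 1 := by
  have h := Nat.gcd_eq_gcd_ab q N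
  rw [Nat.coprime_iff_gcd_eq_one.mp (hq.coprime_iff_not_dvd.mpr hqN)] at h
  simp only [alB, alD]
  push_cast at h
  linarith

/-- The Atkin–Lehner matrix at `q` for level `N q`. -/
def wMat (N q : ℕ) : Mat := mm q (alB N q) (N * q : ℕ) (q * alD N q)

/-- Representatives of `Γ₀(N q) \ Γ₀(N)`. -/
def traceMat (N q : ℕ) : Option (Fin q) → Mat
  | none => 1
  | some j => mm 1 (alB N q + (j : ℕ)) N (q * alD N q + N * (j : ℕ))

/-- The matrices of `U_q`. -/
def uMat (q : ℕ) (j : Fin q) : Mat := mm 1 (j : ℕ) 0 q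

variable {N q : ℕ}

theorem det_wMat (hq : q.Prime) (hqN : ¬ q ∣ N) : (wMat N q).det = q := by
  simp only [wMat, mm_det]
  push_cast
  linear_combination (q : ℤ) * al_spec hq hqN

theorem det_traceMat (hq : q.Prime) (hqN : ¬ q ∣ N) (i : Option (Fin q)) :
    (traceMat N q i).det = 1 := by
  cases i with
  | none => simp [traceMat]
  | some j => simp only [traceMat, mm_det]; linear_combination al_spec hq hqN

theorem traceMat_mem_lvl (hq : q.Prime) (hqN : ¬ q ∣ N) (i : Option (Fin q)) :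
    traceMat N q i ∈ Lvl N :=
  ⟨det_traceMat hq hqN i, by cases i <;> simp [traceMat]⟩

theorem fact_traceMat (hq : q.Prime) (hqN : ¬ q ∣ N) {r : ℤ} (hr : ¬ (q : ℤ) ∣ r) :
    IsFact (DetLevel N r) (DetLevel (N * q) r) (traceMat N q) where
  det_ne_zero i := by rw [det_traceMat hq hqN]; exact one_ne_zero
  mem y hy i := by
    have := detLevel_mul (lvl_mono (dvd_mul_right N q) hy) (traceMat_mem_lvl hq hqN i)
    rwa [mul_one] at this
  fact := by
    intro x hx
    have hps := Nat.prime_iff_prime_int.mp hq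
    have hcop : IsCoprime (N : ℤ) (q : ℤ) :=
      (hps.coprime_iff_not_dvd.mpr (by exact_mod_cast hqN)).symm
    obtain ⟨c, hc⟩ := hx.2
    by_cases h : (q : ℤ) ∣ x 1 0
    · refine ⟨none, x, ⟨hx.1, ?_⟩, by simp [traceMat]⟩
      push_cast
      exact hcop.mul_dvd hx.2 h
    · -- choose `j` with `q ∣ (x * h_j⁻¹) 1 0`
      have hqc : ¬ (q : ℤ) ∣ x 1 0 := h
      obtain ⟨j, hj⟩ := exists_fin_dvd hq hqc (x 1 1)
      refine ⟨some j, x * (traceMat N q (some j)).adjugate, ⟨?_, ?_⟩, ?_⟩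
      · rw [Matrix.det_mul, Matrix.det_adjugate, det_traceMat hq hqN, hx.1]
        simp
      · rw [Nat.cast_mul]
        refine hcop.mul_dvd ?_ ?_
        · refine (detLevel_mul hx (adjugate_mem_detLevel (traceMat_mem_lvl hq hqN (some j)))).2
        · simp only [Matrix.mul_apply, Fin.sum_univ_two, Matrix.adjugate_fin_two, traceMat,
            mm_zero_zero, mm_zero_one, mm_one_zero, mm_one_one, Matrix.of_apply,
            Matrix.cons_val_zero, Matrix.cons_val_one, Matrix.cons_val']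
          obtain ⟨k, hk⟩ := hj
          refine ⟨alD N q * x 1 0 - N * k, ?_⟩
          linear_combination (-(N : ℤ)) * hk
      · rw [mul_assoc, Matrix.adjugate_mul, det_traceMat hq hqN, one_smul, mul_one]
  unique := by
    intro i j y y' hy hy' e
    have hps := Nat.prime_iff_prime_int.mp hq
    have hy10 : (q : ℤ) ∣ y 1 0 := (Dvd.intro_left _ (Nat.cast_mul N q).symm).trans hy.2
    have hy10' : (q : ℤ) ∣ y' 1 0 := (Dvd.intro_left _ (Nat.cast_mul N q).symm).trans hy'.2
    have hqN' : ¬ (q : ℤ) ∣ (N : ℤ) := by exact_mod_cast hqN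
    have hd : ∀ z ∈ DetLevel (N * q) r, (q : ℤ) ∣ z 1 0 → ¬ (q : ℤ) ∣ z 1 1 := by
      intro z hz h10 h11
      apply hr
      rw [← hz.1, Matrix.det_fin_two]
      exact dvd_sub (h11.mul_left _) (h10.mul_left _)
    rw [mm_eta y, mm_eta y'] at e
    rcases i with _ | i <;> rcases j with _ | j <;>
      simp only [traceMat, mm_one, mm_mul, mm_inj] at e <;> obtain ⟨e1, e2, e3, e4⟩ := e
    · rfl
    · refine absurd ?_ (hd y' hy' hy10')
      have h1 : (q : ℤ) ∣ (N : ℤ) * y' 1 1 := by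
        have : (N : ℤ) * y' 1 1 = y 1 0 - y' 1 0 := by linear_combination -e3
        rw [this]; exact dvd_sub hy10 hy10'
      exact (hps.dvd_or_dvd h1).resolve_left hqN'
    · refine absurd ?_ (hd y hy hy10)
      have h1 : (q : ℤ) ∣ (N : ℤ) * y 1 1 := by
        have : (N : ℤ) * y 1 1 = y' 1 0 - y 1 0 := by linear_combination e3
        rw [this]; exact dvd_sub hy10' hy10
      exact (hps.dvd_or_dvd h1).resolve_left hqN'
    · refine congrArg some (fin_eq_of_dvd ?_)
      obtain ⟨u, hu⟩ := hy10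
      obtain ⟨u', hu'⟩ := hy10'
      have h1 : (q : ℤ) ∣ y 1 1 - y' 1 1 := by
        refine (hps.dvd_or_dvd (b := y 1 1 - y' 1 1) (a := (N : ℤ)) ⟨u' - u, ?_⟩).resolve_left hqN'
        linear_combination e3 - hu + hu'
      obtain ⟨t, ht⟩ := h1
      refine (hps.dvd_or_dvd (a := (N : ℤ) * y 1 1) ?_).resolve_left
        (fun h => (hps.dvd_or_dvd h).elim hqN' (hd y hy ⟨u, hu⟩))
      refine ⟨-(u * (alB N q + (i : ℕ))) + u' * (alB N q + (j : ℕ)) -
        (q * alD N q + N * (j : ℕ)) * t, ?_⟩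
      linear_combination e4 - (alB N q + (i : ℕ)) * hu + (alB N q + (j : ℕ)) * hu' -
        (q * alD N q + N * (j : ℕ)) * ht

theorem fact_traceMat_one (hq : q.Prime) (hqN : ¬ q ∣ N) :
    IsFact (Lvl N) (Lvl (N * q)) (traceMat N q) :=
  fact_traceMat hq hqN (by exact_mod_cast hq.not_dvd_one)

/-! ### Matrices normalising all `DetLevel M r` -/

/-- `w` normalises every `DetLevel M r`. -/
structure Normalises (M : ℕ) (w : Mat) : Prop where
  det_ne_zero : w.det ≠ 0
  right : ∀ r, ∀ y ∈ DetLevel M r, ∃ y' ∈ DetLevel M r, y * w = w * y'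
  left : ∀ r, ∀ y ∈ DetLevel M r, ∃ y' ∈ DetLevel M r, w * y = y' * w

theorem normalises_jMat (M : ℕ) : Normalises M (mm (-1) 0 0 1) where
  det_ne_zero := by simp
  right r y hy := by
    refine ⟨mm (y 0 0) (-y 0 1) (-y 1 0) (y 1 1), mm_mem_detLevel.mpr ⟨?_, hy.2.neg_right⟩, ?_⟩
    · rw [← hy.1, Matrix.det_fin_two]; ring
    · conv_lhs => rw [mm_eta y]
      simp only [mm_mul, mm_inj]
      refine ⟨?_, ?_, ?_, ?_⟩ <;> ring
  left r y hy := by
    refine ⟨mm (y 0 0) (-y 0 1) (-y 1 0) (y 1 1), mm_mem_detLevel.mpr ⟨?_, hy.2.neg_right⟩, ?_⟩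
    · rw [← hy.1, Matrix.det_fin_two]; ring
    · conv_lhs => rw [mm_eta y]
      simp only [mm_mul, mm_inj]
      refine ⟨?_, ?_, ?_, ?_⟩ <;> ring

theorem exists_wMat_sq (hq : q.Prime) (hqN : ¬ q ∣ N) :
    ∃ g ∈ Lvl (N * q), wMat N q * wMat N q = (q : ℤ) • g := by
  refine ⟨mm (q + N * alB N q) (alB N q * (1 + alD N q)) (N * q * (1 + alD N q))
    (N * alB N q + q * alD N q ^ 2), mm_mem_detLevel.mpr ⟨?_, ?_⟩, ?_⟩
  · linear_combination ((q : ℤ) * alD N q - N * alB N q + 1) * al_spec hq hqN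
  · push_cast
    exact Dvd.intro _ rfl
  · simp only [wMat, mm_mul, smul_mm, mm_inj]
    push_cast
    refine ⟨?_, ?_, ?_, ?_⟩ <;> ring

/-- The Atkin–Lehner matrix normalises the level `N q`. -/
theorem normalises_wMat (hq : q.Prime) (hqN : ¬ q ∣ N) : Normalises (N * q) (wMat N q) := by
  have hdet : (wMat N q).det ≠ 0 := by
    rw [det_wMat hq hqN]; exact_mod_cast hq.ne_zero
  have hright : ∀ r, ∀ y ∈ DetLevel (N * q) r, ∃ y' ∈ DetLevel (N * q) r,
      y * wMat N q = wMat N q * y' := by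
    intro r y hy
    obtain ⟨C, hC⟩ := hy.2
    push_cast at hC
    set A := y 0 0 with hA
    set B := y 0 1
    set D := y 1 1
    set b := alB N q
    set d := alD N q
    set y' : Mat := mm (q * d * A + d * N * q * B - b * N * q * C - b * N * D)
      (d * b * A + q * d ^ 2 * B - b ^ 2 * N * C - b * d * D)
      ((N * q : ℕ) * (-A - N * B + q * C + D))
      (-(N * b * A) - N * q * d * B + N * q * C * b + q * d * D) with hy'
    have heq : y * wMat N q = wMat N q * y' := by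
      conv_lhs => rw [mm_eta y, hC]
      rw [hy']
      simp only [wMat, mm_mul, mm_inj]
      have hal := al_spec hq hqN
      push_cast
      refine ⟨?_, ?_, ?_, ?_⟩
      · linear_combination (-(q : ℤ) * A - (q : ℤ) * N * B) * hal
      · linear_combination (-b * A - q * d * B) * hal
      · linear_combination (-(N : ℤ) * q * D - (N : ℤ) * q * q * C) * hal
      · linear_combination (-(q : ℤ) * d * D - (N : ℤ) * q * C * b) * hal
    refine ⟨y', ⟨?_, ?_⟩, heq⟩
    · have := congrArg Matrix.det heq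
      rw [Matrix.det_mul, Matrix.det_mul, mul_comm] at this
      rw [← mul_left_cancel₀ hdet this]
      exact hy.1
    · simp only [hy', mm_one_zero]
      exact Dvd.intro _ rfl
  refine ⟨hdet, hright, fun r y hy => ?_⟩
  obtain ⟨g, hg, hgW⟩ := exists_wMat_sq hq hqN
  obtain ⟨y', hy', e⟩ := hright r y hy
  refine ⟨g * y' * g.adjugate, ?_, ?_⟩
  · have h1 := detLevel_mul (detLevel_mul hg hy') (adjugate_mem_detLevel hg)
    simpa using h1
  · refine mat_cancel_right hdet ?_
    have h1 : wMat N q * y * wMat N q = (q : ℤ) • (g * y') := by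
      rw [mul_assoc, e, ← mul_assoc, hgW, Matrix.smul_mul]
    have h2 : g * y' * g.adjugate * wMat N q * wMat N q = (q : ℤ) • (g * y') := by
      rw [mul_assoc (g * y' * g.adjugate), hgW, Matrix.mul_smul, mul_assoc (g * y'),
        adjugate_mul_lvl hg, mul_one]
    rw [h1, h2]

end Fermat.Agent.LevelRaising
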