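import Mathlib.NumberTheory.LSeries.PrimesInAP
import Mathlib.Data.Int.GCD
import Fermat.Agent.LevelRaising.Reps

/-!
# Homomorphisms of `Γ₀(N)`: elementary facts used in Ihara's lemma
-/

set_option autoImplicit false
set_option linter.unusedSimpArgs false

noncomputable section

namespace Fermat.Agent.LevelRaising

/-- A function on matrices which is additive on `Γ₀(N)`. -/
def IsHomOn (N : ℕ) {F : Type*} [AddCommGroup F] (c : Mat → F) : Prop :=
  ∀ γ ∈ Lvl N, ∀ δ ∈ Lvl N, c (γ * δ) = c γ + c δ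

/-- Upper unipotent. -/
def uU (t : ℤ) : Mat := mm 1 t 0 1

/-- Lower unipotent of level `N`. -/
def lL (N : ℕ) (t : ℤ) : Mat := mm 1 0 (N * t) 1

theorem uU_mem (N : ℕ) (t : ℤ) : uU t ∈ Lvl N := mm_mem_detLevel.mpr ⟨by ring, dvd_zero _⟩

theorem lL_mem (N : ℕ) (t : ℤ) : lL N t ∈ Lvl N := mm_mem_detLevel.mpr ⟨by ring, Dvd.intro _ rfl⟩

theorem uU_add (s t : ℤ) : uU (s + t) = uU s * uU t := by
  simp only [uU, mm_mul, mm_inj]; refine ⟨?_, ?_, ?_, ?_⟩ <;> ring

theorem lL_add (N : ℕ) (s t : ℤ) : lL N (s + t) = lL N s * lL N t := by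
  simp only [lL, mm_mul, mm_inj]; refine ⟨?_, ?_, ?_, ?_⟩ <;> ring

theorem adjugate_mm (a b c d : ℤ) : (mm a b c d).adjugate = mm d (-b) (-c) a :=
  Matrix.adjugate_fin_two_of a b c d

theorem exists_lvl_col (N : ℕ) {a C : ℤ} (h : IsCoprime a C) (hN : (N : ℤ) ∣ C) :
    ∃ γ ∈ Lvl N, act γ vE = (a, C) := by
  obtain ⟨u, v, huv⟩ := h
  exact ⟨mm a (-v) C u, mm_mem_detLevel.mpr ⟨by linear_combination huv, hN⟩, by simp [vE]⟩

variable {N : ℕ} {F : Type*} [AddCommGroup F] {c : Mat → F}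

namespace IsHomOn

theorem one (hc : IsHomOn N c) : c 1 = 0 := by
  have := hc 1 (one_mem_lvl N) 1 (one_mem_lvl N)
  rw [one_mul] at this
  exact left_eq_add.mp this

theorem adjugate (hc : IsHomOn N c) {γ : Mat} (hγ : γ ∈ Lvl N) : c γ.adjugate = -c γ := by
  have := hc γ hγ γ.adjugate (adjugate_mem_detLevel hγ)
  rw [mul_adjugate_lvl hγ, hc.one] at this
  exact eq_neg_of_add_eq_zero_right this.symm

theorem conj (hc : IsHomOn N c) {γ δ : Mat} (hγ : γ ∈ Lvl N) (hδ : δ ∈ Lvl N) :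
    c (δ * γ * δ.adjugate) = c γ := by
  rw [hc _ (lvl_mul hδ hγ) _ (adjugate_mem_detLevel hδ), hc _ hδ _ hγ, hc.adjugate hδ]
  abel

theorem conj' (hc : IsHomOn N c) {γ δ : Mat} (hγ : γ ∈ Lvl N) (hδ : δ ∈ Lvl N) :
    c (δ.adjugate * γ * δ) = c γ := by
  rw [hc _ (lvl_mul (adjugate_mem_detLevel hδ) hγ) _ hδ, hc _ (adjugate_mem_detLevel hδ) _ hγ,
    hc.adjugate hδ]
  abel

theorem apply_uU (hc : IsHomOn N c) (t : ℤ) : c (uU t) = t • c (uU 1) := by
  have h : ∀ s t, c (uU (s + t)) = c (uU s) + c (uU t) := fun s t => by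
    rw [uU_add, hc _ (uU_mem N s) _ (uU_mem N t)]
  simpa using map_zsmul (AddMonoidHom.mk' (fun t => c (uU t)) h) t 1

theorem apply_lL (hc : IsHomOn N c) (t : ℤ) : c (lL N t) = t • c (lL N 1) := by
  have h : ∀ s t, c (lL N (s + t)) = c (lL N s) + c (lL N t) := fun s t => by
    rw [lL_add, hc _ (lL_mem N s) _ (lL_mem N t)]
  simpa using map_zsmul (AddMonoidHom.mk' (fun t => c (lL N t)) h) t 1

/-- If `c` kills translations then it only depends on the first column. -/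
theorem eq_of_col (hc : IsHomOn N c) (hU : ∀ t, c (uU t) = 0) {γ γ' : Mat} (hγ : γ ∈ Lvl N)
    (hγ' : γ' ∈ Lvl N) (h : act γ vE = act γ' vE) : c γ = c γ' := by
  have hh : γ.adjugate * γ' ∈ Lvl N := lvl_mul (adjugate_mem_detLevel hγ) hγ'
  have hcol : act (γ.adjugate * γ') vE = vE := by
    rw [act_mul, ← h, ← act_mul, adjugate_mul_lvl hγ, act_one]
  rw [act_vE] at hcol
  simp only [vE, Prod.mk.injEq] at hcol
  have hd := hh.1
  rw [Matrix.det_fin_two, hcol.1, hcol.2, one_mul, mul_zero, sub_zero] at hd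
  have e : γ.adjugate * γ' = uU ((γ.adjugate * γ') 0 1) := by
    conv_lhs => rw [mm_eta (γ.adjugate * γ'), hcol.1, hcol.2, hd]
    rfl
  have h' : γ' = γ * uU ((γ.adjugate * γ') 0 1) := by
    rw [← e, ← mul_assoc, mul_adjugate_lvl hγ, one_mul]
  rw [h', hc _ hγ _ (uU_mem N _), hU, add_zero]

end IsHomOn

open Classical in
/-- The value of `c` on an element with given first column. -/
def colVal (N : ℕ) (c : Mat → F) (v : Vec) : F :=
  if h : ∃ γ ∈ Lvl N, act γ vE = v then c h.choose else 0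

theorem colVal_eq (hc : IsHomOn N c) (hU : ∀ t, c (uU t) = 0) {γ : Mat} (hγ : γ ∈ Lvl N)
    {v : Vec} (hv : act γ vE = v) : colVal N c v = c γ := by
  have h : ∃ γ ∈ Lvl N, act γ vE = v := ⟨γ, hγ, hv⟩
  rw [colVal, dif_pos h]
  exact hc.eq_of_col hU h.choose_spec.1 hγ (h.choose_spec.2.trans hv.symm)

theorem colVal_act (hc : IsHomOn N c) (hU : ∀ t, c (uU t) = 0) {γ : Mat} (hγ : γ ∈ Lvl N)
    {a C : ℤ} (hcop : IsCoprime a C) (hN : (N : ℤ) ∣ C) :
    colVal N c (act γ (a, C)) = c γ + colVal N c (a, C) := by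
  obtain ⟨δ, hδ, hδv⟩ := exists_lvl_col N hcop hN
  rw [colVal_eq hc hU hδ hδv, colVal_eq hc hU (lvl_mul hγ hδ) (by rw [act_mul, hδv]),
    hc _ hγ _ hδ]

theorem colVal_translate (hc : IsHomOn N c) (hU : ∀ t, c (uU t) = 0) {a C : ℤ}
    (hcop : IsCoprime a C) (hN : (N : ℤ) ∣ C) (t : ℤ) :
    colVal N c (a + t * C, C) = colVal N c (a, C) := by
  have := colVal_act hc hU (uU_mem N t) hcop hN
  rw [hU t, zero_add] at this
  simpa [uU, add_comm] using this

/-- A deep element. -/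
abbrev deepMat (n : ℤ) (E : ℕ) (X : Mat) : Mat := 1 + n ^ E • X

theorem lowerLeft_dvd_of_deep {n : ℤ} (hn : IsCoprime n (N : ℤ)) {E : ℕ} {X : Mat}
    (h : deepMat n E X ∈ Lvl N) : (N : ℤ) ∣ X 1 0 := by
  have h2 := h.2
  simp only [deepMat, Matrix.add_apply, Matrix.smul_apply, smul_eq_mul] at h2
  rw [Matrix.one_apply_ne (by decide), zero_add] at h2
  exact ((hn.symm.pow_right (n := E))).dvd_of_dvd_mul_left h2

theorem dvd_lowerLeft_mul {A B : Mat} (hA : (N : ℤ) ∣ A 1 0) (hB : (N : ℤ) ∣ B 1 0) :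
    (N : ℤ) ∣ (A * B) 1 0 := by
  simp only [Matrix.mul_apply, Fin.sum_univ_two]
  exact dvd_add (hA.mul_right _) (hB.mul_left _)

/-- Conjugation of a deep element by a matrix of determinant `n²`. -/
theorem conjDeep_spec {n : ℤ} (hn0 : n ≠ 0) (hn : IsCoprime n (N : ℤ)) {E : ℕ} {M X : Mat}
    (hM : M.det = n ^ 2) (hM10 : (N : ℤ) ∣ M 1 0) (h : deepMat n (E + 2) X ∈ Lvl N) :
    deepMat n E (M * X * M.adjugate) ∈ Lvl N ∧
      M * deepMat n (E + 2) X = deepMat n E (M * X * M.adjugate) * M := by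
  have e : M * deepMat n (E + 2) X = deepMat n E (M * X * M.adjugate) * M := by
    simp only [deepMat, Matrix.mul_add, Matrix.add_mul, Matrix.mul_smul, Matrix.smul_mul,
      mul_assoc, Matrix.adjugate_mul, hM, mul_one, one_mul]
    rw [smul_smul, pow_add]
  refine ⟨⟨?_, ?_⟩, e⟩
  · have := congrArg Matrix.det e
    rw [Matrix.det_mul, Matrix.det_mul, h.1, mul_one, hM] at this
    exact (mul_eq_right₀ (pow_ne_zero 2 hn0)).mp this.symm
  · simp only [deepMat, Matrix.add_apply, Matrix.smul_apply, smul_eq_mul]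
    rw [Matrix.one_apply_ne (by decide), zero_add]
    refine Dvd.dvd.mul_left (dvd_lowerLeft_mul (dvd_lowerLeft_mul hM10 (lowerLeft_dvd_of_deep hn h)) ?_) _
    rw [Matrix.adjugate_fin_two]
    simpa using hM10.neg_right

/-- Translation invariance by `1/n` on deep elements gives invariance under `diag (n, 1/n)`. -/
theorem conj_diag_of_translate (hc : IsHomOn N c) {n : ℕ} (hn : n.Prime) (hnN : ¬ n ∣ N) (E : ℕ)
    (hT : ∀ X : Mat, deepMat (n : ℤ) (E + 2) X ∈ Lvl N →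
      c (deepMat (n : ℤ) E (mm n 1 0 n * X * (mm (n : ℤ) 1 0 n).adjugate)) =
        c (deepMat (n : ℤ) (E + 2) X))
    {X : Mat} (hX : deepMat (n : ℤ) (E + 2) X ∈ Lvl N) :
    c (deepMat (n : ℤ) E (mm ((n : ℤ) ^ 2) 0 0 1 * X * (mm ((n : ℤ) ^ 2) 0 0 1).adjugate)) =
      c (deepMat (n : ℤ) (E + 2) X) := by
  have hn0 : (n : ℤ) ≠ 0 := by exact_mod_cast hn.ne_zero
  have hcop : IsCoprime (n : ℤ) (N : ℤ) := by
    rw [Int.isCoprime_iff_nat_coprime]; simpa using hn.coprime_iff_not_dvd.mpr hnN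
  have hcop2 : IsCoprime ((n : ℤ) + N) ((N : ℤ) * n) :=
    IsCoprime.mul_right (by simpa using hcop.add_mul_right_left 1)
      (by simpa [add_comm] using hcop.symm.add_mul_right_left 1)
  obtain ⟨A, B, hAB⟩ := hcop2
  set δ := mm A (-B) ((N : ℤ) * n) (n + N) with hδdef
  have hδ : δ ∈ Lvl N := mm_mem_detLevel.mpr ⟨by linear_combination hAB, Dvd.intro _ rfl⟩
  set M := mm (n : ℤ) 1 0 n with hMdef
  set y0 : ℤ := A + B * n with hy0
  set G := uU (-y0) * lL N 1 with hGdef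
  have hG : G ∈ Lvl N := lvl_mul (uU_mem N _) (lL_mem N 1)
  set P := mm ((n : ℤ) ^ 2) 0 0 1 with hPdef
  have hP : G * M * δ.adjugate = P := by
    simp only [hGdef, hMdef, hδdef, hPdef, hy0, uU, lL, adjugate_mm, mm_mul, mm_inj]
    refine ⟨?_, ?_, ?_, ?_⟩
    · ring
    · linear_combination (-(A + B * (n : ℤ))) * hAB
    · ring
    · linear_combination hAB
  set X1 := δ.adjugate * X * δ with hX1
  have he : ∀ k, δ.adjugate * deepMat (n : ℤ) k X * δ = deepMat (n : ℤ) k X1 := fun k => by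
    simp only [deepMat, hX1, Matrix.mul_add, Matrix.add_mul, mul_one, Matrix.mul_smul, Matrix.smul_mul,
      adjugate_mul_lvl hδ]
  have h1 : deepMat (n : ℤ) (E + 2) X1 ∈ Lvl N :=
    he _ ▸ lvl_mul (lvl_mul (adjugate_mem_detLevel hδ) hX) hδ
  obtain ⟨h2, -⟩ := conjDeep_spec hn0 hcop (M := M) (by simp [hMdef, sq]) (by simp [hMdef]) h1
  have e3 : deepMat (n : ℤ) E (P * X * P.adjugate) =
      G * deepMat (n : ℤ) E (M * X1 * M.adjugate) * G.adjugate := by
    rw [← hP, hX1]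
    simp only [deepMat, Matrix.adjugate_mul_distrib, Matrix.adjugate_adjugate _ (by simp :
      Fintype.card (Fin 2) ≠ 1), Matrix.mul_add, Matrix.add_mul, mul_one, mul_adjugate_lvl hG,
      Matrix.mul_smul, Matrix.smul_mul, mul_assoc, hδ.1, one_pow, one_smul]
  rw [e3, hc.conj h2 hG, hT _ h1, ← he, hc.conj' hX hδ]

end Fermat.Agent.LevelRaising
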