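import Mathlib.Algebra.Field.ZMod
import Mathlib.FieldTheory.Finite.Basic
import Mathlib.RingTheory.Multiplicity
import Mathlib.RingTheory.Int.Basic
import Fermat.Agent.LevelRaising.IharaBasic

/-!
# Ihara's lemma for homomorphisms of `Γ₀(N)`

If a homomorphism `c : Γ₀(N) → F` to a field of characteristic `p` satisfies the `q`-relation and is an eigenvector, on the
elements congruent to a diagonal matrix modulo one large prime `ℓ`, with eigenvalue `A` such that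
`A² ≠ (ℓ + 1)²`, then it vanishes.
-/

set_option autoImplicit false
set_option linter.unusedSimpArgs false

noncomputable section

namespace Fermat.Agent.LevelRaising

theorem exists_dvd_sub_mul {a n : ℤ} (h : IsCoprime a n) (x : ℤ) : ∃ j, n ∣ x - j * a := by
  obtain ⟨u, v, huv⟩ := h
  exact ⟨x * u, x * v, by linear_combination (-x) * huv⟩

theorem isCoprime_of_dvd_sub_one {a n : ℤ} (h : n ∣ a - 1) : IsCoprime a n := by
  obtain ⟨k, hk⟩ := h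
  exact ⟨1, -k, by linear_combination hk⟩

/-- First order binomial expansion. -/
theorem pow_sub_one_sub_mul_dvd (x : ℤ) (k : ℕ) : x ^ 2 ∣ (1 + x) ^ k - 1 - k * x := by
  induction k with
  | zero => simp
  | succ k ih =>
    obtain ⟨t, ht⟩ := ih
    exact ⟨t * (1 + x) + k, by push_cast; rw [pow_succ]; linear_combination (1 + x) * ht⟩

theorem deepMat_one_eq (n : ℤ) (E : ℕ) (x y z w : ℤ) :
    deepMat n E (mm x y z w) = mm (1 + n ^ E * x) (n ^ E * y) (n ^ E * z) (1 + n ^ E * w) := by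
  ext i j
  fin_cases i <;> fin_cases j <;>
    simp [deepMat, Matrix.add_apply, Matrix.one_apply, Matrix.smul_apply, mm]

variable {N p q ℓ : ℕ}

/-- A homomorphism with a `q`-relation is invariant under translation by `1/q` on deep elements. -/
theorem translate_of_rel {B : Type*} [AddCommGroup B] {c : Mat → B} (hq : q.Prime) (hqN : ¬ q ∣ N)
    (hrel : ∃ c' : Mat → B, IsHomOn N c' ∧ ∀ a b C d : ℤ, mm a (q * b) C d ∈ Lvl N →
      c (mm a b (q * C) d) = c' (mm a (q * b) C d))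
    (E : ℕ) (X : Mat) (hX : deepMat (q : ℤ) (E + 2) X ∈ Lvl N) :
    c (deepMat (q : ℤ) E (mm q 1 0 q * X * (mm (q : ℤ) 1 0 q).adjugate)) =
      c (deepMat (q : ℤ) (E + 2) X) := by
  have hcop : IsCoprime (q : ℤ) (N : ℤ) := by
    rw [Int.isCoprime_iff_nat_coprime]; simpa using hq.coprime_iff_not_dvd.mpr hqN
  obtain ⟨c', hc', hrel⟩ := hrel
  obtain ⟨hX', -⟩ := conjDeep_spec (n := (q : ℤ)) (M := mm q 1 0 q)
    (by exact_mod_cast hq.ne_zero) hcop (by simp [sq]) (by simp) hX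
  rw [mm_eta X] at hX hX' ⊢
  generalize X 0 0 = x, X 0 1 = y, X 1 0 = z, X 1 1 = w at hX hX' ⊢
  rw [adjugate_mm, mm_mul, mm_mul, deepMat_one_eq] at hX' ⊢
  rw [deepMat_one_eq] at hX ⊢
  have hz : (N : ℤ) ∣ (q : ℤ) ^ (E + 1) * z := by
    refine hcop.symm.dvd_of_dvd_mul_left ?_
    obtain ⟨-, hdvd⟩ := hX
    simp only [mm_one_zero] at hdvd
    rwa [← mul_assoc, ← pow_succ']
  set ζ := mm (1 + (q : ℤ) ^ (E + 2) * x) ((q : ℤ) * ((q : ℤ) ^ (E + 2) * y))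
    ((q : ℤ) ^ (E + 1) * z) (1 + (q : ℤ) ^ (E + 2) * w) with hζdef
  have hζ : ζ ∈ Lvl N := by
    refine mm_mem_detLevel.mpr ⟨?_, hz⟩
    have hdet := hX.1
    rw [mm_det] at hdet
    linear_combination hdet
  have hzc := hc'.conj hζ (uU_mem N 1)
  simp only [hζdef, uU, adjugate_mm, mm_mul] at hzc hζ
  calc _ = c (mm (1 + ((q : ℤ) ^ (E + 2) * x) + (q : ℤ) ^ (E + 1) * z)
        ((q : ℤ) ^ (E + 2) * y + (q : ℤ) ^ (E + 1) * w - (q : ℤ) ^ (E + 1) * x - (q : ℤ) ^ E * z)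
        ((q : ℤ) * ((q : ℤ) ^ (E + 1) * z))
        (1 - (q : ℤ) ^ (E + 1) * z + (q : ℤ) ^ (E + 2) * w)) := by
          congr 1; rw [mm_inj]; refine ⟨?_, ?_, ?_, ?_⟩ <;> ring
    _ = c' (mm (1 + ((q : ℤ) ^ (E + 2) * x) + (q : ℤ) ^ (E + 1) * z)
        ((q : ℤ) * ((q : ℤ) ^ (E + 2) * y + (q : ℤ) ^ (E + 1) * w - (q : ℤ) ^ (E + 1) * x -
          (q : ℤ) ^ E * z))
        ((q : ℤ) ^ (E + 1) * z)
        (1 - (q : ℤ) ^ (E + 1) * z + (q : ℤ) ^ (E + 2) * w)) := by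
          refine hrel _ _ _ _ (mm_mem_detLevel.mpr ⟨?_, hz⟩)
          have hdet := hζ.1
          rw [mm_det] at hdet
          linear_combination hdet
    _ = c' ζ := by
          rw [hζdef, ← hzc]
          congr 1; rw [mm_inj]; refine ⟨?_, ?_, ?_, ?_⟩ <;> ring
    _ = c (mm (1 + (q : ℤ) ^ (E + 2) * x) ((q : ℤ) ^ (E + 2) * y)
        ((q : ℤ) * ((q : ℤ) ^ (E + 1) * z)) (1 + (q : ℤ) ^ (E + 2) * w)) :=
          (hrel _ _ _ _ hζ).symm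
    _ = _ := by congr 1; rw [mm_inj]; refine ⟨?_, ?_, ?_, ?_⟩ <;> ring

/-- Hypotheses of Ihara's lemma. -/
structure IharaHyp (N p q ℓ : ℕ) {F : Type*} [Field F] [CharP F p] (c : Mat → F) (A : F) :
    Prop where
  hp : p.Prime
  hq : q.Prime
  hqN : ¬ q ∣ N
  hℓ : ℓ.Prime
  hℓN : N < ℓ
  hℓp : ℓ ≠ p
  hℓq : ℓ ≠ q
  hℓ2 : ℓ ≠ 2
  npos : 0 < N
  hom : IsHomOn N c
  translate : ∀ (E : ℕ) (X : Mat), deepMat (q : ℤ) (E + 2) X ∈ Lvl N →
    c (deepMat (q : ℤ) E (mm q 1 0 q * X * (mm (q : ℤ) 1 0 q).adjugate)) =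
      c (deepMat (q : ℤ) (E + 2) X)
  eig : ∀ a b C d t : ℤ, mm a (ℓ * b) (ℓ * C) d ∈ Lvl N → a - d = ℓ * t →
    A * c (mm a (ℓ * b) (ℓ * C) d) = c (mm a (ℓ ^ 2 * b) C d) +
      ∑ i : Fin ℓ, c (mm (a + (i : ℕ) * ℓ * C) (b - (i : ℕ) * t - (i : ℕ) ^ 2 * C) (ℓ ^ 2 * C)
        (d - (i : ℕ) * ℓ * C))
  hA : A ^ 2 ≠ ((ℓ : F) + 1) ^ 2

namespace IharaHyp

variable {F : Type*} [Field F] [CharP F p] {c : Mat → F} {A : F} (h : IharaHyp N p q ℓ c A)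
include h

theorem coprime_ell_N : IsCoprime (ℓ : ℤ) (N : ℤ) := by
  rw [Int.isCoprime_iff_nat_coprime]
  simpa using h.hℓ.coprime_iff_not_dvd.mpr fun hd => absurd (Nat.le_of_dvd h.npos hd) (by
    have := h.hℓN; omega)

theorem coprime_q_N : IsCoprime (q : ℤ) (N : ℤ) := by
  rw [Int.isCoprime_iff_nat_coprime]; simpa using h.hq.coprime_iff_not_dvd.mpr h.hqN

theorem ell_ne_zero : (ℓ : F) ≠ 0 := by
  have := Fact.mk h.hp
  intro h0
  rw [CharP.cast_eq_zero_iff (F) p] at h0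
  exact h.hℓp ((Nat.prime_dvd_prime_iff_eq h.hp h.hℓ).mp h0).symm

theorem ell_add_one_ne : A ≠ (ℓ : F) + 1 := fun he => h.hA (by rw [he])

theorem apply_uU_eq_zero (t : ℤ) : c (uU t) = 0 := by
  have := Fact.mk h.hp
  rw [h.hom.apply_uU]
  have key := h.eig 1 1 0 1 0 (mm_mem_detLevel.mpr ⟨by ring, by simp⟩) (by ring)
  simp only [mul_one, mul_zero, sub_zero, add_zero] at key
  rw [show mm 1 ((ℓ : ℤ)) 0 1 = uU ℓ from rfl, show mm 1 ((ℓ : ℤ) ^ 2) 0 1 = uU (ℓ ^ 2) from rfl,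
    show mm (1 : ℤ) 1 0 1 = uU 1 from rfl, h.hom.apply_uU (ℓ : ℤ), h.hom.apply_uU ((ℓ : ℤ) ^ 2)]
    at key
  simp only [Finset.sum_const, Finset.card_univ, Fintype.card_fin, zsmul_eq_mul, nsmul_eq_mul]
    at key
  push_cast at key
  have h0 : (ℓ : F) * (A - ((ℓ : F) + 1)) * c (uU 1) = 0 := by linear_combination key
  rcases mul_eq_zero.mp h0 with h1 | h1
  · exact absurd h1 (mul_ne_zero h.ell_ne_zero (sub_ne_zero.mpr h.ell_add_one_ne))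
  · simp [h1]

/-- The parabolic elements at the cusps `i / ℓ` are conjugate to `lL`. -/
theorem exists_conj_lL {i : ℕ} (hi0 : 0 < i) (hi : i < ℓ) (k : ℤ) :
    ∃ η ∈ Lvl N, mm (1 + i * ℓ * N * k) (-(i ^ 2 * N * k)) (ℓ ^ 2 * N * k) (1 - i * ℓ * N * k) =
      η * lL N k * η.adjugate := by
  have hcop : IsCoprime (ℓ : ℤ) ((i : ℤ) * N) := by
    refine IsCoprime.mul_right ?_ h.coprime_ell_N
    rw [Int.isCoprime_iff_nat_coprime]
    simpa using h.hℓ.coprime_iff_not_dvd.mpr fun hd => absurd (Nat.le_of_dvd hi0 hd) (by omega)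
  obtain ⟨u, v, huv⟩ := hcop
  refine ⟨mm u i (-(N * v)) ℓ, mm_mem_detLevel.mpr ⟨by linear_combination huv,
    (dvd_mul_right _ _).neg_right⟩, ?_⟩
  simp only [lL, adjugate_mm, mm_mul, mm_inj]
  refine ⟨?_, ?_, ?_, ?_⟩
  · linear_combination -huv
  · ring
  · ring
  · linear_combination -huv

theorem apply_lL_eq_zero (t : ℤ) : c (lL N t) = 0 := by
  have := Fact.mk h.hp
  rw [h.hom.apply_lL]
  obtain ⟨m, hm⟩ : ∃ m, ℓ = m + 1 := ⟨ℓ - 1, by have := h.hℓ.pos; omega⟩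
  have key := h.eig 1 0 (N : ℤ) 1 0
    (mm_mem_detLevel.mpr ⟨by ring, Dvd.intro_left _ rfl⟩) (by ring)
  simp only [mul_zero, sub_zero, zero_sub] at key
  rw [show mm (1 : ℤ) 0 ((ℓ : ℤ) * N) 1 = lL N ℓ from by simp [lL, mul_comm],
    show mm (1 : ℤ) 0 (N : ℤ) 1 = lL N 1 from by simp [lL], h.hom.apply_lL (ℓ : ℤ)] at key
  subst hm
  rw [Fin.sum_univ_succ] at key
  have h0 : ∀ j : Fin m, c (mm (1 + ((j.succ : Fin (m+1)) : ℕ) * ((m + 1 : ℕ) : ℤ) * N)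
      (-(((j.succ : Fin (m+1)) : ℕ) ^ 2 * (N : ℤ))) (((m + 1 : ℕ) : ℤ) ^ 2 * N)
      (1 - ((j.succ : Fin (m+1)) : ℕ) * ((m + 1 : ℕ) : ℤ) * N)) = c (lL N 1) := by
    intro j
    obtain ⟨η, hη, e⟩ := h.exists_conj_lL (i := ((j.succ : Fin (m+1)) : ℕ))
      (by simp) (j.succ).2 1
    simp only [mul_one] at e
    rw [e, h.hom.conj (lL_mem N 1) hη]
  rw [Finset.sum_congr rfl fun j _ => h0 j] at key
  simp only [Fin.val_zero, Nat.cast_zero, zero_mul, zero_pow two_ne_zero, neg_zero, add_zero,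
    sub_zero, Finset.sum_const, Finset.card_univ, Fintype.card_fin] at key
  rw [show mm (1 : ℤ) 0 (((m + 1 : ℕ) : ℤ) ^ 2 * N) 1 = lL N (((m + 1 : ℕ) : ℤ) ^ 2) from by
      simp [lL, mul_comm], h.hom.apply_lL (((m + 1 : ℕ) : ℤ) ^ 2)] at key
  simp only [zsmul_eq_mul, nsmul_eq_mul] at key
  push_cast at key
  have h1 := h.ell_ne_zero
  have h2 := h.ell_add_one_ne
  push_cast at h1 h2
  have h3 : ((m : F) + 1) * (A - ((m : F) + 1 + 1)) * c (lL N 1) = 0 := by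
    linear_combination key
  rcases mul_eq_zero.mp h3 with h4 | h4
  · exact absurd h4 (mul_ne_zero h1 (sub_ne_zero.mpr h2))
  · simp [h4]

theorem colVal_eq' {γ : Mat} (hγ : γ ∈ Lvl N) {v : Vec} (hv : act γ vE = v) :
    colVal N c v = c γ :=
  colVal_eq h.hom h.apply_uU_eq_zero hγ hv

/-- `colVal` is invariant under scaling the cusp by `q ^ (2 p k)` when `q` is prime to `C`. -/
theorem colVal_scale {a C : ℤ} (hcop : IsCoprime a C) (hN : (N : ℤ) ∣ C)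
    (hqC : ¬ (q : ℤ) ∣ C) (k : ℕ) :
    colVal N c ((q : ℤ) ^ (2 * (p * k)) * a, C) = colVal N c (a, C) := by
  have := Fact.mk h.hp
  have hU := h.apply_uU_eq_zero
  have hqc : IsCoprime (q : ℤ) C := (Nat.prime_iff_prime_int.mp h.hq).coprime_iff_not_dvd.mpr hqC
  -- `η` only depends on `C`
  have step : ∀ a a' : ℤ, IsCoprime a C → IsCoprime a' C → (q : ℤ) ^ 4 ∣ a' - a →
      colVal N c ((q : ℤ) ^ 2 * a', C) - colVal N c (a', C) =
        colVal N c ((q : ℤ) ^ 2 * a, C) - colVal N c (a, C) := by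
    rintro a a' ha ha' ⟨t, ht⟩
    obtain ⟨g, hg, hgv⟩ := exists_lvl_col N ha hN
    obtain ⟨g', hg', hgv'⟩ := exists_lvl_col N ha' hN
    rw [act_vE, Prod.mk.injEq] at hgv hgv'
    rw [mm_eta g, hgv.1, hgv.2] at hg
    rw [mm_eta g', hgv'.1, hgv'.2] at hg'
    generalize g 0 1 = b, g 1 1 = d at hg
    generalize g' 0 1 = b', g' 1 1 = d' at hg'
    obtain ⟨hdet, -⟩ := mm_mem_detLevel.mp hg
    obtain ⟨hdet', -⟩ := mm_mem_detLevel.mp hg'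
    set X := mm t (-(d * b' * t)) 0 (-(d * d' * t)) * (mm a b C d).adjugate with hX
    have hγ : deepMat (q : ℤ) (2 + 2) X =
        mm a' b' C d' * uU (-(d * b' - b * d')) * (mm a b C d).adjugate := by
      have e : mm a' b' C d' * uU (-(d * b' - b * d')) =
          mm a b C d + (q : ℤ) ^ 4 • mm t (-(d * b' * t)) 0 (-(d * d' * t)) := by
        rw [uU, mm_mul, smul_mm, mm_eta (mm a b C d + _), mm_inj]
        simp only [Matrix.add_apply, mm_zero_zero, mm_zero_one, mm_one_zero, mm_one_one]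
        refine ⟨?_, ?_, ?_, ?_⟩
        · linear_combination ht
        · linear_combination (-(d * b')) * ht + b * hdet' - b' * hdet
        · ring
        · linear_combination (-(d * d')) * ht + d * hdet' - d' * hdet
      simp only [deepMat, e, hX, Matrix.add_mul, Matrix.smul_mul]
      rw [Matrix.mul_adjugate, hg.1, one_smul]
    have hmem : deepMat (q : ℤ) (2 + 2) X ∈ Lvl N :=
      hγ ▸ lvl_mul (lvl_mul hg' (uU_mem N _)) (adjugate_mem_detLevel hg)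
    obtain ⟨hmem', e'⟩ := conjDeep_spec (n := (q : ℤ)) (M := mm ((q : ℤ) ^ 2) 0 0 1)
      (by exact_mod_cast h.hq.ne_zero) h.coprime_q_N (by simp) (by simp) hmem
    have hv : act (deepMat (q : ℤ) (2 + 2) X) (a, C) = (a', C) := by
      have e1 : act (mm a b C d) vE = (a, C) := by simp [vE]
      rw [hγ, ← e1, ← act_mul, mul_assoc, Matrix.adjugate_mul, hg.1, one_smul, mul_one, act_mul]
      simp [uU, vE]
    have hv' : act (deepMat (q : ℤ) 2 (mm ((q : ℤ) ^ 2) 0 0 1 * X *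
        (mm ((q : ℤ) ^ 2) 0 0 1).adjugate)) ((q : ℤ) ^ 2 * a, C) = ((q : ℤ) ^ 2 * a', C) := by
      have h2 := congrArg (fun M => act M (a, C)) e'
      simp only [act_mul, hv] at h2
      simpa using h2.symm
    have hcD := conj_diag_of_translate h.hom h.hq h.hqN 2 (h.translate 2) hmem
    rw [← hv', colVal_act h.hom hU hmem' (IsCoprime.mul_left hqc.pow_left ha) hN, hcD, ← hv,
      colVal_act h.hom hU hmem ha hN]
    abel
  -- iterate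
  have iter : ∀ i : ℕ, colVal N c ((q : ℤ) ^ (2 * i) * a, C) = colVal N c (a, C) +
      i • (colVal N c ((q : ℤ) ^ 2 * a, C) - colVal N c (a, C)) := by
    intro i
    induction i with
    | zero => simp
    | succ i ih =>
      have hb : IsCoprime ((q : ℤ) ^ (2 * i) * a) C := IsCoprime.mul_left hqc.pow_left hcop
      obtain ⟨j, hj⟩ := exists_dvd_sub_mul (hqc.symm.pow_right (n := 4))
        (a - (q : ℤ) ^ (2 * i) * a)
      have hb' : IsCoprime ((q : ℤ) ^ (2 * i) * a + j * C) C := hb.add_mul_right_left j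
      have hs := step a ((q : ℤ) ^ (2 * i) * a + j * C) hcop hb' (by
        have e : (q : ℤ) ^ (2 * i) * a + j * C - a = -(a - (q : ℤ) ^ (2 * i) * a - j * C) := by ring
        rw [e]; exact hj.neg_right)
      have e1 : (q : ℤ) ^ 2 * ((q : ℤ) ^ (2 * i) * a + j * C) =
          (q : ℤ) ^ (2 * (i + 1)) * a + ((q : ℤ) ^ 2 * j) * C := by ring
      rw [e1, colVal_translate h.hom hU (IsCoprime.mul_left hqc.pow_left hcop) hN,
        colVal_translate h.hom hU hb hN] at hs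
      rw [succ_nsmul, ← add_assoc, ← ih, ← hs]
      abel
  rw [iter (p * k), mul_nsmul]
  simp [nsmul_eq_mul]

/-- A power of `q` congruent to `1 + s M ℓ^(E-1)` modulo `ℓ ^ E M`. -/
theorem exists_q_pow :
    ∃ E, 2 ≤ E ∧ ∀ (M : ℤ) (K : ℕ) (s : ℤ), IsCoprime (K : ℤ) (ℓ : ℤ) → IsCoprime M (ℓ : ℤ) →
      M ∣ (q : ℤ) ^ K - 1 →
      ∃ k : ℕ, (ℓ : ℤ) ^ E * M ∣ (q : ℤ) ^ (2 * (p * k)) - (1 + s * M * (ℓ : ℤ) ^ (E - 1)) := by
  set K0 := 2 * (p * (ℓ - 1)) with hK0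
  have hℓint := Nat.prime_iff_prime_int.mp h.hℓ
  have hℓq : IsCoprime (q : ℤ) (ℓ : ℤ) := by
    rw [Int.isCoprime_iff_nat_coprime]
    simpa using (Nat.coprime_primes h.hq h.hℓ).mpr h.hℓq.symm
  have hfer : (ℓ : ℤ) ∣ (q : ℤ) ^ K0 - 1 := by
    have h1 := (Int.ModEq.pow_card_sub_one_eq_one h.hℓ hℓq).pow (2 * p)
    rw [one_pow, ← pow_mul] at h1
    rw [show K0 = (ℓ - 1) * (2 * p) by rw [hK0]; ring]
    exact h1.symm.dvd
  have hne : (q : ℤ) ^ K0 - 1 ≠ 0 := by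
    have : 1 < (q : ℤ) ^ K0 := by
      refine one_lt_pow₀ (by exact_mod_cast h.hq.one_lt) ?_
      have := h.hℓ.two_le
      simp only [hK0]
      exact mul_ne_zero two_ne_zero (mul_ne_zero h.hp.ne_zero (by omega))
    omega
  have hfin : FiniteMultiplicity (ℓ : ℤ) ((q : ℤ) ^ K0 - 1) :=
    Int.finiteMultiplicity_iff.mpr ⟨by simpa using h.hℓ.ne_one, hne⟩
  obtain ⟨y, hy, hyℓ⟩ := hfin.exists_eq_pow_mul_and_not_dvd
  set w := multiplicity (ℓ : ℤ) ((q : ℤ) ^ K0 - 1)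
  have hw : 1 ≤ w := by
    rcases Nat.eq_zero_or_pos w with hw0 | hw0
    · rw [hw0, pow_zero, one_mul] at hy
      exact absurd (hy ▸ hfer) hyℓ
    · exact hw0
  refine ⟨w + 1, by omega, fun M K s hK hM hMq => ?_⟩
  obtain ⟨j, hj⟩ := exists_dvd_sub_mul
    (IsCoprime.mul_left hK (hℓint.coprime_iff_not_dvd.mpr hyℓ).symm) (s * M)
  set j' := (j % ℓ).toNat with hj'def
  have hj' : (ℓ : ℤ) ∣ s * M - (K * j' : ℤ) * y := by
    have hl0 : (ℓ : ℤ) ≠ 0 := by exact_mod_cast h.hℓ.ne_zero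
    rw [hj'def, Int.toNat_of_nonneg (Int.emod_nonneg _ hl0)]
    have e : s * M - (K * (j % ℓ) : ℤ) * y =
        (s * M - j * (K * y)) + (ℓ : ℤ) * (K * y * (j / ℓ)) := by
      linear_combination (-(K : ℤ) * y) * Int.mul_ediv_add_emod j ℓ
    rw [e]; exact dvd_add hj (dvd_mul_right _ _)
  refine ⟨(ℓ - 1) * (K * j'), ?_⟩
  have hpow : (q : ℤ) ^ (2 * (p * ((ℓ - 1) * (K * j')))) =
      ((q : ℤ) ^ K0) ^ (K * j') := by rw [← pow_mul, hK0]; ring_nf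
  rw [Nat.add_sub_cancel, mul_comm ((ℓ : ℤ) ^ (w + 1))]
  refine (hM.pow_right (n := w + 1)).mul_dvd ?_ ?_
  · have h1 : M ∣ (q : ℤ) ^ (2 * (p * ((ℓ - 1) * (K * j')))) - 1 := by
      refine hMq.trans ?_
      have : 2 * (p * ((ℓ - 1) * (K * j'))) = K * (2 * (p * ((ℓ - 1) * j'))) := by ring
      rw [this, pow_mul]
      exact sub_one_dvd_pow_sub_one _ _
    have e : (q : ℤ) ^ (2 * (p * ((ℓ - 1) * (K * j')))) - (1 + s * M * (ℓ : ℤ) ^ w) =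
        ((q : ℤ) ^ (2 * (p * ((ℓ - 1) * (K * j')))) - 1) - M * (s * (ℓ : ℤ) ^ w) := by ring
    rw [e]; exact dvd_sub h1 (dvd_mul_right _ _)
  · obtain ⟨r, hr⟩ := pow_sub_one_sub_mul_dvd ((ℓ : ℤ) ^ w * y) (K * j')
    obtain ⟨r', hr'⟩ := hj'
    obtain ⟨v, hv⟩ : ∃ v, w = v + 1 := ⟨w - 1, by omega⟩
    have hq0 : (q : ℤ) ^ K0 = 1 + (ℓ : ℤ) ^ w * y := by linear_combination hy
    rw [hpow, hq0, hv]
    rw [hv] at hr
    refine ⟨(ℓ : ℤ) ^ v * y ^ 2 * r - r', ?_⟩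
    push_cast at hr
    simp only [pow_succ] at hr ⊢
    linear_combination hr - (ℓ : ℤ) ^ v * (ℓ : ℤ) * hr'

omit h in
theorem exists_prime_in_class {a C : ℤ} (hℓ : ℓ.Prime) (hcop : IsCoprime a C)
    (hℓa : ¬ (ℓ : ℤ) ∣ a) (B : ℕ) :
    ∃ r : ℕ, B < r ∧ r.Prime ∧ (ℓ : ℤ) ∣ (r : ℤ) + 1 ∧ a ∣ (r : ℤ) - C := by
  have hℓint := Nat.prime_iff_prime_int.mp hℓ
  have hal : IsCoprime a (ℓ : ℤ) := (hℓint.coprime_iff_not_dvd.mpr hℓa).symm
  obtain ⟨j, hj⟩ := exists_dvd_sub_mul hal (-1 - C)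
  have ha0 : a ≠ 0 := fun h0 => hℓa (h0 ▸ dvd_zero _)
  set m : ℕ := a.natAbs * ℓ with hm
  have hm0 : m ≠ 0 := mul_ne_zero (Int.natAbs_ne_zero.mpr ha0) hℓ.ne_zero
  have hx : IsCoprime (C + j * a) (m : ℤ) := by
    rw [hm, Nat.cast_mul, Int.natCast_natAbs]
    refine IsCoprime.mul_right ?_ ?_
    · exact (hcop.symm.add_mul_right_left j).abs_right
    · refine (hℓint.coprime_iff_not_dvd.mpr fun hd => ?_).symm
      have : (ℓ : ℤ) ∣ -1 := by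
        have := dvd_add hd hj
        rwa [show C + j * a + (-1 - C - j * a) = -1 by ring] at this
      exact hℓint.not_isUnit (isUnit_of_dvd_unit this (by simp))
  obtain ⟨r, hrB, hr, hmod⟩ := Nat.forall_exists_prime_gt_and_zmodEq B hm0 hx
  have hdvd : (m : ℤ) ∣ (r : ℤ) - (C + j * a) := hmod.symm.dvd
  rw [hm, Nat.cast_mul, Int.natCast_natAbs] at hdvd
  refine ⟨r, hrB, hr, ?_, ?_⟩
  · have := dvd_sub ((dvd_mul_left _ _).trans hdvd) hj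
    rwa [show (r : ℤ) - (C + j * a) - (-1 - C - j * a) = (r : ℤ) + 1 by ring] at this
  · have h1 := ((abs_dvd _ _).mp ((dvd_mul_right |a| (ℓ : ℤ)).trans hdvd))
    have := dvd_add h1 (dvd_mul_left a j)
    rwa [show (r : ℤ) - (C + j * a) + j * a = (r : ℤ) - C by ring] at this

/-- The key step: `colVal` is invariant under translation by `i / ℓ` at deep cusps. -/
theorem exists_colVal_translate_div :
    ∃ E, 2 ≤ E ∧ ∀ (a C : ℤ) (i : ℕ), IsCoprime a C → (N : ℤ) ∣ C → (ℓ : ℤ) ^ E ∣ C → i < ℓ →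
      ∀ C1, C = ℓ * C1 → colVal N c (a + i * C1, C) = colVal N c (a, C) := by
  obtain ⟨E, hE, hpow⟩ := h.exists_q_pow
  refine ⟨E, hE, fun a C i hcop hN hC hi C1 hC1 => ?_⟩
  obtain ⟨f, rfl⟩ : ∃ f, E = f + 2 := ⟨E - 2, by omega⟩
  have hU := h.apply_uU_eq_zero
  rcases Nat.eq_zero_or_pos i with rfl | hi0
  · simp
  have hℓint := Nat.prime_iff_prime_int.mp h.hℓ
  have hl0 : (ℓ : ℤ) ≠ 0 := by exact_mod_cast h.hℓ.ne_zero
  obtain ⟨C2, hC2⟩ : (ℓ : ℤ) ^ (f + 2) * N ∣ C := (h.coprime_ell_N.pow_left).mul_dvd hC hN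
  have hC1' : C1 = (ℓ : ℤ) ^ (f + 1) * N * C2 := by
    apply mul_left_cancel₀ hl0
    rw [← hC1, hC2]; ring
  subst hC1' hC2
  have hℓa : ¬ (ℓ : ℤ) ∣ a := fun hd =>
    hℓint.not_isUnit (hcop.isUnit_of_dvd' hd ((dvd_pow_self _ (by omega : f + 2 ≠ 0)).trans hC))
  have hcop2 : IsCoprime a C2 := hcop.of_mul_right_right
  obtain ⟨r, hrB, hr, hrℓ, ⟨t, ht⟩⟩ :=
    exists_prime_in_class h.hℓ hcop2 hℓa (max (max q ℓ) N)
  simp only [max_lt_iff] at hrB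
  obtain ⟨⟨hrq, hrl⟩, hrN⟩ := hrB
  set C' := (ℓ : ℤ) ^ (f + 2) * N * r with hC'
  set C1' := (ℓ : ℤ) ^ (f + 1) * N * r with hC1'
  have hshift : C' = (ℓ : ℤ) ^ (f + 2) * N * C2 + (N : ℤ) * (ℓ : ℤ) ^ (f + 2) * t * a := by
    rw [hC']; linear_combination ((ℓ : ℤ) ^ (f + 2) * N) * ht
  -- shift the denominator by parabolic elements
  have hlact : act (lL N ((ℓ : ℤ) ^ (f + 2) * t)) (a, (ℓ : ℤ) ^ (f + 2) * N * C2) = (a, C') := by
    simp only [lL, act_mm, Prod.mk.injEq, hshift]; constructor <;> ring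
  have hcop' : IsCoprime a C' := by
    rw [hshift, show (N : ℤ) * (ℓ : ℤ) ^ (f + 2) * t * a = (N * (ℓ : ℤ) ^ (f + 2) * t) * a by ring]
    exact hcop.add_mul_right_right _
  have hN' : (N : ℤ) ∣ C' := ⟨(ℓ : ℤ) ^ (f + 2) * r, by rw [hC']; ring⟩
  have hNC : (N : ℤ) ∣ (ℓ : ℤ) ^ (f + 2) * N * C2 := hN
  have hcopi : IsCoprime (a + i * ((ℓ : ℤ) ^ (f + 1) * N * C2)) ((ℓ : ℤ) ^ (f + 2) * N * C2) := by
    have e : (ℓ : ℤ) ^ (f + 2) * N * C2 = (ℓ : ℤ) * ((ℓ : ℤ) ^ (f + 1) * N * C2) := by ring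
    rw [e]
    refine IsCoprime.mul_right ?_ ?_
    · refine (hℓint.coprime_iff_not_dvd.mpr fun hd => hℓa ?_).symm
      have h2 : (ℓ : ℤ) ∣ i * ((ℓ : ℤ) ^ (f + 1) * N * C2) :=
        Dvd.intro ((ℓ : ℤ) ^ f * i * N * C2) (by ring)
      exact (Int.dvd_add_left h2).mp hd
    · exact (hcop.of_isCoprime_of_dvd_right (Dvd.intro_left _ e.symm)).add_mul_right_left i
  obtain ⟨η, hη, hηe⟩ := h.exists_conj_lL hi0 hi ((ℓ : ℤ) ^ f * t)
  set δ := η * lL N ((ℓ : ℤ) ^ f * t) * η.adjugate with hδdef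
  have hδ : δ ∈ Lvl N := lvl_mul (lvl_mul hη (lL_mem N _)) (adjugate_mem_detLevel hη)
  have hcδ : c δ = 0 := by rw [h.hom.conj (lL_mem N _) hη, h.apply_lL_eq_zero]
  have hδact : act δ (a + i * ((ℓ : ℤ) ^ (f + 1) * N * C2), (ℓ : ℤ) ^ (f + 2) * N * C2) =
      (a + i * C1', C') := by
    rw [← hηe]
    simp only [act_mm, Prod.mk.injEq, hC', hC1']
    refine ⟨?_, ?_⟩
    · linear_combination (-((i : ℤ) * (ℓ : ℤ) ^ (f + 1) * N)) * ht
    · linear_combination (-((ℓ : ℤ) ^ (f + 2) * N)) * ht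
  have s1 : colVal N c (a + i * C1', C') = colVal N c
      (a + i * ((ℓ : ℤ) ^ (f + 1) * N * C2), (ℓ : ℤ) ^ (f + 2) * N * C2) := by
    rw [← hδact, colVal_act h.hom hU hδ hcopi hN, hcδ, zero_add]
  have s2 : colVal N c (a, C') = colVal N c (a, (ℓ : ℤ) ^ (f + 2) * N * C2) := by
    rw [← hlact, colVal_act h.hom hU (lL_mem N _) hcop hN, h.apply_lL_eq_zero, zero_add]
  rw [← s1, ← s2]
  -- now scale by a power of `q`
  have hr0 : ¬ r ∣ N := fun hd => absurd (Nat.le_of_dvd h.npos hd) (by omega)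
  have hqC' : ¬ (q : ℤ) ∣ C' := by
    have hq' := Nat.prime_iff_prime_int.mp h.hq
    intro hd
    rcases hq'.dvd_or_dvd hd with h1 | h1
    · rcases hq'.dvd_or_dvd h1 with h2 | h2
      · have := (Nat.prime_dvd_prime_iff_eq h.hq h.hℓ).mp (by exact_mod_cast hq'.dvd_of_dvd_pow h2)
        exact h.hℓq this.symm
      · exact h.hqN (by exact_mod_cast h2)
    · have := (Nat.prime_dvd_prime_iff_eq h.hq hr).mp (by exact_mod_cast h1)
      omega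
  have hMcop : IsCoprime ((N : ℤ) * r) (ℓ : ℤ) := by
    refine IsCoprime.mul_left h.coprime_ell_N.symm ?_
    rw [Int.isCoprime_iff_nat_coprime]
    simpa using (Nat.coprime_primes hr h.hℓ).mpr (by omega)
  have hKcop : IsCoprime ((Nat.totient (N * r) : ℕ) : ℤ) (ℓ : ℤ) := by
    rw [Nat.totient_mul (hr.coprime_iff_not_dvd.mpr hr0).symm, Nat.totient_prime hr]
    push_cast [Nat.cast_sub hr.one_le]
    refine IsCoprime.mul_left ?_ ?_
    · rw [Int.isCoprime_iff_nat_coprime]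
      simpa using (h.hℓ.coprime_iff_not_dvd.mpr fun hd => absurd
        (Nat.le_of_dvd (Nat.totient_pos.mpr h.npos) hd)
        (by have := Nat.totient_le N; have := h.hℓN; omega)).symm
    · refine (hℓint.coprime_iff_not_dvd.mpr fun hd => ?_).symm
      have h2 : (ℓ : ℤ) ∣ 2 := by
        have := dvd_sub hrℓ hd
        rwa [show (r : ℤ) + 1 - ((r : ℤ) - 1) = 2 by ring] at this
      have := Nat.le_of_dvd two_pos (by exact_mod_cast h2 : ℓ ∣ 2)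
      have := h.hℓ.two_le
      exact h.hℓ2 (by omega)
  have hKq : (N : ℤ) * r ∣ (q : ℤ) ^ Nat.totient (N * r) - 1 := by
    have hcp : q.Coprime (N * r) := by
      refine Nat.Coprime.mul_right (h.hq.coprime_iff_not_dvd.mpr h.hqN) ?_
      exact (Nat.coprime_primes h.hq hr).mpr (by omega)
    have := (Int.natCast_modEq_iff.mpr (Nat.ModEq.pow_totient hcp)).symm.dvd
    push_cast at this
    exact this
  obtain ⟨s, hs⟩ := exists_dvd_sub_mul ((hℓint.coprime_iff_not_dvd.mpr hℓa).symm) (i : ℤ)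
  obtain ⟨k, u, hk⟩ := hpow ((N : ℤ) * r) (Nat.totient (N * r)) s hKcop hMcop hKq
  obtain ⟨s', hs'⟩ := hs
  rw [show f + 2 - 1 = f + 1 by omega] at hk
  have e : (q : ℤ) ^ (2 * (p * k)) * a = (a + i * C1') + (a * u - s') * C' := by
    rw [hC', hC1']
    linear_combination a * hk - ((N : ℤ) * r * (ℓ : ℤ) ^ (f + 1)) * hs'
  rw [← h.colVal_scale hcop' hN' hqC' k, e, colVal_translate h.hom hU ?_ hN']
  have hq0 : IsCoprime ((q : ℤ) ^ (2 * (p * k)) * a) C' :=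
    IsCoprime.mul_left ((Nat.prime_iff_prime_int.mp h.hq).coprime_iff_not_dvd.mpr hqC').pow_left hcop'
  rw [e] at hq0
  exact (IsCoprime.add_mul_right_left_iff).mp hq0

/-- Invariance of deep elements under `z ↦ z + 1/ℓ`. -/
theorem ell_translate {E : ℕ}
    (hE : ∀ (a C : ℤ) (i : ℕ), IsCoprime a C → (N : ℤ) ∣ C → (ℓ : ℤ) ^ E ∣ C → i < ℓ →
      ∀ C1, C = ℓ * C1 → colVal N c (a + i * C1, C) = colVal N c (a, C))
    (m : ℕ) (hm : E ≤ m + 2) (X : Mat) (hX : deepMat (ℓ : ℤ) (m + 2) X ∈ Lvl N) :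
    c (deepMat (ℓ : ℤ) m (mm ℓ 1 0 ℓ * X * (mm (ℓ : ℤ) 1 0 ℓ).adjugate)) =
      c (deepMat (ℓ : ℤ) (m + 2) X) := by
  obtain ⟨hX', -⟩ := conjDeep_spec (n := (ℓ : ℤ)) (M := mm ℓ 1 0 ℓ)
    (by exact_mod_cast h.hℓ.ne_zero) h.coprime_ell_N (by simp [sq]) (by simp) hX
  rw [mm_eta X] at hX hX' ⊢
  generalize X 0 0 = x, X 0 1 = y, X 1 0 = z, X 1 1 = w at hX hX' ⊢
  rw [adjugate_mm, mm_mul, mm_mul, deepMat_one_eq] at hX' ⊢
  rw [deepMat_one_eq] at hX ⊢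
  rw [← h.colVal_eq' hX rfl, ← h.colVal_eq' hX' rfl]
  simp only [act_mm, vE, mul_one, mul_zero, add_zero]
  have hdet := (mm_mem_detLevel.mp hX).1
  have h2 : (ℓ : ℤ) ^ E ∣ (ℓ : ℤ) ^ (m + 2) * z := (pow_dvd_pow _ hm).mul_right z
  have := hE (1 + (ℓ : ℤ) ^ (m + 2) * x) ((ℓ : ℤ) ^ (m + 2) * z) 1
    ⟨1 + (ℓ : ℤ) ^ (m + 2) * w, -((ℓ : ℤ) ^ (m + 2) * y), by linear_combination hdet⟩
    (mm_mem_detLevel.mp hX).2 h2 h.hℓ.one_lt ((ℓ : ℤ) ^ (m + 1) * z) (by ring)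
  rw [← this]
  congr 1
  simp only [Prod.mk.injEq]
  constructor <;> (push_cast; ring)

theorem exists_deep_eq_zero : ∃ M0, ∀ X, deepMat (ℓ : ℤ) M0 X ∈ Lvl N →
    c (deepMat (ℓ : ℤ) M0 X) = 0 := by
  have := Fact.mk h.hp
  obtain ⟨E, hE2, hE⟩ := h.exists_colVal_translate_div
  refine ⟨E + 6, fun X hX => ?_⟩
  -- the two relations coming from the eigenvector equation
  have rel : ∀ n x y z w : ℤ, ∀ m, E ≤ m → n = (ℓ : ℤ) ^ m →
      mm (1 + ℓ ^ 2 * n * x) (ℓ * (ℓ * (n * y))) (ℓ * (ℓ * (n * z))) (1 + ℓ ^ 2 * n * w) ∈ Lvl N →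
      (A * c (mm (1 + ℓ ^ 2 * n * x) (ℓ * (ℓ * (n * y))) (ℓ * (ℓ * (n * z))) (1 + ℓ ^ 2 * n * w)) =
          (1 + (ℓ : F)) *
            c (mm (1 + ℓ ^ 2 * n * x) (ℓ * (n * y)) (ℓ ^ 3 * (n * z)) (1 + ℓ ^ 2 * n * w))) ∧
      c (mm (1 + ℓ ^ 2 * n * x) (ℓ ^ 3 * (n * y)) (ℓ * (n * z)) (1 + ℓ ^ 2 * n * w)) =
        c (mm (1 + ℓ ^ 2 * n * x) (ℓ * (n * y)) (ℓ ^ 3 * (n * z)) (1 + ℓ ^ 2 * n * w)) := by
    intro n x y z w m hm hn hmem
    obtain ⟨hdet, hdvd⟩ := mm_mem_detLevel.mp hmem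
    have hz : (N : ℤ) ∣ n * z :=
      h.coprime_ell_N.symm.dvd_of_dvd_mul_left (h.coprime_ell_N.symm.dvd_of_dvd_mul_left hdvd)
    have hPmem : mm (1 + ℓ ^ 2 * n * x) (ℓ * (n * y)) (ℓ ^ 3 * (n * z)) (1 + ℓ ^ 2 * n * w) ∈
        Lvl N := mm_mem_detLevel.mpr ⟨by linear_combination hdet, hz.mul_left _⟩
    have hB : c (mm (1 + ℓ ^ 2 * n * x) (ℓ ^ 3 * (n * y)) (ℓ * (n * z)) (1 + ℓ ^ 2 * n * w)) =
        c (mm (1 + ℓ ^ 2 * n * x) (ℓ * (n * y)) (ℓ ^ 3 * (n * z)) (1 + ℓ ^ 2 * n * w)) := by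
      obtain ⟨m', rfl⟩ : ∃ m', m = m' + 1 := ⟨m - 1, by omega⟩
      have e1 : deepMat (ℓ : ℤ) (m' + 2) (mm (ℓ * x) y (ℓ ^ 2 * z) (ℓ * w)) =
          mm (1 + ℓ ^ 2 * n * x) (ℓ * (n * y)) (ℓ ^ 3 * (n * z)) (1 + ℓ ^ 2 * n * w) := by
        rw [deepMat_one_eq, mm_inj, hn]; refine ⟨?_, ?_, ?_, ?_⟩ <;> ring
      have := conj_diag_of_translate h.hom h.hℓ
        (fun hd => absurd (Nat.le_of_dvd h.npos hd) (by have := h.hℓN; omega)) m'
        (fun Y hY => h.ell_translate hE m' (by omega) Y hY)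
        (X := mm (ℓ * x) y (ℓ ^ 2 * z) (ℓ * w)) (e1 ▸ hPmem)
      rw [e1] at this
      rw [← this, adjugate_mm, mm_mul, mm_mul, deepMat_one_eq]
      congr 1
      rw [mm_inj, hn]; refine ⟨?_, ?_, ?_, ?_⟩ <;> ring
    refine ⟨?_, hB⟩
    rw [h.eig _ (ℓ * (n * y)) (ℓ * (n * z)) _ (ℓ * n * (x - w)) hmem (by ring)]
    have hterm : ∀ i : Fin ℓ, c (mm (1 + ℓ ^ 2 * n * x + (i : ℕ) * ℓ * (ℓ * (n * z)))
        (ℓ * (n * y) - (i : ℕ) * (ℓ * n * (x - w)) - (i : ℕ) ^ 2 * (ℓ * (n * z)))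
        (ℓ ^ 2 * (ℓ * (n * z))) (1 + ℓ ^ 2 * n * w - (i : ℕ) * ℓ * (ℓ * (n * z)))) =
        c (mm (1 + ℓ ^ 2 * n * x) (ℓ * (n * y)) (ℓ ^ 3 * (n * z)) (1 + ℓ ^ 2 * n * w)) := by
      intro i
      rw [← h.colVal_eq' hPmem rfl, ← h.colVal_eq' (mm_mem_detLevel.mpr ⟨by linear_combination hdet,
        (hz.mul_left _).mul_left _⟩) rfl]
      simp only [act_mm, vE, mul_one, mul_zero, add_zero]
      have := hE (1 + ℓ ^ 2 * n * x) (ℓ ^ 3 * (n * z)) i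
        ⟨1 + ℓ ^ 2 * n * w, -(ℓ * (n * y)), by linear_combination hdet⟩ (hz.mul_left _)
        ((pow_dvd_pow (ℓ : ℤ) (by omega : E ≤ m + 3)).trans
          ⟨z, by rw [hn]; ring⟩) i.2 (ℓ ^ 2 * (n * z)) (by ring)
      rw [← this]
      congr 1
      simp only [Prod.mk.injEq]
      constructor <;> ring
    rw [Finset.sum_congr rfl fun i _ => hterm i]
    rw [show mm (1 + (ℓ : ℤ) ^ 2 * n * x) (ℓ ^ 2 * (ℓ * (n * y))) (ℓ * (n * z))
        (1 + ℓ ^ 2 * n * w) = mm (1 + (ℓ : ℤ) ^ 2 * n * x) (ℓ ^ 3 * (n * y)) (ℓ * (n * z))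
        (1 + ℓ ^ 2 * n * w) by rw [mm_inj]; refine ⟨?_, ?_, ?_, ?_⟩ <;> ring, hB]
    simp only [Finset.sum_const, Finset.card_univ, Fintype.card_fin, nsmul_eq_mul]
    ring
  rw [mm_eta X, deepMat_one_eq] at hX ⊢
  generalize X 0 0 = x, X 0 1 = y, X 1 0 = z, X 1 1 = w at hX ⊢
  set γ := mm (1 + (ℓ : ℤ) ^ (E + 6) * x) ((ℓ : ℤ) ^ (E + 6) * y) ((ℓ : ℤ) ^ (E + 6) * z)
    (1 + (ℓ : ℤ) ^ (E + 6) * w) with hγdef
  set n := (ℓ : ℤ) ^ (E + 4) with hn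
  have eγ : mm (1 + ℓ ^ 2 * n * x) (ℓ * (ℓ * (n * y))) (ℓ * (ℓ * (n * z)))
      (1 + ℓ ^ 2 * n * w) = γ := by
    rw [hγdef, mm_inj, hn]; refine ⟨?_, ?_, ?_, ?_⟩ <;> ring
  obtain ⟨r1, r2⟩ := rel n x y z w (E + 4) (by omega) hn (eγ ▸ hX)
  rw [eγ] at r1
  set n' := (ℓ : ℤ) ^ (E + 3) with hn'
  obtain ⟨r3, -⟩ := rel n' (ℓ * x) (ℓ ^ 2 * y) z (ℓ * w) (E + 3) (by omega) hn' (by
    obtain ⟨hdet, hdvd⟩ := mm_mem_detLevel.mp hX
    refine mm_mem_detLevel.mpr ⟨?_, ?_⟩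
    · rw [hn']; linear_combination hdet
    · have : (N : ℤ) ∣ z := (h.coprime_ell_N.pow_left).symm.dvd_of_dvd_mul_left hdvd
      exact ((this.mul_left _).mul_left _).mul_left _)
  have eB : mm (1 + ℓ ^ 2 * n' * (ℓ * x)) (ℓ * (ℓ * (n' * (ℓ ^ 2 * y)))) (ℓ * (ℓ * (n' * z)))
      (1 + ℓ ^ 2 * n' * (ℓ * w)) =
      mm (1 + ℓ ^ 2 * n * x) (ℓ ^ 3 * (n * y)) (ℓ * (n * z)) (1 + ℓ ^ 2 * n * w) := by
    rw [mm_inj, hn, hn']; refine ⟨?_, ?_, ?_, ?_⟩ <;> ring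
  have eP : mm (1 + ℓ ^ 2 * n' * (ℓ * x)) (ℓ * (n' * (ℓ ^ 2 * y))) (ℓ ^ 3 * (n' * z))
      (1 + ℓ ^ 2 * n' * (ℓ * w)) = γ := by
    rw [hγdef, mm_inj, hn']; refine ⟨?_, ?_, ?_, ?_⟩ <;> ring
  rw [eB, eP, r2] at r3
  have key : (A ^ 2 - ((ℓ : F) + 1) ^ 2) * c γ = 0 := by
    linear_combination A * r1 + (1 + (ℓ : F)) * r3
  exact (mul_eq_zero.mp key).resolve_left (sub_ne_zero.mpr h.hA)

/-- Ihara's lemma. -/
theorem eq_zero {γ : Mat} (hγ : γ ∈ Lvl N) : c γ = 0 := by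
  have hℓint := Nat.prime_iff_prime_int.mp h.hℓ
  obtain ⟨M0, hM0⟩ := h.exists_deep_eq_zero
  rcases Nat.eq_zero_or_pos M0 with rfl | hpos
  · have e : deepMat (ℓ : ℤ) 0 (γ - 1) = γ := by simp [deepMat]
    rw [← e]; exact hM0 _ (e.symm ▸ hγ)
  set n := (ℓ : ℤ) ^ M0 with hn
  have stepU : ∀ (s : ℤ) {x : Mat}, x ∈ Lvl N → uU s * x ∈ Lvl N ∧ c (uU s * x) = c x :=
    fun s x hx => ⟨lvl_mul (uU_mem N s) hx,
      by rw [h.hom _ (uU_mem N s) _ hx, h.apply_uU_eq_zero, zero_add]⟩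
  have stepL : ∀ (k : ℤ) {x : Mat}, x ∈ Lvl N → lL N k * x ∈ Lvl N ∧ c (lL N k * x) = c x :=
    fun k x hx => ⟨lvl_mul (lL_mem N k) hx,
      by rw [h.hom _ (lL_mem N k) _ hx, h.apply_lL_eq_zero, zero_add]⟩
  have stepR : ∀ (s : ℤ) {x : Mat}, x ∈ Lvl N → x * uU s ∈ Lvl N ∧ c (x * uU s) = c x :=
    fun s x hx => ⟨lvl_mul hx (uU_mem N s),
      by rw [h.hom _ hx _ (uU_mem N s), h.apply_uU_eq_zero, add_zero]⟩
  have hNℓ : ¬ (ℓ : ℤ) ∣ (N : ℤ) := fun hd =>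
    hℓint.not_isUnit (h.coprime_ell_N.isUnit_of_dvd' dvd_rfl hd)
  -- make the upper left entry prime to ℓ
  obtain ⟨γ1, hγ1, hc1, hu1⟩ : ∃ x ∈ Lvl N, c x = c γ ∧ ¬ (ℓ : ℤ) ∣ x 0 0 := by
    by_cases ha : (ℓ : ℤ) ∣ γ 0 0
    · obtain ⟨m1, e1⟩ := stepU 1 hγ
      refine ⟨_, m1, e1, fun hd => ?_⟩
      simp only [uU, Matrix.mul_apply, Fin.sum_univ_two, mm_zero_zero, mm_zero_one, one_mul] at hd
      have hC : (ℓ : ℤ) ∣ γ 1 0 := (Int.dvd_add_right ha).mp hd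
      have hdet := hγ.1
      rw [Matrix.det_fin_two] at hdet
      exact hℓint.not_isUnit (isUnit_of_dvd_one (hdet ▸ dvd_sub (ha.mul_right _) (hC.mul_left _)))
    · exact ⟨γ, hγ, rfl, ha⟩
  set a := γ1 0 0
  set b := γ1 0 1
  set C := γ1 1 0
  set d := γ1 1 1
  have hcopa : IsCoprime a n := ((hℓint.coprime_iff_not_dvd.mpr hu1).symm).pow_right
  have hcopN : IsCoprime (N : ℤ) n := h.coprime_ell_N.symm.pow_right
  obtain ⟨k, hk⟩ := exists_dvd_sub_mul (IsCoprime.mul_left hcopN hcopa) ((N : ℤ) * a - C)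
  set C2 := C + (N : ℤ) * k * a with hC2
  have hC2n : n ∣ (N : ℤ) * a - C2 := by
    rw [hC2, show (N : ℤ) * a - (C + N * k * a) = (N : ℤ) * a - C - k * (N * a) by ring]; exact hk
  have hcopC2 : IsCoprime C2 n := by
    obtain ⟨t, ht⟩ := hC2n
    have e : C2 = (N : ℤ) * a + n * (-t) := by linear_combination -ht
    rw [e]
    exact (IsCoprime.mul_left hcopN hcopa).add_mul_left_left (-t)
  obtain ⟨s, hs⟩ := exists_dvd_sub_mul hcopC2 (1 - a)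
  set a3 := a + s * C2 with ha3
  have ha3n : n ∣ a3 - 1 := by
    rw [ha3, show a + s * C2 - 1 = -(1 - a - s * C2) by ring]; exact hs.neg_right
  have hcopa3 : IsCoprime a3 n := isCoprime_of_dvd_sub_one ha3n
  obtain ⟨k', hk'⟩ := exists_dvd_sub_mul (IsCoprime.mul_left hcopN hcopa3) (-C2)
  obtain ⟨m2, e2⟩ := stepL k hγ1
  obtain ⟨m3, e3⟩ := stepU s m2
  obtain ⟨m4, e4⟩ := stepL k' m3
  obtain ⟨s', hs'⟩ := exists_dvd_sub_mul hcopa3 (-(b + s * (N * k * b + d)))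
  obtain ⟨m5, e5⟩ := stepR s' m4
  set γ5 := lL N k' * (uU s * (lL N k * γ1)) * uU s' with hγ5
  have hγ5e : γ5 = mm a3 (a3 * s' + (b + s * (N * k * b + d))) (C2 + (N : ℤ) * k' * a3)
      ((C2 + (N : ℤ) * k' * a3) * s' + (N * k' * (b + s * (N * k * b + d)) + (N * k * b + d))) := by
    rw [hγ5, mm_eta γ1]
    simp only [lL, uU, mm_mul, mm_inj, ha3, hC2]
    refine ⟨?_, ?_, ?_, ?_⟩ <;> simp only [a, b, C, d] <;> ring
  rw [← hc1, ← e2, ← e3, ← e4, ← e5]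
  obtain ⟨t00, h00⟩ := ha3n
  have h10' : n ∣ C2 + (N : ℤ) * k' * a3 := by
    rw [show C2 + (N : ℤ) * k' * a3 = -(-C2 - k' * (N * a3)) by ring]; exact hk'.neg_right
  have h01' : n ∣ a3 * s' + (b + s * (N * k * b + d)) := by
    rw [show a3 * s' + (b + s * (N * k * b + d)) = -(-(b + s * (N * k * b + d)) - s' * a3) by ring]
    exact hs'.neg_right
  obtain ⟨t10, h10⟩ := h10'
  obtain ⟨t01, h01⟩ := h01'
  set d5 := (C2 + (N : ℤ) * k' * a3) * s' + (N * k' * (b + s * (N * k * b + d)) + (N * k * b + d))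
  have hdet := m5.1
  rw [hγ5e, mm_det, h10, h01] at hdet
  have e : γ5 = deepMat (ℓ : ℤ) M0 (mm t00 t01 t10 (n * t01 * t10 - t00 * d5)) := by
    rw [hγ5e, deepMat_one_eq, ← hn, mm_inj]
    refine ⟨by linear_combination h00, h01, h10, ?_⟩
    linear_combination hdet - d5 * h00
  rw [e] at m5 ⊢
  exact hM0 _ m5

end IharaHyp

end Fermat.Agent.LevelRaising
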