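import Mathlib.LinearAlgebra.Dual.Lemmas
import Mathlib.Algebra.Polynomial.Module.AEval
import Mathlib.LinearAlgebra.FreeModule.PID
import Mathlib.LinearAlgebra.Eigenspace.Basic
import Mathlib.LinearAlgebra.Eigenspace.Triangularizable
import Mathlib.FieldTheory.Minpoly.Field
import Mathlib.RingTheory.Localization.FractionRing
import Mathlib.LinearAlgebra.TensorProduct.Basis
import Mathlib.LinearAlgebra.Charpoly.Basic
import Mathlib.LinearAlgebra.Complex.Module
import Mathlib.Algebra.Algebra.Rat
import Mathlib.RingTheory.TensorProduct.Free

/-!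
# Common eigenvectors of commuting families

For commuting endomorphisms `T i` and prescribed values `t i` there is either a common eigenvector
or a product of polynomials in the `T i`, non-vanishing at the values, which is zero.
-/

set_option autoImplicit false

noncomputable section

namespace Fermat.Agent.LevelRaising

open Polynomial TensorProduct

variable {k : Type*} [Field k] {V : Type*} [AddCommGroup V] [Module k V]

/-- The operator attached to a list of pairs (index, polynomial). -/
def listOp {R : Type*} [CommRing R] {A : Type*} [Ring A] [Algebra R A] {ι : Type*} (T : ι → A)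
    (l : List (ι × R[X])) : A :=
  (l.map fun x => aeval (T x.1) x.2).prod

/-- The value of a list of pairs at a family of scalars. -/
def listVal {R : Type*} [CommRing R] {ι : Type*} (t : ι → R) (l : List (ι × R[X])) : R :=
  (l.map fun x => x.2.eval (t x.1)).prod

theorem listOp_eigen {R : Type*} [CommRing R] {M : Type*} [AddCommGroup M] [Module R M] {ι : Type*}
    {T : ι → Module.End R M} {t : ι → R} {v : M} (h : ∀ i, T i v = t i • v)
    (l : List (ι × R[X])) : listOp T l v = listVal t l • v := by
  induction l with
  | nil => simp [listOp, listVal]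
  | cons x l ih =>
    have key : ∀ P : R[X], aeval (T x.1) P v = P.eval (t x.1) • v := fun P => by
      induction P using Polynomial.induction_on' with
      | add P Q hP hQ => simp [hP, hQ, add_smul]
      | monomial n a =>
        have hp : ∀ m : ℕ, (T x.1 ^ m) v = t x.1 ^ m • v := by
          intro m
          induction m with
          | zero => simp
          | succ m ihm => rw [pow_succ', Module.End.mul_apply, ihm, map_smul, h, smul_smul, pow_succ]
        simp [Polynomial.aeval_monomial, hp, smul_smul, mul_comm]
    simp only [listOp, listVal, List.map_cons, List.prod_cons, Module.End.mul_apply] at ih ⊢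
    rw [ih, map_smul, key, smul_smul, mul_comm]

theorem commute_aeval {R : Type*} [CommRing R] {A : Type*} [Ring A] [Algebra R A] {a b : A}
    (h : Commute a b) (P Q : R[X]) : Commute (aeval a P) (aeval b Q) := by
  have h1 : ∀ x : A, Commute a x → Commute (aeval a P) x := fun x hx => by
    induction P using Polynomial.induction_on' with
    | add P Q hP hQ => simpa using hP.add_left hQ
    | monomial n c =>
      rw [aeval_monomial]
      exact (Algebra.commute_algebraMap_left c x).mul_left (hx.pow_left n)
  refine h1 _ ?_
  induction Q using Polynomial.induction_on' with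
  | add P Q hP hQ => simpa using hP.add_right hQ
  | monomial n c =>
    rw [aeval_monomial]
    exact (Algebra.commute_algebraMap_right c a).mul_right (h.pow_right n)

theorem commute_listOp {R : Type*} [CommRing R] {A : Type*} [Ring A] [Algebra R A] {ι : Type*}
    (T : ι → A) (b : A) (hb : ∀ i, Commute (T i) b) (l : List (ι × R[X])) :
    Commute (listOp T l) b := by
  induction l with
  | nil => simp [listOp]
  | cons x l ih =>
    simp only [listOp, List.map_cons, List.prod_cons]
    refine Commute.mul_left ?_ ih
    simpa using commute_aeval (hb x.1) x.2 (X : R[X])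

theorem listOp_sandwich {R : Type*} [CommRing R] {A B : Type*} [AddCommGroup A] [AddCommGroup B]
    [Module R A] [Module R B] {ι : Type*} {T : ι → Module.End R A} {S : ι → Module.End R B}
    (f : A →ₗ[R] B) (h : ∀ i a, f (T i a) = S i (f a)) (l : List (ι × R[X])) (a : A) :
    f (listOp T l a) = listOp S l (f a) := by
  induction l generalizing a with
  | nil => simp [listOp]
  | cons x l ih =>
    have key : ∀ (P : R[X]) (a : A), f (aeval (T x.1) P a) = aeval (S x.1) P (f a) := by
      intro P
      induction P using Polynomial.induction_on' with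
      | add P Q hP hQ => intro a; simp [hP, hQ]
      | monomial n c =>
        intro a
        have hp : ∀ m : ℕ, f ((T x.1 ^ m) a) = (S x.1 ^ m) (f a) := by
          intro m
          induction m with
          | zero => simp
          | succ m ihm => rw [pow_succ', pow_succ', Module.End.mul_apply, Module.End.mul_apply, h, ihm]
        simp [Polynomial.aeval_monomial, hp]
    simp only [listOp, List.map_cons, List.prod_cons, Module.End.mul_apply] at ih ⊢
    rw [key, ih]

/-- Descent: a nonzero vector killed by powers of commuting operators gives a nonzero common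
kernel vector, inside any stable submodule. -/
theorem exists_ne_zero_forall_eq_zero {ι : Type*} (D : ι → Module.End k V)
    (hD : ∀ i j, Commute (D i) (D j)) (F : Finset ι) :
    ∀ (W : Submodule k V), (∀ i, ∀ x ∈ W, D i x ∈ W) → ∀ v ∈ W, v ≠ 0 →
      (∀ i ∈ F, ∃ n : ℕ, (D i ^ n) v = 0) → ∃ w ∈ W, w ≠ 0 ∧ ∀ i ∈ F, D i w = 0 := by
  classical
  induction F using Finset.induction_on with
  | empty => exact fun W _ v hv hv0 _ => ⟨v, hv, hv0, by simp⟩
  | @insert a F _ ih =>
    intro W hW v hv hv0 h
    have hpow : ∀ n, (D a ^ n) v ∈ W := by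
      intro n
      induction n with
      | zero => simpa using hv
      | succ n ihn => rw [pow_succ', Module.End.mul_apply]; exact hW a _ ihn
    have hex : ∃ n, (D a ^ n) v = 0 := h a (Finset.mem_insert_self a F)
    obtain ⟨j, hj⟩ : ∃ j, Nat.find hex = j + 1 := by
      refine ⟨Nat.find hex - 1, ?_⟩
      have : Nat.find hex ≠ 0 := fun h0 => hv0 (by simpa [h0] using Nat.find_spec hex)
      omega
    obtain ⟨w, hw, hw0, hwF⟩ := ih (W ⊓ LinearMap.ker (D a))
      (fun i x hx => by
        refine ⟨hW i x hx.1, ?_⟩
        have := hx.2
        simp only [SetLike.mem_coe, LinearMap.mem_ker] at this ⊢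
        rw [← Module.End.mul_apply, (hD a i).eq, Module.End.mul_apply, this, map_zero])
      ((D a ^ j) v) ⟨hpow j, by
        simp only [SetLike.mem_coe, LinearMap.mem_ker]
        rw [← Module.End.mul_apply, ← pow_succ', ← hj]
        exact Nat.find_spec hex⟩
      (Nat.find_min hex (by omega))
      (fun i hi => by
        obtain ⟨n, hn⟩ := h i (Finset.mem_insert_of_mem hi)
        refine ⟨n, ?_⟩
        rw [← Module.End.mul_apply, ((hD i a).pow_pow n j).eq, Module.End.mul_apply, hn, map_zero])
    refine ⟨w, hw.1, hw0, fun i hi => ?_⟩
    rcases Finset.mem_insert.mp hi with rfl | hi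
    · exact LinearMap.mem_ker.mp hw.2
    · exact hwF i hi

/-- Either a common eigenvector or an annihilating product. -/
theorem exists_eigen_or_annihilator [FiniteDimensional k V] {ι : Type*} (T : ι → Module.End k V)
    (hT : ∀ i j, Commute (T i) (T j)) (t : ι → k) :
    (∃ v : V, v ≠ 0 ∧ ∀ i, T i v = t i • v) ∨
      ∃ l : List (ι × k[X]), listVal t l ≠ 0 ∧ listOp T l = 0 := by
  classical
  let W : Finset ι → Submodule k V := fun F =>
    F.inf fun i => LinearMap.ker (T i - t i • LinearMap.id)
  obtain ⟨d, ⟨F, hF⟩, hmin⟩ := Nat.lt_wfRel.wf.has_min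
    {d | ∃ F, Module.finrank k (W F) = d} ⟨_, ∅, rfl⟩
  by_cases hW : W F = ⊥
  · right
    have hfac : ∀ i, ∃ (h : k[X]) (n : ℕ), h.eval (t i) ≠ 0 ∧
        (T i - t i • LinearMap.id) ^ n * aeval (T i) h = 0 := by
      intro i
      obtain ⟨h, hh, hnd⟩ := (minpoly k (T i)).exists_eq_pow_rootMultiplicity_mul_and_not_dvd
        (minpoly.ne_zero (Algebra.IsIntegral.isIntegral (T i))) (t i)
      refine ⟨h, rootMultiplicity (t i) (minpoly k (T i)), fun he => hnd (dvd_iff_isRoot.mpr he), ?_⟩
      have e := congrArg (aeval (T i)) hh
      rw [minpoly.aeval, map_mul, map_pow, map_sub, aeval_X, aeval_C] at e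
      rw [e]
      rfl
    choose h n hh1 hh2 using hfac
    refine ⟨F.toList.map fun i => (i, h i), ?_, ?_⟩
    · simp only [listVal, List.map_map]
      exact List.prod_ne_zero (by simp [hh1])
    by_contra hP
    obtain ⟨v, hv⟩ : ∃ v, listOp T (F.toList.map fun i => (i, h i)) v ≠ 0 := by
      by_contra hall
      simp only [not_exists, not_not] at hall
      exact hP (LinearMap.ext hall)
    have hD : ∀ i j, Commute (T i - t i • LinearMap.id : Module.End k V)
        (T j - t j • LinearMap.id) := fun i j =>
      ((hT i j).sub_right ((Commute.one_right (T i)).smul_right (t j))).sub_left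
        (((Commute.one_left (T j)).smul_left (t i)).sub_right
          (((Commute.one_left (1 : Module.End k V)).smul_left (t i)).smul_right (t j)))
    obtain ⟨w, -, hw0, hw⟩ := exists_ne_zero_forall_eq_zero _ hD F ⊤ (fun _ _ _ => trivial) _
      trivial hv (fun i hi => by
        refine ⟨n i, ?_⟩
        obtain ⟨l1, l2, hl⟩ := List.append_of_mem (Finset.mem_toList.mpr hi)
        have hP2 : listOp T (F.toList.map fun i => (i, h i)) =
            listOp T (l1.map fun i => (i, h i)) * (aeval (T i) (h i) *
              listOp T (l2.map fun i => (i, h i))) := by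
          simp [listOp, hl]
        have hc : Commute ((T i - t i • LinearMap.id) ^ n i)
            (listOp T (l1.map fun i => (i, h i))) := by
          refine (Commute.pow_left ?_ _)
          refine (commute_listOp T _ (fun j => ?_) _).symm
          exact (hT j i).sub_right ((Commute.one_right (T j)).smul_right (t i))
        rw [← Module.End.mul_apply, hP2, ← mul_assoc, hc.eq, mul_assoc, ← mul_assoc _ (aeval _ _),
          hh2, zero_mul, mul_zero, LinearMap.zero_apply])
    refine hw0 (Submodule.mem_bot k |>.mp (hW ▸ ?_))
    simp only [W, Submodule.mem_finsetInf]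
    exact fun i hi => LinearMap.mem_ker.mpr (hw i hi)
  · left
    obtain ⟨v, hvW, hv0⟩ := (Submodule.ne_bot_iff _).mp hW
    refine ⟨v, hv0, fun i => ?_⟩
    have hle : W (insert i F) ≤ W F := by
      simp only [W]; exact Finset.inf_mono (Finset.subset_insert i F)
    have heq : W (insert i F) = W F := Submodule.eq_of_le_of_finrank_le hle (by
      by_contra hlt
      exact hmin _ ⟨insert i F, rfl⟩ (show _ < d by omega))
    rw [← heq] at hvW
    simp only [W, Submodule.mem_finsetInf] at hvW
    have := LinearMap.mem_ker.mp (hvW i (Finset.mem_insert_self i F))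
    simpa [sub_eq_zero] using this

/-- Integer vectors independent over `ℤ` stay independent over `ℂ`. -/
theorem linearIndependent_intCast {κ X : Type*} (f : κ → X → ℤ) (hf : LinearIndependent ℤ f) :
    LinearIndependent ℂ fun i => fun x => ((f i x : ℤ) : ℂ) := by
  classical
  have hQ : LinearIndependent ℚ fun i => fun x => ((f i x : ℤ) : ℚ) := by
    refine (LinearIndependent.iff_fractionRing ℤ ℚ).mp ?_
    refine hf.map' (LinearMap.compLeft (Int.castAddHom ℚ).toIntLinearMap X) ?_
    rw [LinearMap.ker_eq_bot]
    intro a b hab
    funext x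
    exact Int.cast_injective (congrFun hab x)
  rw [linearIndependent_iff'] at hQ ⊢
  intro s g hg i hi
  refine (Module.forall_dual_apply_eq_zero_iff ℚ _).mp fun φ => hQ s (fun i => φ (g i)) ?_ i hi
  funext x
  have := congrArg φ (congrFun hg x)
  simp only [Finset.sum_apply, Pi.smul_apply, Pi.zero_apply, smul_eq_mul, map_sum, map_zero] at this ⊢
  refine Eq.trans (Finset.sum_congr rfl fun j _ => ?_) this
  rw [show g j * ((f j x : ℤ) : ℂ) = ((f j x : ℤ) : ℚ) • g j by
    rw [Rat.smul_def]; push_cast; ring, map_smul, smul_eq_mul, mul_comm]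

/-- The evaluation `ℂ ⊗ K → (X → ℂ)` attached to integer functions. -/
def tensorEval {K : Type*} [AddCommGroup K] [Module ℤ K] {X : Type*} (f : K →ₗ[ℤ] X → ℤ) :
    ℂ ⊗[ℤ] K →ₗ[ℂ] X → ℂ :=
  LinearMap.liftBaseChange ℂ ((LinearMap.compLeft (Int.castAddHom ℂ).toIntLinearMap X).comp f)

theorem tensorEval_tmul {K : Type*} [AddCommGroup K] [Module ℤ K] {X : Type*}
    (f : K →ₗ[ℤ] X → ℤ) (z : ℂ) (w : K) :
    tensorEval f (z ⊗ₜ w) = fun x => z * ((f w x : ℤ) : ℂ) := by
  funext x
  simp [tensorEval]

/-- An injective evaluation stays injective after tensoring with `ℂ`. -/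
theorem tensorEval_injective {K : Type*} [AddCommGroup K] [Module ℤ K] [Module.Free ℤ K] {X : Type*}
    (f : K →ₗ[ℤ] X → ℤ) (hf : Function.Injective f) : Function.Injective (tensorEval f) := by
  classical
  set b := Module.Free.chooseBasis ℤ K
  set e := Algebra.TensorProduct.basis ℂ b with he
  have hli : LinearIndependent ℂ ((tensorEval f) ∘ e) := by
    have h1 := linearIndependent_intCast (fun i => f (b i))
      (b.linearIndependent.map' f (LinearMap.ker_eq_bot.mpr hf))
    have heq : ((tensorEval f) ∘ e) = fun i => fun x => ((f (b i) x : ℤ) : ℂ) := by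
      funext i x
      simp [he, Algebra.TensorProduct.basis_apply, tensorEval_tmul]
    rw [heq]; exact h1
  intro x y hxy
  rw [← e.linearCombination_repr x, ← e.linearCombination_repr y,
    Finsupp.apply_linearCombination, Finsupp.apply_linearCombination] at hxy
  exact e.repr.injective (hli.finsuppLinearCombination_injective hxy)

end Fermat.Agent.LevelRaising
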