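import Mathlib.Algebra.Algebra.ZMod
import Mathlib.LinearAlgebra.FreeModule.Finite.Basic
import Mathlib.LinearAlgebra.TensorProduct.Tower
import Mathlib.RingTheory.TensorProduct.Maps
import Fermat.Agent.HeckeEigen.CongruenceLift
import Fermat.Agent.LevelRaising.LinAlg

/-!
# Lifting lemmas for commuting families over `ℤ`

Transport of `listOp`, kernels of maps of lattices, and lifting of a mod `p` eigensystem on a
lattice to a complex one.
-/

set_option autoImplicit false

noncomputable section

namespace Fermat.Agent.LevelRaising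

open Polynomial TensorProduct

/-- Change of coefficients in a list of pairs. -/
def listMap {R R' : Type*} [CommRing R] [CommRing R'] {ι : Type*} (σ : R →+* R')
    (l : List (ι × R[X])) : List (ι × R'[X]) :=
  l.map fun x => (x.1, x.2.map σ)

theorem map_listVal {R R' : Type*} [CommRing R] [CommRing R'] {ι : Type*} (σ : R →+* R')
    (t : ι → R) (l : List (ι × R[X])) : σ (listVal t l) = listVal (σ ∘ t) (listMap σ l) := by
  induction l with
  | nil => simp [listVal, listMap]
  | cons x l ih =>
    simp only [listVal, listMap, List.map_cons, List.prod_cons, map_mul, Function.comp_apply,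
      Polynomial.eval_map_apply] at ih ⊢
    rw [ih]

theorem exists_listMap_eq {R R' : Type*} [CommRing R] [CommRing R'] {ι : Type*} (σ : R →+* R')
    (hσ : Function.Surjective σ) (l : List (ι × R'[X])) : ∃ L, listMap σ L = l := by
  induction l with
  | nil => exact ⟨[], rfl⟩
  | cons x l ih =>
    obtain ⟨L, rfl⟩ := ih
    obtain ⟨P, hP⟩ := Polynomial.map_surjective σ hσ x.2
    exact ⟨(x.1, P) :: L, by simp [listMap, hP]⟩

theorem listOp_semilinear {R R' : Type*} [CommRing R] [CommRing R'] {A B : Type*} [AddCommGroup A]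
    [AddCommGroup B] [Module R A] [Module R' B] {ι : Type*} (σ : R →+* R')
    {T : ι → Module.End R A} {S : ι → Module.End R' B} (f : A →+ B)
    (hσ : ∀ (c : R) (a : A), f (c • a) = σ c • f a) (h : ∀ i a, f (T i a) = S i (f a))
    (l : List (ι × R[X])) (a : A) : f (listOp T l a) = listOp S (listMap σ l) (f a) := by
  induction l generalizing a with
  | nil => simp [listOp, listMap]
  | cons x l ih =>
    have key : ∀ (P : R[X]) (a : A), f (aeval (T x.1) P a) = aeval (S x.1) (P.map σ) (f a) := by
      intro P
      induction P using Polynomial.induction_on' with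
      | add P Q hP hQ => intro a; simp [hP, hQ]
      | monomial n c =>
        intro a
        have hp : ∀ m : ℕ, f ((T x.1 ^ m) a) = (S x.1 ^ m) (f a) := by
          intro m
          induction m with
          | zero => simp
          | succ m ihm =>
            rw [pow_succ', pow_succ', Module.End.mul_apply, Module.End.mul_apply, h, ihm]
        simp [Polynomial.aeval_monomial, hp, hσ]
    simp only [listOp, listMap, List.map_cons, List.prod_cons, Module.End.mul_apply] at ih ⊢
    rw [key, ih]

theorem algHom_listOp {R : Type*} [CommRing R] {A A' : Type*} [Ring A] [Algebra R A] [Ring A']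
    [Algebra R A'] {ι : Type*} (ψ : A →ₐ[R] A') {T : ι → A} {t : ι → A'}
    (h : ∀ i, ψ (T i) = t i) (l : List (ι × R[X])) : ψ (listOp T l) = listOp t l := by
  simp only [listOp, map_list_prod, List.map_map]
  congr 1
  refine List.map_congr_left fun x _ => ?_
  simp [← Polynomial.aeval_algHom_apply, h]

theorem listOp_eq_listVal {R : Type*} [CommRing R] {ι : Type*} (t : ι → R)
    (l : List (ι × R[X])) : listOp t l = listVal t l := by
  simp [listVal, listOp, Polynomial.coe_aeval_eq_eval]

theorem listVal_reverse {R : Type*} [CommRing R] {ι : Type*} (t : ι → R) (l : List (ι × R[X])) :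
    listVal t l.reverse = listVal t l := by
  simp [listVal, List.map_reverse, List.prod_reverse]

theorem listOp_dualMap {k : Type*} [CommRing k] {B : Type*} [AddCommGroup B] [Module k B]
    {ι : Type*} (T : ι → Module.End k B) (l : List (ι × k[X])) :
    listOp (fun i => ((T i).dualMap : Module.End k (Module.Dual k B))) l =
      (listOp T l.reverse).dualMap := by
  induction l with
  | nil => simp [listOp, Module.End.one_eq_id]
  | cons x l ih =>
    have key : ∀ P : k[X], aeval ((T x.1).dualMap : Module.End k (Module.Dual k B)) P =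
        (aeval (T x.1) P).dualMap := by
      intro P
      induction P using Polynomial.induction_on' with
      | add P Q hP hQ =>
        simp only [map_add, hP, hQ]
        exact LinearMap.ext fun φ => LinearMap.ext fun b => (map_add φ _ _).symm
      | monomial n c =>
        have hp : ∀ m : ℕ, ((T x.1).dualMap : Module.End k (Module.Dual k B)) ^ m =
            (T x.1 ^ m).dualMap := by
          intro m
          induction m with
          | zero => simp [Module.End.one_eq_id]
          | succ m ihm =>
            rw [pow_succ, ihm, pow_succ', Module.End.mul_eq_comp, Module.End.mul_eq_comp,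
              LinearMap.dualMap_comp_dualMap]
        refine LinearMap.ext fun φ => LinearMap.ext fun b => ?_
        simp [Polynomial.aeval_monomial, hp]
    simp only [listOp, List.map_cons, List.prod_cons, List.reverse_cons, List.map_append,
      List.prod_append, List.map_nil, List.prod_nil, mul_one] at ih ⊢
    rw [ih, key, Module.End.mul_eq_comp, Module.End.mul_eq_comp, LinearMap.dualMap_comp_dualMap]

/-- If `PB` maps everything into `range i + p B` then some power of `PA` moves a vector with
`i v₀ ∈ p B` into `ker i + p A`. -/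
theorem exists_kernel_lift {A B : Type*} [AddCommGroup A] [AddCommGroup B] [Module.Finite ℤ B]
    (i : A →ₗ[ℤ] B) (p : ℤ) (PA : Module.End ℤ A) (PB : Module.End ℤ B)
    (hcomm : ∀ a, i (PA a) = PB (i a)) (hP : ∀ b, ∃ a b', PB b = i a + p • b') {v0 : A} {u : B}
    (hv : i v0 = p • u) : ∃ (n : ℕ) (v1 : A), i ((PA ^ n) v0 - p • v1) = 0 := by
  have hpowcomm : ∀ n a, i ((PA ^ n) a) = (PB ^ n) (i a) := by
    intro n
    induction n with
    | zero => simp
    | succ n ih =>
      intro a
      rw [pow_succ', pow_succ', Module.End.mul_apply, Module.End.mul_apply, hcomm, ih]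
  have hpow : ∀ n b, ∃ a b', (PB ^ n) b = i a + p ^ n • b' := by
    intro n
    induction n with
    | zero => exact fun b => ⟨0, b, by simp⟩
    | succ n ih =>
      intro b
      obtain ⟨a, b', h⟩ := ih b
      obtain ⟨a', b'', h'⟩ := hP b'
      refine ⟨PA a + p ^ n • a', b'', ?_⟩
      rw [pow_succ', Module.End.mul_apply, h, map_add, ← hcomm, map_smul, h', map_add, map_smul,
        smul_add, smul_smul, ← pow_succ, ← add_assoc]
  let S : ℕ →o Submodule ℤ B :=
    ⟨fun k => (LinearMap.range i).comap (p ^ k • LinearMap.id), fun k m hkm b hb => by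
      obtain ⟨d, rfl⟩ := Nat.exists_eq_add_of_le hkm
      simp only [Submodule.mem_comap, LinearMap.smul_apply, LinearMap.id_apply] at hb ⊢
      rw [pow_add, mul_comm, ← smul_smul]
      exact Submodule.smul_mem _ _ hb⟩
  obtain ⟨n, hn⟩ := monotone_stabilizes_iff_noetherian.mpr inferInstance S
  obtain ⟨a, b', h⟩ := hpow n u
  have hb : b' ∈ S (n + 1) := by
    simp only [S, OrderHom.coe_mk, Submodule.mem_comap, LinearMap.smul_apply, LinearMap.id_apply]
    refine ⟨(PA ^ n) v0 - p • a, ?_⟩
    rw [map_sub, hpowcomm, map_smul, hv, map_smul, h, smul_add, smul_smul, ← pow_succ']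
    abel
  rw [← hn (n + 1) n.le_succ] at hb
  simp only [S, OrderHom.coe_mk, Submodule.mem_comap, LinearMap.smul_apply, LinearMap.id_apply]
    at hb
  obtain ⟨a', ha'⟩ := hb
  refine ⟨n, a + a', ?_⟩
  rw [map_sub, hpowcomm, map_smul, map_add, ha', hv, map_smul, h]
  abel

/-- A mod `p` eigensystem on a lattice lifts to a complex eigensystem. -/
theorem exists_complex_eigen_lift {ι : Type*} {K : Type*} [AddCommGroup K] [Module.Finite ℤ K]
    [Module.Free ℤ K] {X : Type*} (f : K →ₗ[ℤ] X → ℤ) (hf : Function.Injective f) {p : ℕ}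
    [Fact p.Prime] {W : Type*} [AddCommGroup W] [Module (ZMod p) W] (r : K →+ W)
    (T : ι → Module.End ℤ K) (hT : ∀ i j, Commute (T i) (T j)) (a : ι → ℤ) (v : K)
    (hv : r v ≠ 0) (ha : ∀ i, r (T i v) = (a i : ZMod p) • r v)
    (hker : ∀ i w, r w = 0 → r (T i w) = 0) :
    ∃ (z : ℂ ⊗[ℤ] K) (β : ι → integralClosure ℤ ℂ) (𝔪 : Ideal (integralClosure ℤ ℂ)),
      tensorEval f z ≠ 0 ∧ 𝔪.IsMaximal ∧ (p : integralClosure ℤ ℂ) ∈ 𝔪 ∧
      ∀ i, (T i).baseChange ℂ z = (β i : ℂ) • z ∧
        β i - (a i : integralClosure ℤ ℂ) ∈ 𝔪 := by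
  classical
  set B := Algebra.adjoin ℤ (Set.range T) with hB
  have hcomm : IsMulCommutative B := Algebra.isMulCommutative_adjoin ℤ (by
    rintro _ ⟨i, rfl⟩ _ ⟨j, rfl⟩; exact hT i j)
  let : CommRing B := { (inferInstance : Ring B) with mul_comm := IsMulCommutative.is_comm.comm }
  have : Module.Finite ℤ B := Module.Finite.of_injective B.val.toLinearMap Subtype.val_injective
  have : Module.Free ℤ B := Module.free_of_finite_type_torsion_free'
  have : Module.IsTorsionFree ℤ B := inferInstance
  have : IsAddTorsionFree B := Module.isTorsionFree_int_iff_isAddTorsionFree.mp this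
  let Tb : ι → B := fun i => ⟨T i, Algebra.subset_adjoin ⟨i, rfl⟩⟩
  have hrz : ∀ (c : ℤ) (w : K), r (c • w) = (c : ZMod p) • r w := fun c w => by
    rw [map_zsmul, ← Int.cast_smul_eq_zsmul (ZMod p)]
  -- the scalar by which an element of `B` acts on the reduction of `v`
  have hstab : ∀ b : B, (∀ w, r w = 0 → r ((b : Module.End ℤ K) w) = 0) ∧
      ∃ c : ℤ, r ((b : Module.End ℤ K) v) = (c : ZMod p) • r v := by
    rintro ⟨b, hb⟩
    induction hb using Algebra.adjoin_induction with
    | mem x hx =>
      obtain ⟨i, rfl⟩ := hx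
      exact ⟨hker i, a i, ha i⟩
    | algebraMap c =>
      refine ⟨fun w hw => ?_, c, ?_⟩
      · simp [hrz, hw]
      · simp [hrz]
    | add x y _ _ hx hy =>
      obtain ⟨c, hc⟩ := hx.2
      obtain ⟨d, hd⟩ := hy.2
      refine ⟨fun w hw => by simp [hx.1 w hw, hy.1 w hw], c + d, ?_⟩
      simp [hc, hd, add_smul]
    | mul x y _ _ hx hy =>
      obtain ⟨c, hc⟩ := hx.2
      obtain ⟨d, hd⟩ := hy.2
      refine ⟨fun w hw => hx.1 _ (hy.1 w hw), c * d, ?_⟩
      have h0 : r (x (y v - d • v)) = 0 := hx.1 _ (by rw [map_sub, hd, hrz, sub_self])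
      rw [map_sub, map_sub, map_smul, hrz, hc, sub_eq_zero] at h0
      change r (x (y v)) = _
      rw [h0, smul_smul]
      push_cast
      rw [mul_comm]
  choose m hm using fun b => (hstab b).2
  have huniq : ∀ (b : B) (c : ℤ), r ((b : Module.End ℤ K) v) = (c : ZMod p) • r v →
      (m b : ZMod p) = c := fun b c hc => smul_left_injective (ZMod p) hv ((hm b).symm.trans hc)
  let θ : B →+* ZMod p :=
    { toFun := fun b => (m b : ZMod p)
      map_one' := by simpa using huniq 1 1 (by simp)
      map_mul' := fun x y => by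
        have h0 : r ((x : Module.End ℤ K) ((y : Module.End ℤ K) v - m y • v)) = 0 :=
          (hstab x).1 _ (by rw [map_sub, hm y, hrz, sub_self])
        rw [map_sub, map_sub, map_smul, hrz, hm x, sub_eq_zero, smul_smul] at h0
        rw [← Int.cast_mul]
        refine huniq (x * y) (m x * m y) ?_
        change r ((x : Module.End ℤ K) ((y : Module.End ℤ K) v)) = _
        rw [h0, Int.cast_mul, mul_comm]
      map_zero' := by simpa using huniq 0 0 (by simp)
      map_add' := fun x y => by
        rw [← Int.cast_add]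
        refine huniq (x + y) (m x + m y) ?_
        simp [hm, add_smul] }
  have : (RingHom.ker θ).IsMaximal :=
    RingHom.ker_isMaximal_of_surjective θ (ZMod.ringHom_surjective θ)
  obtain ⟨φ, hφ⟩ := HeckeEigen.exists_ringHom_complex_ker_le (RingHom.ker θ)
  obtain ⟨φ', Q, hφ', hQ, hQM⟩ := HeckeEigen.exists_maximal_over φ (RingHom.ker θ) hφ
  -- the eigenvector
  set Tc : ι → Module.End ℂ (ℂ ⊗[ℤ] K) := fun i => (T i).baseChange ℂ with hTc
  have hTcomm : ∀ i j, Commute (Tc i) (Tc j) := fun i j =>
    (hT i j).map (Module.End.baseChangeHom ℤ ℂ K)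
  rcases exists_eigen_or_annihilator Tc hTcomm (fun i => φ (Tb i)) with ⟨z, hz0, hz⟩ | ⟨l, hl, hl0⟩
  · refine ⟨z, fun i => φ' (Tb i), Q, fun h => hz0 (tensorEval_injective f hf (by rw [h, map_zero])),
      hQ, ?_, fun i => ⟨by rw [hφ']; exact hz i, ?_⟩⟩
    · simpa using hQM (p : B) (by simp [RingHom.mem_ker])
    · have : Tb i - (a i : B) ∈ RingHom.ker θ := by
        rw [RingHom.mem_ker, map_sub, map_intCast, sub_eq_zero]
        exact huniq (Tb i) (a i) (ha i)
      simpa using hQM _ this
  · exfalso
    let Φ : ℂ ⊗[ℤ] B →ₐ[ℂ] Module.End ℂ (ℂ ⊗[ℤ] K) :=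
      Algebra.TensorProduct.lift (Algebra.ofId ℂ _)
        ((Module.End.baseChangeHom ℤ ℂ K).comp B.val) fun c b => Algebra.commutes c _
    let φc : ℂ ⊗[ℤ] B →ₐ[ℂ] ℂ :=
      Algebra.TensorProduct.lift (Algebra.ofId ℂ ℂ) φ.toIntAlgHom fun c b => Commute.all _ _
    let g : B →ₗ[ℤ] (K × X → ℤ) :=
      { toFun := fun b wx => f ((b : Module.End ℤ K) wx.1) wx.2
        map_add' := fun x y => by funext wx; simp
        map_smul' := fun c x => by funext wx; simp }
    have hg : Function.Injective g := fun x y hxy => Subtype.ext (LinearMap.ext fun w =>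
      hf (funext fun t => congrFun hxy (w, t)))
    have hgΦ : ∀ (y : ℂ ⊗[ℤ] B) (wx : K × X),
        tensorEval g y wx = tensorEval f (Φ y ((1 : ℂ) ⊗ₜ wx.1)) wx.2 := by
      intro y wx
      induction y using TensorProduct.induction_on with
      | zero => simp
      | tmul c b =>
        simp [Φ, g, tensorEval_tmul, Algebra.ofId_apply, Module.End.baseChangeHom,
          TensorProduct.smul_tmul']
      | add y y' hy hy' => simp [hy, hy']
    have hΦ : ∀ i, Φ ((1 : ℂ) ⊗ₜ Tb i) = Tc i := fun i => by
      simp [Φ, Tb, hTc, Module.End.baseChangeHom]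
    have hφc : ∀ i, φc ((1 : ℂ) ⊗ₜ Tb i) = φ (Tb i) := fun i => by simp [φc]
    set y := listOp (fun i => ((1 : ℂ) ⊗ₜ Tb i : ℂ ⊗[ℤ] B)) l with hy
    have hy0 : y = 0 := by
      refine tensorEval_injective g hg ?_
      funext wx
      rw [hgΦ, algHom_listOp Φ hΦ, hl0]
      simp
    refine hl ?_
    have := algHom_listOp φc hφc l
    rw [← hy, hy0, map_zero] at this
    rw [← listOp_eq_listVal, ← this]

end Fermat.Agent.LevelRaising
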