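import Fermat.Agent.Isogeny.VariableChange
import Fermat.Agent.EllTorsion.Galois
import Fermat.Prelude.Def_FLTPrelim_Modularity

/-!
# Irreducibility of `E[p]` does not depend on the model
-/

set_option autoImplicit false

open WeierstrassCurve
open scoped WeierstrassCurve.Affine

namespace Fermat.Agent.LevelRaising

local notation "Ω" => AlgebraicClosure ℚ

/-- Irreducibility of `E[p]` is invariant under a change of variables. -/
theorem galoisRepIsIrreducible_of_variableChange {E E' : WeierstrassCurve ℚ} [E.IsElliptic]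
    [E'.IsElliptic] {C : VariableChange ℚ} (hC : C • E = E') {p : ℕ}
    (h : Affine.Point.GaloisRepIsIrreducible (K := Ω) ℚ E p) :
    Affine.Point.GaloisRepIsIrreducible (K := Ω) ℚ E' p := by
  classical
  have : (E.map (algebraMap ℚ Ω)).IsElliptic := inferInstance
  have : (E'.map (algebraMap ℚ Ω)).IsElliptic := inferInstance
  set C' := C.map (algebraMap ℚ Ω) with hC'def
  have hC' : C' • E.map (algebraMap ℚ Ω) = E'.map (algebraMap ℚ Ω) := by
    rw [hC'def, WeierstrassCurve.map_variableChange, hC]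
  let e : (E'⁄Ω).Point ≃+ (E⁄Ω).Point := Isogeny.vcEquiv C' hC'
  have he : ∀ (σ : Ω ≃ₐ[ℚ] Ω) (P : (E'⁄Ω).Point), e (σ • P) = σ • e P := by
    intro σ P
    have hu : (C'.u : Ω) = algebraMap ℚ Ω (C.u : ℚ) := rfl
    have hr : C'.r = algebraMap ℚ Ω C.r := rfl
    have hs : C'.s = algebraMap ℚ Ω C.s := rfl
    have ht : C'.t = algebraMap ℚ Ω C.t := rfl
    rcases P with _ | ⟨x, y, hP⟩
    · rfl
    · show (Affine.Point.some (Isogeny.vcX C' (σ x)) (Isogeny.vcY C' (σ x) (σ y)) _ : (E⁄Ω).Point) =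
        Affine.Point.some (σ (Isogeny.vcX C' x)) (σ (Isogeny.vcY C' x y)) _
      simp only [Isogeny.vcX, Isogeny.vcY, hu, hr, hs, ht, map_add,
        map_mul, map_pow, AlgEquiv.commutes]
  let ψ : Submodule.torsionBy ℤ (E'⁄Ω).Point (p : ℤ) →+
      Submodule.torsionBy ℤ (E⁄Ω).Point (p : ℤ) :=
    { toFun := fun T => ⟨e T.1, by
        rw [Submodule.mem_torsionBy_iff, ← map_zsmul, (Submodule.mem_torsionBy_iff _ _).mp T.2,
          map_zero]⟩
      map_zero' := Subtype.ext (map_zero e)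
      map_add' := fun _ _ => Subtype.ext (map_add e _ _) }
  have hψinj : Function.Injective ψ := fun a b hab =>
    Subtype.ext (e.injective (congrArg Subtype.val hab))
  have hψsurj : Function.Surjective ψ := fun T => ⟨⟨e.symm T.1, by
    rw [Submodule.mem_torsionBy_iff, ← map_zsmul, (Submodule.mem_torsionBy_iff _ _).mp T.2,
      map_zero]⟩, Subtype.ext (e.apply_symm_apply _)⟩
  set L := AddMonoidHom.toZModLinearMap p ψ
  obtain ⟨hnt, hirr⟩ := h
  refine ⟨hψsurj.nontrivial, fun Nsub hN => ?_⟩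
  have hst : ∀ (σ : Ω ≃ₐ[ℚ] Ω), ∀ y ∈ Nsub.map L, σ • y ∈ Nsub.map L := by
    rintro σ _ ⟨x, hx, rfl⟩
    exact ⟨σ • x, hN σ x hx, Subtype.ext (he σ x.1)⟩
  rcases hirr _ hst with h0 | h1
  · left
    refine (Submodule.eq_bot_iff _).mpr fun x hx => hψinj ?_
    have := Submodule.mem_map_of_mem (f := L) hx
    rw [h0, Submodule.mem_bot] at this
    exact this.trans (map_zero ψ).symm
  · right
    refine eq_top_iff.mpr fun x _ => ?_
    obtain ⟨y, hy, hxy⟩ : L x ∈ Nsub.map L := h1 ▸ Submodule.mem_top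
    rwa [hψinj hxy] at hy

end Fermat.Agent.LevelRaising
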