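import Fermat.Agent.LevelRaising.IharaBasic

/-!
# Explicit conjugations used to verify the hypotheses of Ihara's lemma
-/

set_option autoImplicit false

noncomputable section

namespace Fermat.Agent.LevelRaising

variable {N q ℓ : ℕ}

/-- The elements `γ'_i` with `heckMat i * γ = γ'_i * heckMat i`. -/
def eigMat (ℓ : ℕ) (a b C d t : ℤ) : Option (Fin ℓ) → Mat
  | none => mm a ((ℓ : ℤ) ^ 2 * b) C d
  | some i => mm (a + (i : ℕ) * ℓ * C) (b - (i : ℕ) * t - (i : ℕ) ^ 2 * C) ((ℓ : ℤ) ^ 2 * C)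
      (d - (i : ℕ) * ℓ * C)

theorem heckMat_mul_eq_eigMat {a b C d t : ℤ} (ht : a - d = ℓ * t) (i : Option (Fin ℓ)) :
    heckMat ℓ i * mm a (ℓ * b) (ℓ * C) d = eigMat ℓ a b C d t i * heckMat ℓ i := by
  cases i with
  | none =>
    simp only [heckMat, eigMat, mm_mul, mm_inj]
    refine ⟨?_, ?_, ?_, ?_⟩ <;> ring
  | some i =>
    simp only [heckMat, eigMat, mm_mul, mm_inj]
    refine ⟨?_, ?_, ?_, ?_⟩
    all_goals first | ring1 | linear_combination (-((i : ℕ) : ℤ)) * ht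

theorem eigMat_mem (hℓ : ℓ.Prime) (hℓN : ¬ ℓ ∣ N) {a b C d t : ℤ}
    (hm : mm a (ℓ * b) (ℓ * C) d ∈ Lvl N) (ht : a - d = ℓ * t) (i : Option (Fin ℓ)) :
    eigMat ℓ a b C d t i ∈ Lvl N := by
  obtain ⟨hdet, hdvd⟩ := mm_mem_detLevel.mp hm
  have hC : (N : ℤ) ∣ C := by
    refine (Int.isCoprime_iff_nat_coprime.mpr ?_).dvd_of_dvd_mul_left hdvd
    simpa using (hℓ.coprime_iff_not_dvd.mpr hℓN).symm
  cases i with
  | none => exact mm_mem_detLevel.mpr ⟨by linear_combination hdet, hC⟩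
  | some i =>
    exact mm_mem_detLevel.mpr
      ⟨by linear_combination hdet + (-(((i : ℕ) : ℤ) * ℓ * C)) * ht, hC.mul_left _⟩

theorem sum_eigMat {F : Type*} [AddCommMonoid F] (c : Mat → F) (a b C d t : ℤ) :
    ∑ i, c (eigMat ℓ a b C d t i) = c (mm a ((ℓ : ℤ) ^ 2 * b) C d) +
      ∑ i : Fin ℓ, c (mm (a + (i : ℕ) * ℓ * C) (b - (i : ℕ) * t - (i : ℕ) ^ 2 * C)
        ((ℓ : ℤ) ^ 2 * C) (d - (i : ℕ) * ℓ * C)) := by
  rw [Fintype.sum_option]
  rfl

/-- Conjugation by the Atkin–Lehner matrix is `diag (q, 1)` followed by an inner automorphism. -/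
theorem exists_conj_wMat (hq : q.Prime) (hqN : ¬ q ∣ N) {a b C d : ℤ}
    (hζ : mm a (q * b) C d ∈ Lvl N) :
    mm a b (q * C) d ∈ Lvl (N * q) ∧ ∃ γ ∈ Lvl (N * q),
      γ * wMat N q = wMat N q * mm a b (q * C) d ∧
      ∀ {F : Type} [AddCommGroup F] (c : Mat → F), IsHomOn N c →
        c γ = c (mm a (q * b) C d) := by
  obtain ⟨hdet, k, hk⟩ := mm_mem_detLevel.mp hζ
  have hmem : mm a b (q * C) d ∈ Lvl (N * q) :=
    mm_mem_detLevel.mpr ⟨by linear_combination hdet, k, by rw [hk]; push_cast; ring⟩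
  obtain ⟨γ, hγ, e⟩ := (normalises_wMat hq hqN).left 1 _ hmem
  refine ⟨hmem, γ, hγ, e.symm, fun c hc => ?_⟩
  set g := mm 1 (alB N q) N (q * alD N q) with hg
  have hgm : g ∈ Lvl N := mm_mem_detLevel.mpr ⟨by linear_combination al_spec hq hqN, dvd_rfl⟩
  have hd : (mm (q : ℤ) 0 0 1).det ≠ 0 := by simp [hq.ne_zero]
  have hW : wMat N q = g * mm (q : ℤ) 0 0 1 := by
    simp only [wMat, hg, mm_mul, mm_inj]
    push_cast
    refine ⟨?_, ?_, ?_, ?_⟩ <;> ring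
  have hD : mm (q : ℤ) 0 0 1 * mm a b (q * C) d = mm a (q * b) C d * mm (q : ℤ) 0 0 1 := by
    simp only [mm_mul, mm_inj]
    refine ⟨?_, ?_, ?_, ?_⟩ <;> ring
  rw [hW, mul_assoc, hD, ← mul_assoc, ← mul_assoc] at e
  have e' : γ * g = g * mm a (q * b) C d := (mat_cancel_right hd e).symm
  rw [show γ = g * mm a (q * b) C d * g.adjugate by
    rw [← e', mul_assoc, mul_adjugate_lvl hgm, mul_one]]
  exact hc.conj hζ hgm

end Fermat.Agent.LevelRaising
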