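import Mathlib.LinearAlgebra.FreeModule.PID
import Mathlib.RingTheory.Finiteness.Basic
import Mathlib.RingTheory.Noetherian.Basic
import Mathlib.LinearAlgebra.Basis.VectorSpace
import Mathlib.Algebra.Module.ZMod
import Fermat.Agent.LevelRaising.Spanning

/-!
# The lattice of integral symbols and its reduction modulo `p`
-/

set_option autoImplicit false

noncomputable section

namespace Fermat.Agent.LevelRaising

variable {N : ℕ} {A B : Type*} [AddCommGroup A] [AddCommGroup B]

/-- Reduction modulo `p` of integer valued functions. -/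
def redFun (p : ℕ) : (Vec → ℤ) →ₗ[ℤ] (Vec → ZMod p) :=
  LinearMap.compLeft (Int.castAddHom (ZMod p)).toIntLinearMap Vec

theorem redFun_apply (p : ℕ) (G : Vec → ℤ) (v : Vec) : redFun p G v = (G v : ZMod p) := rfl

theorem isSym_redFun (p : ℕ) {G : Vec → ℤ} (hG : IsSym N G) : IsSym N (redFun p G) :=
  hG.map (Int.castAddHom (ZMod p))

theorem op_redFun {ι : Type*} [Fintype ι] (p : ℕ) (β : ι → Mat) (G : Vec → ℤ) :
    op β (redFun p G) = redFun p (op β G) :=
  op_map β (Int.castAddHom (ZMod p)) G

/-- The edge coordinates of a symbol. -/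
def edgeCoord (N : ℕ) (R : Type*) [CommRing R] [Module R A] :
    (Vec → A) →ₗ[R] (EdgeIdx N → A) where
  toFun G j := edgeVal G (edgeRep j)
  map_add' G G' := by funext j; simp only [edgeVal, Pi.add_apply]; abel
  map_smul' c G := by funext j; simp [edgeVal, smul_sub]

theorem eq_of_edgeCoord [NeZero N] (R : Type*) [CommRing R] [Module R A] {G G' : Vec → A}
    (hG : IsSym N G) (hG' : IsSym N G') (h : edgeCoord N R G = edgeCoord N R G') : G = G' := by
  have hs : IsSym N (G - G') := (symModule N R A).sub_mem hG hG'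
  refine sub_eq_zero.mp (eq_zero_of_edgeVal hs fun j => ?_)
  have := congrFun h j
  simp only [edgeCoord, LinearMap.coe_mk, AddHom.coe_mk] at this
  simp only [edgeVal, Pi.sub_apply] at this ⊢
  linear_combination (norm := abel) this

/-- Integral symbols. -/
abbrev symLattice (N : ℕ) : Submodule ℤ (Vec → ℤ) := symModule N ℤ ℤ

instance symLattice_finite [NeZero N] : Module.Finite ℤ (symLattice N) :=
  Module.Finite.of_injective ((edgeCoord N ℤ).comp (symLattice N).subtype) fun a b h =>
    Subtype.ext (eq_of_edgeCoord ℤ a.2 b.2 h)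



/-- Reductions modulo `p` of integral symbols. -/
def redSym (N p : ℕ) : Submodule (ZMod p) (Vec → ZMod p) :=
  AddSubgroup.toZModSubmodule p (((symLattice N).map (redFun p)).toAddSubgroup)

theorem mem_redSym {p : ℕ} {g : Vec → ZMod p} :
    g ∈ redSym N p ↔ ∃ G, IsSym N G ∧ redFun p G = g := by
  simp [redSym, AddSubgroup.mem_toZModSubmodule, Submodule.mem_map, mem_symModule]

theorem redFun_mem_redSym (p : ℕ) {G : Vec → ℤ} (hG : IsSym N G) : redFun p G ∈ redSym N p :=
  mem_redSym.mpr ⟨G, hG, rfl⟩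

theorem isSym_of_mem_redSym {p : ℕ} {g : Vec → ZMod p} (hg : g ∈ redSym N p) : IsSym N g := by
  obtain ⟨G, hG, rfl⟩ := mem_redSym.mp hg
  exact isSym_redFun p hG

instance redSym_finite [NeZero N] (p : ℕ) [Fact p.Prime] :
    Module.Finite (ZMod p) (redSym N p) :=
  Module.Finite.of_injective ((edgeCoord N (ZMod p)).comp (redSym N p).subtype) fun a b h =>
    Subtype.ext (eq_of_edgeCoord (ZMod p) (isSym_of_mem_redSym a.2) (isSym_of_mem_redSym b.2) h)

/-- A symbol killed by reduction is `p` times a symbol. -/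
theorem exists_eq_smul_of_redFun_eq_zero {p : ℕ} (hp : p ≠ 0) {G : Vec → ℤ} (hG : IsSym N G)
    (h : redFun p G = 0) : ∃ G', IsSym N G' ∧ G = (p : ℤ) • G' := by
  have hdvd : ∀ v, (p : ℤ) ∣ G v := fun v =>
    (ZMod.intCast_zmod_eq_zero_iff_dvd _ _).mp (congrFun h v)
  choose G' hG' using hdvd
  have hp' : (p : ℤ) ≠ 0 := by exact_mod_cast hp
  refine ⟨G', ⟨?_, fun k hk v => ?_, fun γ hγ v hv => ?_⟩, funext fun v => by simp [hG' v]⟩
  · exact mul_left_cancel₀ hp' (by rw [← hG', mul_zero, hG.zero])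
  · exact mul_left_cancel₀ hp' (by rw [← hG', ← hG', hG.homog k hk])
  · exact mul_left_cancel₀ hp' (by rw [mul_add, ← hG', ← hG', ← hG', hG.equiv γ hγ v hv])

/-- Every functional on reductions of symbols is given by weights on the edges. -/
theorem exists_weights [NeZero N] (p : ℕ) [Fact p.Prime] (φ : redSym N p →ₗ[ZMod p] ZMod p) :
    ∃ w : EdgeIdx N → ZMod p, ∀ G (hG : IsSym N G),
      φ ⟨redFun p G, redFun_mem_redSym p hG⟩ =
        ∑ j, w j * ((edgeVal G (edgeRep j) : ℤ) : ZMod p) := by
  classical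
  set e := (edgeCoord N (ZMod p)).comp (redSym N p).subtype
  have he : LinearMap.ker e = ⊥ := LinearMap.ker_eq_bot.mpr fun a b h =>
    Subtype.ext (eq_of_edgeCoord (ZMod p) (isSym_of_mem_redSym a.2) (isSym_of_mem_redSym b.2) h)
  obtain ⟨r, hr⟩ := LinearMap.exists_leftInverse_of_injective e he
  refine ⟨fun j => φ (r (Pi.single j 1)), fun G hG => ?_⟩
  have h1 : φ ⟨redFun p G, redFun_mem_redSym p hG⟩ =
      (φ.comp r) (e ⟨redFun p G, redFun_mem_redSym p hG⟩) := by
    rw [LinearMap.comp_apply, ← LinearMap.comp_apply r e, hr, LinearMap.id_apply]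
  rw [h1, LinearMap.pi_apply_eq_sum_univ (φ.comp r)]
  refine Finset.sum_congr rfl fun j _ => ?_
  simp only [e, LinearMap.comp_apply, Submodule.subtype_apply, edgeCoord, LinearMap.coe_mk,
    AddHom.coe_mk, edgeVal, redFun_apply, smul_eq_mul]
  rw [mul_comm, show (fun i => if j = i then (1 : ZMod p) else 0) = Pi.single j 1 from by
    funext i; simp [Pi.single_apply, eq_comm]]
  push_cast
  ring

end Fermat.Agent.LevelRaising
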