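import Fermat.Agent.LevelRaising.Operators
import Fermat.Agent.LevelRaising.Lattice
import Fermat.Agent.LevelRaising.LiftLemmas

/-!
# Operators on lattices of symbols and on their reductions; mod `p` eigen symbols
-/

set_option autoImplicit false

noncomputable section

namespace Fermat.Agent.LevelRaising

variable {N M p : ℕ} {ι : Type*} [Fintype ι]

/-- An operator between lattices of symbols. -/
def latMap (β : ι → Mat) (h : ∀ G : Vec → ℤ, IsSym N G → IsSym M (op β G)) :
    symLattice N →ₗ[ℤ] symLattice M :=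
  (opLin ℤ β).restrict h

@[simp] theorem latMap_coe (β : ι → Mat) (h : ∀ G : Vec → ℤ, IsSym N G → IsSym M (op β G))
    (x : symLattice N) : (latMap β h x : Vec → ℤ) = op β (x : Vec → ℤ) := rfl

/-- An operator between reductions of symbols. -/
def redMap (p : ℕ) (β : ι → Mat) (h : ∀ G : Vec → ℤ, IsSym N G → IsSym M (op β G)) :
    redSym N p →ₗ[ZMod p] redSym M p :=
  (opLin (ZMod p) β).restrict fun g hg => by
    obtain ⟨G, hG, rfl⟩ := mem_redSym.mp hg
    rw [opLin_apply, op_redFun]
    exact redFun_mem_redSym p (h G hG)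

@[simp] theorem redMap_coe (β : ι → Mat) (h : ∀ G : Vec → ℤ, IsSym N G → IsSym M (op β G))
    (x : redSym N p) : (redMap p β h x : Vec → ZMod p) = op β (x : Vec → ZMod p) := rfl

/-- Reduction as an additive map. -/
def redHom (N p : ℕ) : symLattice N →+ redSym N p where
  toFun x := ⟨redFun p x.1, redFun_mem_redSym p x.2⟩
  map_zero' := Subtype.ext (map_zero (redFun p))
  map_add' x y := Subtype.ext (map_add (redFun p) x.1 y.1)

@[simp] theorem redHom_coe (x : symLattice N) :
    (redHom N p x : Vec → ZMod p) = redFun p x.1 := rfl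

theorem redHom_surjective : Function.Surjective (redHom N p) := by
  rintro ⟨g, hg⟩
  obtain ⟨G, hG, rfl⟩ := mem_redSym.mp hg
  exact ⟨⟨G, hG⟩, rfl⟩

theorem redHom_smul (c : ℤ) (x : symLattice N) : redHom N p (c • x) = (c : ZMod p) • redHom N p x := by
  rw [map_zsmul]
  exact (Int.cast_smul_eq_zsmul (ZMod p) c _).symm

theorem redHom_latMap (β : ι → Mat) (h : ∀ G : Vec → ℤ, IsSym N G → IsSym M (op β G))
    (x : symLattice N) : redHom M p (latMap β h x) = redMap p β h (redHom N p x) :=
  Subtype.ext (op_redFun p β x.1).symm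

/-- `T_r` on the lattice of symbols. -/
abbrev latT {r : ℕ} (hr : r.Prime) (hrN : ¬ r ∣ N) : Module.End ℤ (symLattice N) :=
  latMap (heckMat r) fun _ hG => isSym_hT hr hrN hG

/-- `T_r` on reductions of symbols. -/
abbrev redT (p : ℕ) {r : ℕ} (hr : r.Prime) (hrN : ¬ r ∣ N) : Module.End (ZMod p) (redSym N p) :=
  redMap p (heckMat r) fun _ hG => isSym_hT hr hrN hG

theorem commute_latT {r s : ℕ} (hr : r.Prime) (hrN : ¬ r ∣ N) (hs : s.Prime) (hsN : ¬ s ∣ N) :
    Commute (latT hr hrN) (latT hs hsN) :=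
  LinearMap.ext fun x => Subtype.ext (hT_comm hr hrN hs hsN x.2)

theorem commute_redT {r s : ℕ} (hr : r.Prime) (hrN : ¬ r ∣ N) (hs : s.Prime) (hsN : ¬ s ∣ N) :
    Commute (redT p hr hrN) (redT p hs hsN) :=
  LinearMap.ext fun x => Subtype.ext (hT_comm hr hrN hs hsN (isSym_of_mem_redSym x.2))

/-- A complex eigen symbol with integral eigenvalues gives a mod `p` eigen symbol. -/
theorem exists_redSym_eigen [NeZero N] [Fact p.Prime] {S : Set ℕ}
    (hS : ∀ r ∈ S, r.Prime ∧ ¬ r ∣ N) {G0 : Vec → ℂ} (hG0 : IsSym N G0) (h0 : G0 ≠ 0)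
    (𝔪 : Ideal (integralClosure ℤ ℂ)) (h𝔪 : 𝔪.IsPrime) (hp : (p : integralClosure ℤ ℂ) ∈ 𝔪)
    (a : ℕ → ℤ)
    (hG : ∀ r ∈ S, ∃ c : integralClosure ℤ ℂ, hT r G0 = (c : ℂ) • G0 ∧
      c - (a r : integralClosure ℤ ℂ) ∈ 𝔪) :
    ∃ x0 : Vec → ℤ, IsSym N x0 ∧ redFun p x0 ≠ 0 ∧
      ∀ r ∈ S, hT r (redFun p x0) = (a r : ZMod p) • redFun p x0 := by
  classical
  set T : S → Module.End (ZMod p) (redSym N p) := fun r => redT p (hS r r.2).1 (hS r r.2).2 with hTdef
  rcases exists_eigen_or_annihilator T (fun r s => commute_redT _ _ _ _)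
    (fun r : S => (a r : ZMod p)) with ⟨v, hv0, hv⟩ | ⟨l, hl, hl0⟩
  · obtain ⟨x, rfl⟩ := redHom_surjective v
    exact ⟨x.1, x.2, fun h => hv0 (Subtype.ext h), fun r hr => congrArg Subtype.val (hv ⟨r, hr⟩)⟩
  exfalso
  obtain ⟨L, rfl⟩ := exists_listMap_eq (Int.castRingHom (ZMod p)) ZMod.intCast_surjective l
  set P := listOp (fun r : S => latT (hS r r.2).1 (hS r r.2).2) L
  have hP : ∀ G : symLattice N, ∃ G', IsSym N G' ∧ ((P G : Vec → ℤ)) = (p : ℤ) • G' := fun G => by
    refine exists_eq_smul_of_redFun_eq_zero (NeZero.ne p) (P G).2 ?_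
    have h := listOp_semilinear (Int.castRingHom (ZMod p)) (S := T) (redHom N p)
      (fun c x => redHom_smul c x) (fun r x => redHom_latMap _ _ x) L G
    rw [hl0] at h
    exact congrArg Subtype.val h
  -- the lattice of periods
  set e : EdgeIdx N → ℂ := fun j => edgeVal G0 (edgeRep j) with he
  set Λ := Submodule.span ℤ (Set.range e) with hΛ
  have : Module.Finite ℤ Λ := Module.Finite.iff_fg.mpr (Submodule.fg_span (Set.finite_range e))
  have : Module.Free ℤ Λ := Module.free_of_finite_type_torsion_free'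
  have hmem : ∀ v, G0 v ∈ Λ := by
    intro v
    rw [← Submodule.Quotient.mk_eq_zero]
    have h := eq_zero_of_edgeVal (hG0.map Λ.mkQ.toAddMonoidHom) fun j => by
      simp only [edgeVal, Function.comp_apply]
      rw [← map_sub]
      exact (Submodule.Quotient.mk_eq_zero Λ).mpr (Submodule.subset_span ⟨j, rfl⟩)
    exact congrFun h v
  set GV : Vec → Λ := fun v => ⟨G0 v, hmem v⟩ with hGL
  have hGVsym : IsSym N GV :=
    ⟨Subtype.ext hG0.zero, fun k hk v => Subtype.ext (hG0.homog k hk v),
      fun γ hγ v hv => Subtype.ext (hG0.equiv γ hγ v hv)⟩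
  set b := Module.Free.chooseBasis ℤ Λ
  set Gk : Module.Free.ChooseBasisIndex ℤ Λ → symLattice N :=
    fun k => ⟨(b.coord k).toAddMonoidHom ∘ GV, hGVsym.map _⟩
  let φ : symLattice N →+ (Vec → ℂ) :=
    { toFun := fun G v => ((G.1 v : ℤ) : ℂ)
      map_zero' := by funext v; simp
      map_add' := fun x y => by funext v; simp }
  have hsum : G0 = ∑ k, (b k : ℂ) • φ (Gk k) := by
    funext v
    have h := congrArg Subtype.val (b.sum_repr (GV v))
    simp only [AddSubmonoidClass.coe_finsetSum, SetLike.val_smul, zsmul_eq_mul] at h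
    simp only [Finset.sum_apply, Pi.smul_apply, smul_eq_mul]
    refine h.symm.trans (Finset.sum_congr rfl fun k _ => ?_)
    simp [φ, Gk, GV, mul_comm]
  choose c hc hca using fun r : S => hG r r.2
  set C : ℂ := listVal (fun r : S => (c r : ℂ)) (listMap (Int.castRingHom ℂ) L) with hC
  have hop : ∀ G, listOp (fun r : S => opLin ℂ (A := ℂ) (heckMat (r : ℕ)))
      (listMap (Int.castRingHom ℂ) L) (φ G) = φ (P G) := fun G =>
    (listOp_semilinear (Int.castRingHom ℂ) (S := fun r : S => opLin ℂ (A := ℂ) (heckMat (r : ℕ))) φ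
      (fun n x => by funext v; simp [φ])
      (fun r x => by
        change (fun v => (((op (heckMat (r : ℕ)) x.1) v : ℤ) : ℂ)) =
          op (heckMat (r : ℕ)) (Int.castAddHom ℂ ∘ x.1)
        rw [op_map]; rfl) L G).symm
  choose G' hG' hPG using fun k => hP (Gk k)
  have hscale : C • G0 = (p : ℂ) • ∑ k, (b k : ℂ) • (fun v => ((G' k v : ℤ) : ℂ)) := by
    have h1 : listOp (fun r : S => opLin ℂ (A := ℂ) (heckMat (r : ℕ)))
        (listMap (Int.castRingHom ℂ) L) G0 = C • G0 :=
      listOp_eigen (fun r => hc r) _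
    rw [← h1]
    conv_lhs => rw [hsum]
    rw [map_sum, Finset.smul_sum]
    refine Finset.sum_congr rfl fun k _ => ?_
    rw [map_smul, hop, smul_comm]
    congr 1
    funext v
    simp [φ, hPG k]
  have hp0 : (p : ℂ) ≠ 0 := Nat.cast_ne_zero.mpr (NeZero.ne p)
  have hint : IsIntegral ℤ (C / p) := by
    refine isIntegral_of_smul_mem_submodule Λ (fun hbot => ?_) (Submodule.fg_span (Set.finite_range e))
      _ fun n hn => ?_
    · refine h0 (funext fun v => ?_)
      have := hmem v
      rwa [hbot, Submodule.mem_bot] at this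
    · induction hn using Submodule.span_induction with
      | mem x hx =>
        obtain ⟨j, rfl⟩ := hx
        have key : C / p * e j = ∑ k, (b k : ℂ) * ((edgeVal (G' k) (edgeRep j) : ℤ) : ℂ) := by
          rw [div_mul_eq_mul_div, div_eq_iff hp0]
          have h1 := congrFun hscale (act (edgeRep j) (0, 1))
          have h2 := congrFun hscale (act (edgeRep j) vE)
          simp only [Pi.smul_apply, Finset.sum_apply, smul_eq_mul] at h1 h2
          simp only [he, edgeVal, Int.cast_sub, mul_sub, Finset.sum_sub_distrib]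
          rw [h1, h2, sub_mul, mul_comm _ (p : ℂ), mul_comm _ (p : ℂ)]
        rw [smul_eq_mul, key]
        refine Submodule.sum_mem _ fun k _ => ?_
        rw [mul_comm, ← zsmul_eq_mul]
        exact Submodule.smul_mem _ _ (b k).2
      | zero => simp
      | add x y _ _ hx hy => rw [smul_add]; exact Submodule.add_mem _ hx hy
      | smul z x _ hx => rw [smul_comm]; exact Submodule.smul_mem _ z hx
  -- the value is in `𝔪`, hence the integer value is divisible by `p`
  set CI : integralClosure ℤ ℂ := listVal c (listMap (Int.castRingHom _) L) with hCI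
  have hCval : ((CI : integralClosure ℤ ℂ) : ℂ) = C := by
    rw [hCI, hC, show ((listVal c (listMap (Int.castRingHom _) L) : integralClosure ℤ ℂ) : ℂ) =
      (integralClosure ℤ ℂ).val.toRingHom (listVal c (listMap (Int.castRingHom _) L)) from rfl,
      map_listVal]
    simp only [listMap, List.map_map]
    congr 1
    refine List.map_congr_left fun x _ => ?_
    simp only [Function.comp_apply, Polynomial.map_map]
    rw [Subsingleton.elim (RingHom.comp _ (Int.castRingHom _)) (Int.castRingHom ℂ)]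
  have hCm : CI ∈ 𝔪 := by
    have hmul : CI = (p : integralClosure ℤ ℂ) * ⟨C / p, hint⟩ :=
      Subtype.ext (by push_cast; rw [hCval, mul_div_cancel₀ _ hp0])
    rw [hmul]
    exact 𝔪.mul_mem_right _ hp
  set n : ℤ := listVal (fun r : S => a r) L
  have hn : (Int.castRingHom (ZMod p)) n ≠ 0 := by
    rw [map_listVal]; exact hl
  have hnm : (n : integralClosure ℤ ℂ) ∈ 𝔪 := by
    have e1 := map_listVal (Ideal.Quotient.mk 𝔪) c (listMap (Int.castRingHom _) L)
    have e2 := map_listVal ((Ideal.Quotient.mk 𝔪).comp (Int.castRingHom _)) (fun r : S => a r) L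
    rw [← hCI, Ideal.Quotient.eq_zero_iff_mem.mpr hCm] at e1
    rw [← Ideal.Quotient.eq_zero_iff_mem]
    refine e2.trans ?_
    rw [e1]
    simp only [listMap, List.map_map]
    congr 1
    · funext r
      simp only [Function.comp_apply, eq_intCast]
      exact (Ideal.Quotient.eq.mpr (hca r)).symm
    · refine List.map_congr_left fun x _ => ?_
      simp [Polynomial.map_map]
  obtain ⟨u, v, huv⟩ := ((Nat.prime_iff_prime_int.mp (Fact.out : p.Prime)).coprime_iff_not_dvd.mpr
    (fun hd => hn ((ZMod.intCast_zmod_eq_zero_iff_dvd n p).mpr hd)))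
  refine h𝔪.ne_top ((Ideal.eq_top_iff_one _).mpr ?_)
  have h1 := 𝔪.add_mem (𝔪.mul_mem_left (u : integralClosure ℤ ℂ) hp)
    (𝔪.mul_mem_left (v : integralClosure ℤ ℂ) hnm)
  rwa [← Int.cast_natCast, ← Int.cast_mul, ← Int.cast_mul, ← Int.cast_add, huv, Int.cast_one] at h1

end Fermat.Agent.LevelRaising
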