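import Fermat.Agent.LevelRaising.Ihara
import Fermat.Agent.LevelRaising.Intersection
import Fermat.Agent.LevelRaising.RedMaps
import Fermat.Agent.LevelRaising.Conjugation
import Mathlib.LinearAlgebra.Dual.Lemmas

/-!
# The cokernel of the two traces

Modulo `p` the two traces from level `N q` to level `N` are surjective after localising at a
non-Eisenstein system of eigenvalues.
-/

set_option autoImplicit false

noncomputable section

namespace Fermat.Agent.LevelRaising

open Polynomial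

variable {N p q : ℕ}

theorem hTr_hAct_hT {A : Type*} [AddCommGroup A] (hq : q.Prime) (hqN : ¬ q ∣ N) {s : ℕ}
    (hs : s.Prime) (hsN : ¬ s ∣ N * q) {G : Vec → A} (hG : IsSym (N * q) G) :
    hTr N q (hAct (wMat N q) (hT s G)) = hT s (hTr N q (hAct (wMat N q) G)) := by
  rw [hAct_hT (normalises_wMat hq hqN) hs hsN hG,
    hTr_hT hq hqN hs hsN (isSym_hAct (normalises_wMat hq hqN) hG)]

/-- The two traces on lattices. -/
def iota (hq : q.Prime) (hqN : ¬ q ∣ N) :
    symLattice (N * q) →ₗ[ℤ] symLattice N × symLattice N :=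
  (latMap (traceMat N q) fun _ hG => isSym_hTr hq hqN hG).prod
    ((latMap (traceMat N q) fun _ hG => isSym_hTr hq hqN hG).comp
      (latMap (fun _ : Unit => wMat N q) fun _ hG => isSym_hAct (normalises_wMat hq hqN) hG))

/-- The two traces on reductions. -/
def iotaRed (p : ℕ) (hq : q.Prime) (hqN : ¬ q ∣ N) :
    redSym (N * q) p →ₗ[ZMod p] redSym N p × redSym N p :=
  (redMap p (traceMat N q) fun _ hG => isSym_hTr hq hqN hG).prod
    ((redMap p (traceMat N q) fun _ hG => isSym_hTr hq hqN hG).comp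
      (redMap p (fun _ : Unit => wMat N q) fun _ hG => isSym_hAct (normalises_wMat hq hqN) hG))

/-- Reduction on pairs. -/
def redPair (N p : ℕ) : symLattice N × symLattice N →+ redSym N p × redSym N p :=
  (redHom N p).prodMap (redHom N p)

theorem redPair_iota (hq : q.Prime) (hqN : ¬ q ∣ N) (x : symLattice (N * q)) :
    redPair N p (iota hq hqN x) = iotaRed p hq hqN (redHom (N * q) p x) :=
  Prod.ext (Subtype.ext (op_redFun p _ _).symm) (Subtype.ext (by
    change redFun p (op (traceMat N q) (op (fun _ : Unit => wMat N q) x.1)) = _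
    rw [← op_redFun, ← op_redFun]
    rfl))

theorem isHomOn_of_inter {F : Type*} [AddCommGroup F] {c : Mat → F} (f : symLattice N →+ F)
    (hc : ∀ γ (hγ : γ ∈ Lvl N), c γ = f ⟨inter N γ, isSym_inter hγ⟩) : IsHomOn N c := by
  intro γ hγ δ hδ
  rw [hc _ (lvl_mul hγ hδ), hc _ hγ, hc _ hδ, ← map_add]
  exact congrArg f (Subtype.ext (funext fun v => inter_mul hγ hδ v))

theorem eq_zero_of_inter [NeZero N] [Fact p.Prime] (hp2 : p ≠ 2) (φ : redSym N p →ₗ[ZMod p] ZMod p)
    (h : ∀ γ (hγ : γ ∈ Lvl N), φ (redHom N p ⟨inter N γ, isSym_inter hγ⟩) = 0) : φ = 0 := by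
  obtain ⟨w, hw⟩ := exists_weights p φ
  refine LinearMap.ext fun g => ?_
  obtain ⟨⟨G, hG⟩, rfl⟩ := redHom_surjective g
  exact (hw G hG).trans (pairing_eq_zero hp2 w (fun γ hγ => (hw _ (isSym_inter hγ)).symm.trans
    (h γ hγ)) hG)

/-- The data used to localise at a non-Eisenstein system of eigenvalues. -/
structure Auxiliary (N p q : ℕ) (R : Set ℕ) (a : ℕ → ℤ) (ℓ : ℕ) : Prop where
  hp2 : p ≠ 2
  hq : q.Prime
  hqN : ¬ q ∣ N
  hR : ∀ r ∈ R, r.Prime ∧ ¬ r ∣ N * q
  mem : ℓ ∈ R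
  hℓN : N < ℓ
  hℓp : ℓ ≠ p
  hℓ2 : ℓ ≠ 2
  ha : (a ℓ : ZMod p) ^ 2 ≠ ((ℓ : ZMod p) + 1) ^ 2

namespace Auxiliary

variable {R : Set ℕ} {a : ℕ → ℤ} {ℓ : ℕ} (h : Auxiliary N p q R a ℓ)
include h

theorem prime_of_mem {r : ℕ} (hr : r ∈ R) : r.Prime := (h.hR r hr).1

theorem not_dvd_of_mem {r : ℕ} (hr : r ∈ R) : ¬ r ∣ N := fun hd => (h.hR r hr).2 (hd.mul_right q)

/-- Ihara's lemma for a homomorphism with the `q`-relation and the eigenvalue relation at `ℓ`. -/
theorem ihara_eq_zero [NeZero N] [Fact p.Prime] {c : Mat → ZMod p} (hom : IsHomOn N c)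
    (rel : ∃ c' : Mat → ZMod p, IsHomOn N c' ∧ ∀ a b C d : ℤ, mm a (q * b) C d ∈ Lvl N →
      c (mm a b (q * C) d) = c' (mm a (q * b) C d))
    (eig : ∀ γ ∈ Lvl N, ∀ γ' : Option (Fin ℓ) → Mat, (∀ i, γ' i ∈ Lvl N) →
      (∀ i, heckMat ℓ i * γ = γ' i * heckMat ℓ i) → (a ℓ : ZMod p) * c γ = ∑ i, c (γ' i))
    {γ : Mat} (hγ : γ ∈ Lvl N) : c γ = 0 := by
  have hℓ := h.prime_of_mem h.mem
  refine IharaHyp.eq_zero (p := p) (q := q) (ℓ := ℓ) (A := (a ℓ : ZMod p))
    ⟨Fact.out, h.hq, h.hqN, hℓ, h.hℓN, h.hℓp,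
      fun e => (h.hR ℓ h.mem).2 (e ▸ dvd_mul_left q N), h.hℓ2, NeZero.pos N, hom,
      translate_of_rel h.hq h.hqN rel,
      fun x b C d t hm ht => ?_, h.ha⟩ hγ
  rw [eig _ hm _ (eigMat_mem hℓ (h.not_dvd_of_mem h.mem) hm ht) (heckMat_mul_eq_eigMat ht)]
  exact sum_eigMat c x b C d t

/-- Some product of polynomials in the `T_r`, a unit at `a`, maps all pairs of symbols into the
image of the two traces modulo `p`. -/
theorem exists_annihilator [NeZero N] [Fact p.Prime] :
    ∃ L : List (R × ℤ[X]), ((listVal (fun r : R => a r) L : ℤ) : ZMod p) ≠ 0 ∧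
      ∀ b : symLattice N × symLattice N, ∃ (x : symLattice (N * q))
        (b' : symLattice N × symLattice N),
        listOp (fun r : R => (latT (h.prime_of_mem r.2) (h.not_dvd_of_mem r.2)).prodMap
            (latT (h.prime_of_mem r.2) (h.not_dvd_of_mem r.2))) L b =
          iota h.hq h.hqN x + (p : ℤ) • b' := by
  classical
  set i := iotaRed p h.hq h.hqN
  set T : R → Module.End (ZMod p) (redSym N p × redSym N p) := fun r =>
    (redT p (h.prime_of_mem r.2) (h.not_dvd_of_mem r.2)).prodMap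
      (redT p (h.prime_of_mem r.2) (h.not_dvd_of_mem r.2)) with hT
  set W := (LinearMap.range i).dualAnnihilator with hW
  have hrange : ∀ (r : R), ∀ y ∈ LinearMap.range i, T r y ∈ LinearMap.range i := by
    rintro r _ ⟨x, rfl⟩
    obtain ⟨hr, hrNq⟩ := h.hR r r.2
    refine ⟨redT p hr hrNq x, Prod.ext (Subtype.ext ?_) (Subtype.ext ?_)⟩
    · exact hTr_hT h.hq h.hqN hr hrNq (isSym_of_mem_redSym x.2)
    · exact hTr_hAct_hT h.hq h.hqN hr hrNq (isSym_of_mem_redSym x.2)
  set D : R → Module.End (ZMod p) W := fun r => (T r).dualMap.restrict (fun φ hφ => by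
    rw [Submodule.mem_dualAnnihilator] at hφ ⊢
    exact fun y hy => hφ _ (hrange r y hy)) with hD
  have hTcomm : ∀ r s : R, Commute (T r) (T s) := fun r s => by
    refine LinearMap.ext fun y => ?_
    simp only [hT, Module.End.mul_apply, LinearMap.prodMap_apply]
    refine Prod.ext ?_ ?_ <;>
      exact LinearMap.congr_fun (commute_redT _ _ _ _).eq _
  rcases exists_eigen_or_annihilator D (fun r s => LinearMap.ext fun φ => Subtype.ext
    (LinearMap.ext fun y => congrArg (φ : Module.Dual (ZMod p) _)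
      (LinearMap.congr_fun (hTcomm s r).eq y))) (fun r : R => (a r : ZMod p)) with
    ⟨⟨Λ, hΛ⟩, hΛ0, hΛe⟩ | ⟨l, hl, hl0⟩
  · exfalso
    rw [Submodule.mem_dualAnnihilator] at hΛ
    set φ1 := Λ.comp (LinearMap.inl (ZMod p) _ _)
    set φ2 := Λ.comp (LinearMap.inr (ZMod p) _ _)
    have heig1 : ∀ (r : R) x,
        φ1 (redT p (h.prime_of_mem r.2) (h.not_dvd_of_mem r.2) x) = (a r : ZMod p) * φ1 x :=
      fun r x => by
        have := LinearMap.congr_fun (congrArg Subtype.val (hΛe r)) (x, 0)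
        simpa [hD, hT, φ1] using this
    have heig2 : ∀ (r : R) x,
        φ2 (redT p (h.prime_of_mem r.2) (h.not_dvd_of_mem r.2) x) = (a r : ZMod p) * φ2 x :=
      fun r x => by
        have := LinearMap.congr_fun (congrArg Subtype.val (hΛe r)) (0, x)
        simpa [hD, hT, φ2] using this
    let cf : (redSym N p →ₗ[ZMod p] ZMod p) → Mat → ZMod p := fun φ γ =>
      if hγ : γ ∈ Lvl N then φ (redHom N p ⟨inter N γ, isSym_inter hγ⟩) else 0
    have hcf : ∀ φ γ (hγ : γ ∈ Lvl N),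
        cf φ γ = φ (redHom N p ⟨inter N γ, isSym_inter hγ⟩) := fun φ γ hγ => dif_pos hγ
    have hom : ∀ φ, IsHomOn N (cf φ) := fun φ =>
      isHomOn_of_inter (φ.toAddMonoidHom.comp (redHom N p)) (hcf φ)
    have heig : ∀ φ : redSym N p →ₗ[ZMod p] ZMod p, (∀ x,
          φ (redT p (h.prime_of_mem h.mem) (h.not_dvd_of_mem h.mem) x) = (a ℓ : ZMod p) * φ x) →
        ∀ γ ∈ Lvl N, ∀ γ' : Option (Fin ℓ) → Mat, (∀ i, γ' i ∈ Lvl N) →
          (∀ i, heckMat ℓ i * γ = γ' i * heckMat ℓ i) →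
          (a ℓ : ZMod p) * cf φ γ = ∑ i, cf φ (γ' i) := by
      intro φ hφ γ hγ γ' hγ' hcomm
      rw [hcf φ γ hγ, ← hφ, ← redHom_latMap (N := N) (M := N) _ (fun _ hG => isSym_hT
        (h.prime_of_mem h.mem) (h.not_dvd_of_mem h.mem) hG)]
      have e : latT (h.prime_of_mem h.mem) (h.not_dvd_of_mem h.mem) ⟨inter N γ, isSym_inter hγ⟩ =
          ∑ i, (⟨inter N (γ' i), isSym_inter (hγ' i)⟩ : symLattice N) := by
        refine Subtype.ext (funext fun v => ?_)
        rw [AddSubmonoidClass.coe_finsetSum, Finset.sum_apply]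
        by_cases hv : v = 0
        · subst hv
          simp [op_zero_vec, (isSym_inter (hγ' _)).zero]
        · exact hT_inter (h.prime_of_mem h.mem) (h.not_dvd_of_mem h.mem) hγ hγ' hcomm hv
      rw [e, map_sum, map_sum]
      exact Finset.sum_congr rfl fun i _ => (hcf φ _ (hγ' i)).symm
    have hsum : ∀ γ γ', γ ∈ Lvl (N * q) → γ' ∈ Lvl (N * q) → γ * wMat N q = wMat N q * γ' →
        cf φ1 γ + cf φ2 γ' = 0 := by
      intro γ γ' hγ hγ' e
      have hγN := lvl_mono (dvd_mul_right N q) hγ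
      have hγN' := lvl_mono (dvd_mul_right N q) hγ'
      rw [hcf φ1 γ hγN, hcf φ2 γ' hγN']
      set x : symLattice (N * q) := ⟨inter (N * q) γ, isSym_inter hγ⟩
      have hx : iota h.hq h.hqN x =
          (⟨inter N γ, isSym_inter hγN⟩, ⟨inter N γ', isSym_inter hγN'⟩) := by
        refine Prod.ext (Subtype.ext (hTr_inter h.hq h.hqN hγ)) (Subtype.ext ?_)
        change hTr N q (hAct (wMat N q) (inter (N * q) γ)) = inter N γ'
        rw [hAct_inter (normalises_wMat h.hq h.hqN)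
          (by rw [det_wMat h.hq h.hqN]; exact_mod_cast h.hq.pos) hγ hγ' e,
          hTr_inter h.hq h.hqN hγ']
      have h0 := hΛ _ (LinearMap.mem_range_self i (redHom (N * q) p x))
      rw [← redPair_iota, hx] at h0
      rw [← h0]
      simp [φ1, φ2, redPair, ← map_add]
    have hrel : ∀ a b C d : ℤ, mm a (q * b) C d ∈ Lvl N →
        cf φ1 (mm a (q * b) C d) + cf φ2 (mm a b (q * C) d) = 0 := by
      intro a b C d hζ
      obtain ⟨hmem, γ, hγ, e, hc⟩ := exists_conj_wMat h.hq h.hqN hζ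
      rw [← hc _ (hom φ1)]
      exact hsum γ _ hγ hmem e
    have hc2 : ∀ γ ∈ Lvl N, cf φ2 γ = 0 := fun γ hγ =>
      h.ihara_eq_zero (hom φ2) ⟨-cf φ1, fun γ hγ δ hδ => by
        simp only [Pi.neg_apply, hom φ1 γ hγ δ hδ, neg_add], fun a b C d hζ => by
        rw [Pi.neg_apply]; exact eq_neg_of_add_eq_zero_right (hrel a b C d hζ)⟩
        (heig φ2 (heig2 ⟨ℓ, h.mem⟩)) hγ
    have hc1' : ∀ γ ∈ Lvl (N * q), cf φ1 γ = 0 := fun γ hγ => by
      obtain ⟨γ', hγ', e⟩ := (normalises_wMat h.hq h.hqN).right 1 γ hγ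
      have := hsum γ γ' hγ hγ' e
      rwa [hc2 γ' (lvl_mono (dvd_mul_right N q) hγ'), add_zero] at this
    have hc1 : ∀ γ ∈ Lvl N, cf φ1 γ = 0 := fun γ hγ =>
      h.ihara_eq_zero (hom φ1) ⟨0, fun _ _ _ _ => by simp, fun a b C d hζ =>
        hc1' _ (exists_conj_wMat h.hq h.hqN hζ).1⟩ (heig φ1 (heig1 ⟨ℓ, h.mem⟩)) hγ
    have e1 : φ1 = 0 := eq_zero_of_inter h.hp2 φ1 fun γ hγ => (hcf φ1 γ hγ).symm.trans (hc1 γ hγ)
    have e2 : φ2 = 0 := eq_zero_of_inter h.hp2 φ2 fun γ hγ => (hcf φ2 γ hγ).symm.trans (hc2 γ hγ)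
    refine hΛ0 (Subtype.ext (LinearMap.prod_ext ?_ ?_))
    · exact e1.trans (LinearMap.zero_comp _).symm
    · exact e2.trans (LinearMap.zero_comp _).symm
  · obtain ⟨L, hL⟩ := exists_listMap_eq (Int.castRingHom (ZMod p)) ZMod.intCast_surjective l.reverse
    refine ⟨L, ?_, fun b => ?_⟩
    · rw [← eq_intCast (Int.castRingHom (ZMod p)), map_listVal, hL, listVal_reverse]
      exact hl
    · have hann : ∀ φ ∈ W, φ (listOp T l.reverse (redPair N p b)) = 0 := by
        intro φ hφ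
        have h1 := listOp_sandwich (T := D) (S := fun r => ((T r).dualMap :
          Module.End (ZMod p) (Module.Dual (ZMod p) _))) W.subtype (fun r ψ => rfl) l ⟨φ, hφ⟩
        rw [hl0, LinearMap.zero_apply, map_zero, listOp_dualMap, Submodule.subtype_apply] at h1
        exact (LinearMap.congr_fun h1 (redPair N p b)).symm
      obtain ⟨g, hg⟩ := (Subspace.forall_mem_dualAnnihilator_apply_eq_zero_iff _ _).mp hann
      obtain ⟨x, rfl⟩ := redHom_surjective g
      set P := listOp (fun r : R => (latT (h.prime_of_mem r.2) (h.not_dvd_of_mem r.2)).prodMap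
        (latT (h.prime_of_mem r.2) (h.not_dvd_of_mem r.2))) L
      have hP : redPair N p (P b) = listOp T l.reverse (redPair N p b) := by
        rw [← hL]
        refine listOp_semilinear (Int.castRingHom (ZMod p)) (S := T) (redPair N p)
          (fun c y => Prod.ext (redHom_smul c y.1) (redHom_smul c y.2)) (fun r y => ?_) L b
        have hs : ∀ G : Vec → ℤ, IsSym N G → IsSym N (op (heckMat (r : ℕ)) G) :=
          fun _ hG => isSym_hT (h.prime_of_mem r.2) (h.not_dvd_of_mem r.2) hG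
        exact Prod.ext (redHom_latMap _ hs y.1) (redHom_latMap _ hs y.2)
      rw [← redPair_iota, ← hP] at hg
      have h0 : redPair N p (P b - iota h.hq h.hqN x) = 0 := by rw [map_sub, hg, sub_self]
      obtain ⟨G1, hG1, e1⟩ := exists_eq_smul_of_redFun_eq_zero (NeZero.ne p)
        (P b - iota h.hq h.hqN x).1.2 (congrArg (fun y => ((y.1 : redSym N p) : Vec → ZMod p)) h0)
      obtain ⟨G2, hG2, e2⟩ := exists_eq_smul_of_redFun_eq_zero (NeZero.ne p)
        (P b - iota h.hq h.hqN x).2.2 (congrArg (fun y => ((y.2 : redSym N p) : Vec → ZMod p)) h0)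
      refine ⟨x, (⟨G1, hG1⟩, ⟨G2, hG2⟩), ?_⟩
      rw [← sub_eq_iff_eq_add']
      exact Prod.ext (Subtype.ext e1) (Subtype.ext e2)

end Auxiliary

end Fermat.Agent.LevelRaising
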