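import Fermat.Agent.LevelRaising.CongruenceModule
import Fermat.Agent.LevelRaising.Cusps

/-!
# The eigen symbol of level `N q`

Starting from a complex eigen symbol of level `N` satisfying the congruence at `q` we produce a
complex eigen symbol of level `N q` killed by both traces, with congruent eigenvalues.
-/

set_option autoImplicit false

noncomputable section

namespace Fermat.Agent.LevelRaising

open Polynomial TensorProduct

section TensorOps

variable {K : Type*} [AddCommGroup K] [Module ℤ K] {M : ℕ} {ι : Type*} [Fintype ι]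
  {f : K →ₗ[ℤ] Vec → ℤ}

theorem tensorEval_op (β : ι → Mat) {T : Module.End ℤ K} (hf : ∀ w, f (T w) = op β (f w))
    (z : ℂ ⊗[ℤ] K) : tensorEval f (T.baseChange ℂ z) = op β (tensorEval f z) := by
  rw [← opLin_apply ℂ]
  induction z using TensorProduct.induction_on with
  | zero => simp
  | tmul c w =>
    have e : tensorEval f (c ⊗ₜ w) = c • ((Int.castAddHom ℂ) ∘ f w) := by
      rw [tensorEval_tmul]; rfl
    rw [LinearMap.baseChange_tmul, e, map_smul, opLin_apply, op_map, ← hf, tensorEval_tmul]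
    rfl
  | add y y' hy hy' => rw [map_add, map_add, hy, hy', map_add, map_add]

theorem op_tensorEval_eq_zero (β : ι → Mat) (hf : ∀ w, op β (f w) = 0) (z : ℂ ⊗[ℤ] K) :
    op β (tensorEval f z) = 0 := by
  rw [← tensorEval_op β (T := 0) (fun w => by simp [hf w]) z]
  simp

theorem isSym_tensorEval (hf : ∀ w, IsSym M (f w)) (z : ℂ ⊗[ℤ] K) :
    IsSym M (tensorEval f z) := by
  refine (mem_symModule (R := ℂ)).mp ?_
  induction z using TensorProduct.induction_on with
  | zero => simp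
  | tmul c w =>
    have e : tensorEval f (c ⊗ₜ w) = c • ((Int.castAddHom ℂ) ∘ f w) := by
      rw [tensorEval_tmul]; rfl
    rw [e]
    exact Submodule.smul_mem _ c ((hf w).map (Int.castAddHom ℂ))
  | add y y' hy hy' => rw [map_add]; exact Submodule.add_mem _ hy hy'

end TensorOps

variable {N p q : ℕ} [NeZero N] [Fact p.Prime] {R : Set ℕ} {a : ℕ → ℤ} {ℓ : ℕ}

namespace Auxiliary

variable (h : Auxiliary N p q R a ℓ)
include h

/-- The stabilised mod `p` eigen symbol is not zero. -/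
theorem sub_hAct_ne_zero {ℓ' : ℕ} (hℓ'R : ℓ' ∈ R) (hℓ'N : (N : ℤ) ∣ (ℓ' : ℤ) - 1)
    (ha' : (a ℓ' : ZMod p) ≠ (ℓ' : ZMod p) + 1) {x : Vec → ZMod p} (hx : IsSym N x) (hx0 : x ≠ 0)
    (hev : ∀ r ∈ R, hT r x = (a r : ZMod p) • x) {ε : ZMod p} (hε : ε * ε = 1) :
    x - ε • hAct (wMat N q) x ≠ 0 := by
  intro h0
  rw [sub_eq_zero] at h0
  have hw := normalises_wMat h.hq h.hqN
  have hW : hAct (wMat N q) x = ε • x := by
    conv_rhs => rw [h0, smul_smul, hε, one_smul]
  let c : Mat → ZMod p := fun γ => x (act γ vE)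
  have hom : IsHomOn N c := fun γ hγ δ hδ => hx.apply_mul hγ hδ
  have hrel : ∀ a b C d : ℤ, mm a (q * b) C d ∈ Lvl N →
      c (mm a b (q * C) d) = ε • c (mm a (q * b) C d) := by
    intro a b C d hζ
    obtain ⟨hmem, γ, hγ, e, hc⟩ := exists_conj_wMat h.hq h.hqN hζ
    rw [← hc c hom]
    have h1 := congrFun hW (act (mm a b (q * C) d) vE)
    have hne : ∀ {δ : Mat}, δ.det ≠ 0 → act δ vE ≠ 0 := fun hd => act_ne_zero hd vE_ne_zero
    simp only [hAct] at h1
    rw [op_apply _ _ (hne (det_ne_zero_of_lvl hmem)), Fintype.sum_unique, ← act_mul, ← e, act_mul,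
      hx.equiv γ (lvl_mono (dvd_mul_right N q) hγ) _ (hne hw.det_ne_zero), add_sub_cancel_right,
      Pi.smul_apply] at h1
    change x _ = ε • x _
    rw [h1, smul_smul, hε, one_smul]
  have hc0 : ∀ γ ∈ Lvl N, c γ = 0 := fun γ hγ => h.ihara_eq_zero hom
    ⟨ε • c, fun γ hγ δ hδ => by simp only [Pi.smul_apply, hom γ hγ δ hδ, smul_add],
      fun a b C d hζ => hrel a b C d hζ⟩
    (fun γ hγ γ' hγ' hcomm => by
      have h1 := congrFun (hev ℓ h.mem) (act γ vE)
      have hdet : ∀ i, (heckMat ℓ i).det ≠ 0 := fun i => by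
        rw [det_heckMat]; exact_mod_cast (h.prime_of_mem h.mem).ne_zero
      simp only [hT, Pi.smul_apply, smul_eq_mul] at h1
      rw [op_apply _ _ (act_ne_zero (det_ne_zero_of_lvl hγ) vE_ne_zero)] at h1
      rw [← h1]
      refine Finset.sum_congr rfl fun i _ => ?_
      rw [← act_mul, hcomm, act_mul, hx.equiv _ (hγ' i) _ (act_ne_zero (hdet i) vE_ne_zero),
        add_sub_cancel_right]) hγ
  have h2 := hT_of_invariant hx hc0 (h.prime_of_mem hℓ'R) hℓ'N
  rw [hev ℓ' hℓ'R] at h2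
  refine hx0 (funext fun v => ?_)
  have h3 : ((a ℓ' : ZMod p) - ((ℓ' : ZMod p) + 1)) * x v = 0 := by
    have := congrFun h2 v
    simp only [Pi.smul_apply, smul_eq_mul, nsmul_eq_mul] at this
    push_cast at this
    linear_combination this
  exact (mul_eq_zero.mp h3).resolve_left (sub_ne_zero.mpr ha')

/-- The complex eigen symbol of level `N q` with congruent eigenvalues and `U_q² = 1`. -/
theorem exists_eigenSymbol {ℓ' : ℕ} (hℓ'R : ℓ' ∈ R) (hℓ'N : (N : ℤ) ∣ (ℓ' : ℤ) - 1)
    (ha' : (a ℓ' : ZMod p) ≠ (ℓ' : ZMod p) + 1) {ε : ℤ} (hε : ε * ε = 1) {G0 : Vec → ℂ}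
    (hG0 : IsSym N G0) (h0 : G0 ≠ 0) (𝔪 : Ideal (integralClosure ℤ ℂ)) (h𝔪 : 𝔪.IsPrime)
    (hp : (p : integralClosure ℤ ℂ) ∈ 𝔪)
    (hG : ∀ r ∈ R, ∃ c : integralClosure ℤ ℂ, hT r G0 = (c : ℂ) • G0 ∧
      c - (a r : integralClosure ℤ ℂ) ∈ 𝔪)
    (hGq : ∃ c : integralClosure ℤ ℂ, hT q G0 = (c : ℂ) • G0 ∧
      c - ((ε * (q + 1) : ℤ) : integralClosure ℤ ℂ) ∈ 𝔪) :
    ∃ (Ψ : Vec → ℂ) (𝔪' : Ideal (integralClosure ℤ ℂ)), IsSym (N * q) Ψ ∧ Ψ ≠ 0 ∧
      hU q (hU q Ψ) = Ψ ∧ 𝔪'.IsMaximal ∧ (p : integralClosure ℤ ℂ) ∈ 𝔪' ∧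
      ∀ r ∈ R, ∃ β : integralClosure ℤ ℂ, hT r Ψ = (β : ℂ) • Ψ ∧
        β - (a r : integralClosure ℤ ℂ) ∈ 𝔪' := by
  classical
  have hq := h.hq
  have hqN := h.hqN
  have : NeZero (N * q) := ⟨mul_ne_zero (NeZero.ne N) hq.ne_zero⟩
  have hqR : q ∉ R := fun hr => (h.hR q hr).2 (dvd_mul_left q N)
  have hw := normalises_wMat hq hqN
  -- the mod `p` eigen symbol of level `N`
  obtain ⟨x0, hx0s, hx0, hx0e⟩ := exists_redSym_eigen (p := p) (S := insert q R) (fun r hr => by
      rcases Set.mem_insert_iff.mp hr with rfl | hr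
      · exact ⟨hq, hqN⟩
      · exact ⟨h.prime_of_mem hr, h.not_dvd_of_mem hr⟩) hG0 h0 𝔪 h𝔪 hp
    (Function.update a q (ε * (q + 1))) (fun r hr => by
      rcases Set.mem_insert_iff.mp hr with rfl | hr
      · simpa using hGq
      · simpa [Function.update_of_ne (ne_of_mem_of_not_mem hr hqR)] using hG r hr)
  set x := redFun p x0 with hxdef
  have hxs : IsSym N x := isSym_redFun p hx0s
  have hxe : ∀ r ∈ R, hT r x = (a r : ZMod p) • x := fun r hr => by
    simpa [Function.update_of_ne (ne_of_mem_of_not_mem hr hqR)] using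
      hx0e r (Set.mem_insert_of_mem q hr)
  have hxq : hT q x = ((ε * (q + 1) : ℤ) : ZMod p) • x := by
    simpa using hx0e q (Set.mem_insert q R)
  have hεp : (ε : ZMod p) * (ε : ZMod p) = 1 := by exact_mod_cast congrArg (Int.cast : ℤ → ZMod p) hε
  -- its stabilisation
  have hxNq : IsSym (N * q) x0 := hx0s.of_dvd (dvd_mul_right N q)
  set y0 : symLattice (N * q) := ⟨x0, hxNq⟩
  set y1 : symLattice (N * q) := ⟨hAct (wMat N q) x0, isSym_hAct hw hxNq⟩
  set v0 := y0 - ε • y1 with hv0def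
  have hv0red : (redHom (N * q) p v0 : Vec → ZMod p) = x - (ε : ZMod p) • hAct (wMat N q) x := by
    rw [hv0def, map_sub, redHom_smul, Submodule.coe_sub, Submodule.coe_smul, redHom_coe,
      redHom_coe]
    simp only [y0, y1, hAct, hxdef, op_redFun]
  have hv0ne : redHom (N * q) p v0 ≠ 0 := fun he =>
    h.sub_hAct_ne_zero hℓ'R hℓ'N ha' hxs hx0 hxe hεp (hv0red.symm.trans (congrArg Subtype.val he))
  set T : R → Module.End ℤ (symLattice (N * q)) := fun r => latT (h.hR r r.2).1 (h.hR r r.2).2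
  set Tp : R → Module.End (ZMod p) (redSym (N * q) p) :=
    fun r => redT p (h.hR r r.2).1 (h.hR r r.2).2
  have hredT : ∀ (r : R) w, redHom (N * q) p (T r w) = Tp r (redHom (N * q) p w) :=
    fun r w => redHom_latMap _ _ w
  have hv0e : ∀ r : R, Tp r (redHom (N * q) p v0) = (a r : ZMod p) • redHom (N * q) p v0 := by
    intro r
    refine Subtype.ext ?_
    rw [redMap_coe, Submodule.coe_smul, hv0red, ← opLin_apply (ZMod p), map_sub, map_smul,
      opLin_apply, opLin_apply]
    have e : hT r (hAct (wMat N q) x) = (a r : ZMod p) • hAct (wMat N q) x := by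
      rw [← hAct_hT hw (h.hR r r.2).1 (h.hR r r.2).2 (hxs.of_dvd (dvd_mul_right N q)), hxe r r.2]
      exact map_smul (opLin (ZMod p) fun _ : Unit => wMat N q) _ _
    simp only [hT, hAct] at e hxe ⊢
    rw [e, hxe r r.2, smul_sub, smul_comm]
  -- both traces of it are divisible by `p`
  obtain ⟨u, hu⟩ : ∃ u, iota hq hqN v0 = (p : ℤ) • u := by
    have hTrx : hTr N q x = (q + 1) • x := hTr_of_isSym hq hqN hxs
    have hTrWx : hTr N q (hAct (wMat N q) x) = hT q x := hTr_hAct_of_isSym hq hqN hxs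
    have e0 : iotaRed p hq hqN (redHom (N * q) p v0) = 0 := by
      refine Prod.ext (Subtype.ext ?_) (Subtype.ext ?_)
      · change hTr N q (redHom (N * q) p v0 : Vec → ZMod p) = 0
        simp only [hTr, hT, hAct] at hTrx hTrWx hxq ⊢
        rw [hv0red, ← opLin_apply (ZMod p), map_sub, map_smul, opLin_apply, opLin_apply, hTrx,
          hTrWx, hxq, smul_smul, ← Nat.cast_smul_eq_nsmul (ZMod p), ← sub_smul]
        push_cast
        rw [← mul_assoc, hεp, one_mul, sub_self, zero_smul]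
      · change hTr N q (hAct (wMat N q) (redHom (N * q) p v0 : Vec → ZMod p)) = 0
        have hWW : hAct (wMat N q) (hAct (wMat N q) x) = x :=
          hAct_wMat_wMat hq hqN (hxs.of_dvd (dvd_mul_right N q))
        simp only [hTr, hT, hAct] at hTrx hTrWx hxq hWW ⊢
        rw [hv0red, ← opLin_apply (ZMod p) (fun _ : Unit => wMat N q), map_sub, map_smul,
          opLin_apply, opLin_apply, hWW, ← opLin_apply (ZMod p) (traceMat N q), map_sub, map_smul,
          opLin_apply, opLin_apply, hTrx,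
          hTrWx, hxq, ← Nat.cast_smul_eq_nsmul (ZMod p), smul_smul, ← sub_smul]
        push_cast
        rw [sub_self, zero_smul]
    rw [← redPair_iota] at e0
    obtain ⟨G1, hG1, e1⟩ := exists_eq_smul_of_redFun_eq_zero (NeZero.ne p) (iota hq hqN v0).1.2
      (congrArg (fun y => ((y.1 : redSym N p) : Vec → ZMod p)) e0)
    obtain ⟨G2, hG2, e2⟩ := exists_eq_smul_of_redFun_eq_zero (NeZero.ne p) (iota hq hqN v0).2.2
      (congrArg (fun y => ((y.2 : redSym N p) : Vec → ZMod p)) e0)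
    exact ⟨(⟨G1, hG1⟩, ⟨G2, hG2⟩), Prod.ext (Subtype.ext e1) (Subtype.ext e2)⟩
  -- move it into the kernel of both traces
  obtain ⟨L, hL, hLB⟩ := h.exists_annihilator
  set PA := listOp T L
  set TB : R → Module.End ℤ (symLattice N × symLattice N) :=
    fun r => (latT (h.prime_of_mem r.2) (h.not_dvd_of_mem r.2)).prodMap
      (latT (h.prime_of_mem r.2) (h.not_dvd_of_mem r.2))
  have hiotaT : ∀ (r : R) w, iota hq hqN (T r w) = TB r (iota hq hqN w) := fun r w =>
    Prod.ext (Subtype.ext (hTr_hT hq hqN (h.hR r r.2).1 (h.hR r r.2).2 w.2))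
      (Subtype.ext (hTr_hAct_hT hq hqN (h.hR r r.2).1 (h.hR r r.2).2 w.2))
  obtain ⟨n, v1, hv1⟩ := exists_kernel_lift (iota hq hqN) (p : ℤ) PA (listOp TB L)
    (fun w => listOp_sandwich (iota hq hqN) hiotaT L w) hLB hu
  set K := LinearMap.ker (iota hq hqN) with hK
  set v2 : K := ⟨(PA ^ n) v0 - (p : ℤ) • v1, LinearMap.mem_ker.mpr hv1⟩ with hv2
  set cL : ZMod p := ((listVal (fun r : R => a r) L : ℤ) : ZMod p) with hcL
  have hpow : ∀ k : ℕ, redHom (N * q) p ((PA ^ k) v0) = cL ^ k • redHom (N * q) p v0 := by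
    intro k
    induction k with
    | zero => simp
    | succ k ih =>
      rw [pow_succ', Module.End.mul_apply, listOp_semilinear (Int.castRingHom (ZMod p)) (S := Tp)
        (redHom (N * q) p) (fun c w => redHom_smul c w) hredT L, ih, map_smul,
        listOp_eigen hv0e, smul_smul, pow_succ]
      congr 2
      rw [hcL, ← eq_intCast (Int.castRingHom (ZMod p)), map_listVal]
      rfl
  have hv2red : redHom (N * q) p v2.1 = cL ^ n • redHom (N * q) p v0 := by
    rw [hv2, map_sub, redHom_smul, hpow, Int.cast_natCast, ZMod.natCast_self, zero_smul, sub_zero]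
  -- lift to characteristic zero
  have hTK : ∀ r : R, ∀ w ∈ K, T r w ∈ K := fun r w hw' => by
    rw [hK, LinearMap.mem_ker] at hw' ⊢
    rw [hiotaT, hw', map_zero]
  have : Module.Free ℤ K := Module.free_of_finite_type_torsion_free'
  set f : K →ₗ[ℤ] Vec → ℤ := (symLattice (N * q)).subtype.comp K.subtype
  obtain ⟨z, β, 𝔪', hz0, hmax, hp', hz⟩ := exists_complex_eigen_lift f
    (fun w w' e => Subtype.ext (Subtype.ext e))
    ((redHom (N * q) p).comp K.subtype.toAddMonoidHom)
    (fun r : R => (T r).restrict (hTK r))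
    (fun r s => LinearMap.ext fun w => Subtype.ext (LinearMap.congr_fun
      (commute_latT (h.hR r r.2).1 (h.hR r r.2).2 (h.hR s s.2).1 (h.hR s s.2).2).eq w.1))
    (fun r : R => a r) v2 (by
      change redHom (N * q) p v2.1 ≠ 0
      rw [hv2red]
      exact smul_ne_zero (pow_ne_zero n hL) hv0ne)
    (fun r => by
      change redHom (N * q) p (T r v2.1) = (a r : ZMod p) • redHom (N * q) p v2.1
      rw [hredT, hv2red, map_smul, hv0e, smul_comm])
    (fun r w hw' => by
      change redHom (N * q) p (T r w.1) = 0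
      rw [hredT, show redHom (N * q) p w.1 = 0 from hw', map_zero])
  have hfsym : ∀ w, IsSym (N * q) (f w) := fun w => w.1.2
  have htr : ∀ w : K, hTr N q (f w) = 0 := fun w =>
    congrArg (fun y => ((y.1 : symLattice N) : Vec → ℤ)) (LinearMap.mem_ker.mp w.2)
  have htrW : ∀ w : K, hTr N q (hAct (wMat N q) (f w)) = 0 := fun w =>
    congrArg (fun y => ((y.2 : symLattice N) : Vec → ℤ)) (LinearMap.mem_ker.mp w.2)
  have hΨ := isSym_tensorEval hfsym z
  refine ⟨tensorEval f z, 𝔪', hΨ, hz0, hU_hU_of_traces_eq_zero hq hqN hΨ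
    (op_tensorEval_eq_zero _ htr z) ?_, hmax, hp', fun r hr => ?_⟩
  · have hd : ∀ i, (traceMat N q i).det ≠ 0 := fun i => by
      rw [det_traceMat hq hqN]; exact one_ne_zero
    simp only [hTr, hAct] at htrW ⊢
    rw [op_op _ _ hd]
    refine op_tensorEval_eq_zero _ (fun w => ?_) z
    exact (op_op (traceMat N q) (fun _ : Unit => wMat N q) hd (f w)).symm.trans (htrW w)
  · obtain ⟨hz1, hz2⟩ := hz ⟨r, hr⟩
    refine ⟨β ⟨r, hr⟩, ?_, hz2⟩
    have e := tensorEval_op (f := f) (T := (T ⟨r, hr⟩).restrict (hTK ⟨r, hr⟩)) (heckMat r)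
      (fun w => rfl) z
    rw [hz1, map_smul] at e
    exact e.symm

end Auxiliary

end Fermat.Agent.LevelRaising
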