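import Fermat.Agent.BigImage.Frey
import Fermat.Agent.Chebotarev.Main
import Fermat.Agent.EigenRep.Cyclotomic
import Fermat.Agent.EllFrobenius.Rat
import Fermat.Agent.LevelRaising.GaloisModel

/-!
# Auxiliary primes from irreducibility and oddness

With complex conjugation in the form `diag (1, -1)`, irreducibility gives an element with both
off-diagonal entries non-zero; from it we get elements avoiding `tr² = (det + 1)²` and elements
fixing given roots of unity with `tr ≠ 2`.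
-/

set_option autoImplicit false

open WeierstrassCurve
open scoped WeierstrassCurve.Affine

namespace Fermat.Agent.LevelRaising

universe ua ub

section Plane

variable {k : Type ua} [Field k] {V : Type ub} [AddCommGroup V] [Module k V] {G : Type*} [Group G]
  {ρ : G →* Module.End k V}

theorem exists_offDiag_ne_zero (hirr : BigImage.NoStableSubspace ρ)
    (b : Module.Basis (Fin 2) k V) :
    ∃ g, LinearMap.toMatrix b b (ρ g) 0 1 * LinearMap.toMatrix b b (ρ g) 1 0 ≠ 0 := by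
  by_contra hc
  simp only [not_exists, not_not] at hc
  obtain ⟨g, hg⟩ := BigImage.exists_not_mem_span hirr b 0
  obtain ⟨h, hh⟩ := BigImage.exists_not_mem_span hirr b 1
  have hentry : ∀ (f : Module.End k V) (i j : Fin 2), i ≠ j →
      LinearMap.toMatrix b b f i j = 0 → f (b j) ∈ Submodule.span k {b j} := by
    intro f i j hij hz
    refine Submodule.mem_span_singleton.mpr ⟨b.repr (f (b j)) j, b.ext_elem fun l => ?_⟩
    rw [LinearMap.toMatrix_apply] at hz
    rcases eq_or_ne l j with rfl | hl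
    · simp
    · obtain rfl : l = i := by omega
      simp [hij, hz]
  set A := LinearMap.toMatrix b b (ρ g)
  set B := LinearMap.toMatrix b b (ρ h)
  have hA : A 1 0 ≠ 0 := fun hz => hg (hentry _ 1 0 (by decide) hz)
  have hB : B 0 1 ≠ 0 := fun hz => hh (hentry _ 0 1 (by decide) hz)
  have hA' : A 0 1 = 0 := (mul_eq_zero.mp (hc g)).resolve_right hA
  have hB' : B 1 0 = 0 := (mul_eq_zero.mp (hc h)).resolve_left hB
  have hdetA : A 0 0 * A 1 1 ≠ 0 := by
    have h1 : IsUnit A.det := by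
      have : IsUnit (ρ g) := (Group.isUnit g).map ρ
      simpa [A, LinearMap.det_toMatrix] using this.map (LinearMap.det : Module.End k V →* k)
    rw [Matrix.det_fin_two, hA', zero_mul, sub_zero] at h1
    exact h1.ne_zero
  have hdetB : B 0 0 * B 1 1 ≠ 0 := by
    have h1 : IsUnit B.det := by
      have : IsUnit (ρ h) := (Group.isUnit h).map ρ
      simpa [B, LinearMap.det_toMatrix] using this.map (LinearMap.det : Module.End k V →* k)
    rw [Matrix.det_fin_two, hB', mul_zero, sub_zero] at h1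
    exact h1.ne_zero
  have e : LinearMap.toMatrix b b (ρ (g * h)) = A * B := by
    rw [map_mul, LinearMap.toMatrix_mul]
  have h2 := hc (g * h)
  rw [e, Matrix.mul_apply, Matrix.mul_apply, Fin.sum_univ_two, Fin.sum_univ_two, hA', hB',
    zero_mul, add_zero, mul_zero, add_zero] at h2
  exact mul_ne_zero (mul_ne_zero (left_ne_zero_of_mul hdetA) hB)
    (mul_ne_zero hA (left_ne_zero_of_mul hdetB)) h2

/-- An element with `tr² ≠ (det + 1)²`, and one in any subgroup containing the commutators with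
`c`, with `tr ≠ det + 1`. -/
theorem exists_trace_ne (hirr : BigImage.NoStableSubspace ρ) (hdim : Module.finrank k V = 2)
    (h2 : (2 : k) ≠ 0) {c : G} (hc : c * c = 1) (hdet : LinearMap.det (ρ c) = -1)
    (H : Subgroup G) (hH : ∀ g, g * c * g⁻¹ * c ∈ H) :
    (∃ g, LinearMap.trace k V (ρ g) ^ 2 ≠ (LinearMap.det (ρ g) + 1) ^ 2) ∧
      ∃ g ∈ H, LinearMap.trace k V (ρ g) ≠ LinearMap.det (ρ g) + 1 := by
  obtain ⟨b, h0, h1⟩ := BigImage.exists_involution_basis hdim h2
    (f := ρ c) (fun v => by rw [← Module.End.mul_apply, ← map_mul, hc, map_one, Module.End.one_apply])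
    hdet
  obtain ⟨g, hg⟩ := exists_offDiag_ne_zero hirr b
  let M : G →* Matrix (Fin 2) (Fin 2) k := (LinearMap.toMatrixAlgEquiv b : _ →* _).comp ρ
  have hMtr : ∀ x, LinearMap.trace k V (ρ x) = M x 0 0 + M x 1 1 := fun x => by
    rw [LinearMap.trace_eq_matrix_trace k b, Matrix.trace_fin_two]; rfl
  have hMdet : ∀ x, LinearMap.det (ρ x) = M x 0 0 * M x 1 1 - M x 0 1 * M x 1 0 := fun x => by
    rw [← LinearMap.det_toMatrix b, Matrix.det_fin_two]; rfl
  have hMc : M c = !![1, 0; 0, -1] := by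
    ext i j
    show LinearMap.toMatrix b b (ρ c) i j = _
    rw [LinearMap.toMatrix_apply]
    fin_cases j <;> fin_cases i <;> simp [h0, h1]
  change M g 0 1 * M g 1 0 ≠ 0 at hg
  constructor
  · by_contra hall
    simp only [not_exists, not_not] at hall
    have e1 := hall g
    have e2 := hall (g * c)
    rw [hMtr, hMdet] at e1 e2
    rw [map_mul, hMc, Matrix.eta_fin_two (M g)] at e2
    simp at e2
    refine hg ((mul_eq_zero.mp ?_).resolve_left (mul_ne_zero h2 h2))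
    linear_combination e1 - e2
  · refine ⟨g * c * g⁻¹ * c, hH g, fun he => ?_⟩
    set D := M g 0 0 * M g 1 1 - M g 0 1 * M g 1 0 with hD
    have hD0 : D ≠ 0 := by
      have h1 : IsUnit (M g).det := ((Group.isUnit g).map M).map Matrix.detMonoidHom
      rw [Matrix.det_fin_two] at h1
      exact h1.ne_zero
    have hinv : M g⁻¹ = D⁻¹ • !![M g 1 1, -(M g 0 1); -(M g 1 0), M g 0 0] := by
      have h3 : M g * (D⁻¹ • !![M g 1 1, -(M g 0 1); -(M g 1 0), M g 0 0]) = 1 := by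
        rw [Matrix.mul_smul, ← Matrix.adjugate_fin_two, Matrix.mul_adjugate, Matrix.det_fin_two,
          ← hD, smul_smul, inv_mul_cancel₀ hD0, one_smul]
      have h4 : M g⁻¹ * M g = 1 := by rw [← map_mul, inv_mul_cancel, map_one]
      calc M g⁻¹ = M g⁻¹ * (M g * (D⁻¹ • !![M g 1 1, -(M g 0 1); -(M g 1 0), M g 0 0])) := by
            rw [h3, mul_one]
        _ = _ := by rw [← mul_assoc, h4, one_mul]
    have hcomm : LinearMap.det (ρ (g * c * g⁻¹ * c)) = 1 := by
      rw [map_mul, map_mul, map_mul, map_mul, map_mul, map_mul, hdet]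
      have : LinearMap.det (ρ g) * LinearMap.det (ρ g⁻¹) = 1 := by
        rw [← map_mul, ← map_mul, mul_inv_cancel, map_one, map_one]
      linear_combination this
    rw [hcomm, hMtr, map_mul, map_mul, map_mul, hinv, hMc, Matrix.eta_fin_two (M g)] at he
    simp at he
    field_simp at he
    refine hg ((mul_eq_zero.mp ?_).resolve_left (mul_ne_zero h2 h2))
    rw [hD] at he
    linear_combination he

end Plane

local notation "Ω" => AlgebraicClosure ℚ

/-- A Frobenius element at `ℓ` fixing a primitive `m`-th root of unity, `ℓ ∤ m`, has `ℓ ≡ 1`. -/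
theorem dvd_sub_one_of_frobenius {m ℓ : ℕ} (hℓ : ℓ.Prime) (hℓm : ¬ ℓ ∣ m) {ζ : Ω}
    (hζ : IsPrimitiveRoot ζ m) {A : ValuationSubring Ω} (hA : A.LiesOverPrime ℓ)
    {σ : Ω ≃ₐ[ℚ] Ω} (hσ : A.IsFrobeniusAt σ ℓ) (hfix : σ ζ = ζ) : m ∣ ℓ - 1 := by
  have hm : m ≠ 0 := fun h => hℓm (h ▸ dvd_zero ℓ)
  let z : A := ⟨ζ, Frobenius.mem_of_isIntegral A (hζ.isIntegral (Nat.pos_of_ne_zero hm))⟩
  have hzm : z ^ m = 1 := Subtype.ext hζ.pow_eq_one
  have hchar := Frobenius.residueField_charP hℓ hA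
  have hres : IsLocalRing.residue A z ^ ℓ = IsLocalRing.residue A z := by
    rw [← hσ.smul_residue_eq, ← IsLocalRing.ResidueField.residue_smul]
    exact congrArg _ (Subtype.ext hfix)
  have hz0 : IsLocalRing.residue A z ≠ 0 :=
    ((IsUnit.of_pow_eq_one hzm hm).map (IsLocalRing.residue A)).ne_zero
  have h1 : IsLocalRing.residue A (z ^ (ℓ - 1)) = 1 := by
    rw [map_pow]
    refine mul_right_cancel₀ hz0 ?_
    rw [← pow_succ, Nat.sub_add_cancel hℓ.one_le, hres, one_mul]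
  have hw := EigenRep.eq_one_of_residue_eq_one (A := A) (m := m) (fun h0 => by
    rw [CharP.cast_eq_zero_iff (IsLocalRing.ResidueField A) ℓ] at h0
    exact hℓm h0) (u := z ^ (ℓ - 1)) (by rw [← pow_mul, mul_comm, pow_mul, hzm, one_pow]) h1
  exact hζ.dvd_of_pow_eq_one _ (congrArg Subtype.val hw)

/-- The two kinds of auxiliary primes. -/
theorem exists_auxiliary_primes {E : WeierstrassCurve ℚ} [E.IsElliptic] {W : WeierstrassCurve ℤ}
    (hW : W.IsIntegralModelOf E) {p : ℕ} [Fact p.Prime] (hp2 : p ≠ 2)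
    (hirr : Affine.Point.GaloisRepIsIrreducible (K := Ω) ℚ E p) (m : ℕ) [NeZero m] (S : Finset ℕ) :
    (∃ ℓ : ℕ, ℓ.Prime ∧ ℓ ∉ S ∧ ℓ ≠ p ∧ W.IsGoodPrimeFor ℓ ∧
        (W.apOfModel ℓ : ZMod p) ^ 2 ≠ ((ℓ : ZMod p) + 1) ^ 2) ∧
      ∃ ℓ : ℕ, ℓ.Prime ∧ ℓ ∉ S ∧ ℓ ≠ p ∧ W.IsGoodPrimeFor ℓ ∧ (m : ℤ) ∣ (ℓ : ℤ) - 1 ∧
        (W.apOfModel ℓ : ZMod p) ≠ (ℓ : ZMod p) + 1 := by
  classical
  obtain ⟨C, hC⟩ := hW
  set E' := W.map (Int.castRingHom ℚ) with hE'
  have : E'.IsElliptic := hC ▸ inferInstance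
  have hΔ : W.Δ ≠ 0 := fun h0 => E'.isUnit_Δ.ne_zero (by
    rw [hE', WeierstrassCurve.map_Δ, h0, map_zero])
  have hirr' : BigImage.NoStableSubspace
      (Affine.Point.galoisRepModuleEnd (K := Ω) ℚ E' p) :=
    BigImage.noStableSubspace_of_irreducible (galoisRepIsIrreducible_of_variableChange hC hirr)
  set ρ := Affine.Point.galoisRepModuleEnd (K := Ω) ℚ E' p
  obtain ⟨ζ, hζ'⟩ := IsAlgClosed.exists_root _
    (Polynomial.degree_cyclotomic_pos m Ω (Nat.pos_of_ne_zero (NeZero.ne m))).ne'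
  have : NeZero (m : Ω) := ⟨Nat.cast_ne_zero.mpr (NeZero.ne m)⟩
  have hζ : IsPrimitiveRoot ζ m := Polynomial.isRoot_cyclotomic_iff.mp hζ'
  have hroot : ∀ g : Ω ≃ₐ[ℚ] Ω, (g * complexConjugation * g⁻¹ * complexConjugation) ζ = ζ := by
    intro g
    have hi : ∀ μ : Ω, μ ^ m = 1 → complexConjugation μ = μ⁻¹ := fun μ hμ =>
      BigImage.involution_root_of_unity complexConjugation_mul_self
        BigImage.complexConjugation_ne_one (NeZero.ne m) hμ
    rw [AlgEquiv.mul_apply, AlgEquiv.mul_apply, AlgEquiv.mul_apply, hi ζ hζ.pow_eq_one,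
      hi _ (by rw [← map_pow, inv_pow, hζ.pow_eq_one, inv_one, map_one]), map_inv₀ g,
      show g (g⁻¹ ζ⁻¹) = ζ⁻¹ from g.apply_symm_apply _, inv_inv]
  obtain ⟨⟨g1, hg1⟩, g2, hg2, hg2'⟩ := exists_trace_ne hirr'
    (EllTorsion.finrank_torsionBy_rat E' p) (BigImage.two_ne_zero_zmod hp2)
    complexConjugation_mul_self
    (BigImage.det_involution E' p complexConjugation_mul_self BigImage.complexConjugation_ne_one)
    (MulAction.stabilizer (Ω ≃ₐ[ℚ] Ω) ζ) hroot
  obtain ⟨L, hLfin, hL⟩ := EllTorsion.galoisFactorsThroughFiniteLevel_galoisRepModuleEnd E'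
    (Fact.out : p.Prime).ne_zero
  set L' := L ⊔ IntermediateField.adjoin ℚ {ζ}
  have : FiniteDimensional ℚ (IntermediateField.adjoin ℚ {ζ}) :=
    IntermediateField.adjoin.finiteDimensional
      (hζ.isIntegral (Nat.pos_of_ne_zero (NeZero.ne m))).tower_top
  have : FiniteDimensional ℚ L' := IntermediateField.finiteDimensional_sup L _
  set S' := S ∪ {p} ∪ W.Δ.natAbs.primeFactors ∪ m.primeFactors
  have key : ∀ g, ∃ ℓ : ℕ, ℓ.Prime ∧ ℓ ∉ S ∧ ℓ ≠ p ∧ W.IsGoodPrimeFor ℓ ∧ ¬ ℓ ∣ m ∧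
      (W.apOfModel ℓ : ZMod p) = LinearMap.trace (ZMod p) _ (ρ g) ∧
      (ℓ : ZMod p) = LinearMap.det (ρ g) ∧
      (g ζ = ζ → m ∣ ℓ - 1) := by
    intro g
    obtain ⟨ℓ, hℓ, hℓS, A, hA, σ, hσ, heq⟩ := Chebotarev.exists_isFrobeniusAt_eqOn L' g S'
    simp only [S', Finset.mem_union, Finset.mem_singleton, Nat.mem_primeFactors, hℓ, true_and,
      ne_eq, Int.natAbs_eq_zero, hΔ, not_false_eq_true, and_true, NeZero.ne m,
      not_or] at hℓS
    obtain ⟨⟨⟨hS, hp⟩, hΔℓ⟩, hm⟩ := hℓS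
    have hgood : W.IsGoodPrimeFor ℓ := fun hd => hΔℓ (Int.natCast_dvd.mp hd)
    have := Fact.mk hℓ
    have hρ : ρ σ = ρ g := by
      have h1 : ρ (g⁻¹ * σ) = 1 := hL _ fun x hx => by
        rw [AlgEquiv.mul_apply, heq x ((le_sup_left : L ≤ L') hx)]
        exact g.symm_apply_apply x
      calc ρ σ = ρ g * ρ (g⁻¹ * σ) := by rw [← map_mul, mul_inv_cancel_left]
        _ = ρ g := by rw [h1, mul_one]
    refine ⟨ℓ, hℓ, hS, hp, hgood, hm, ?_, ?_, fun hgζ => ?_⟩
    · rw [← hρ]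
      exact (EllFrobenius.galoisTrace_eq_apOfModel W ℓ p hp hgood A σ hA hσ).symm
    · rw [← hρ]
      exact (EllFrobenius.det_eq_of_isFrobeniusAt W ℓ p hp hgood A σ hA hσ).symm
    · refine dvd_sub_one_of_frobenius hℓ hm hζ hA hσ ?_
      rw [heq ζ ((le_sup_right : IntermediateField.adjoin ℚ {ζ} ≤ L')
        (IntermediateField.mem_adjoin_simple_self ℚ ζ))]
      exact hgζ
  refine ⟨?_, ?_⟩
  · obtain ⟨ℓ, h1, h2, h3, h4, -, h5, h6, -⟩ := key g1
    exact ⟨ℓ, h1, h2, h3, h4, by rw [h5, h6]; exact hg1⟩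
  · obtain ⟨ℓ, h1, h2, h3, h4, -, h5, h6, h7⟩ := key g2
    refine ⟨ℓ, h1, h2, h3, h4, ?_, by rw [h5, h6]; exact hg2'⟩
    have h8 := Int.natCast_dvd_natCast.mpr (h7 hg2)
    rwa [Nat.cast_sub h1.one_le, Nat.cast_one] at h8

end Fermat.Agent.LevelRaising
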